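import Mathlib

/-!
# The Eisenstein integers
-/

set_option autoImplicit false
set_option linter.unusedSectionVars false
set_option linter.style.haveILetI false

open NumberField

namespace Fermat.Agent.LT.RS

variable {K : Type*} [Field K] [NumberField K] [IsCyclotomicExtension {3} ℚ K]

section basic

variable {ζ : K} (hζ : IsPrimitiveRoot ζ 3)

include hζ in
theorem w_rel' : ζ ^ 2 + ζ + 1 = 0 := by
  have h1 : ζ ^ 3 = 1 := hζ.pow_eq_one
  have h2 : ζ ≠ 1 := hζ.ne_one (by norm_num)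
  have h3 : (ζ - 1) * (ζ ^ 2 + ζ + 1) = 0 := by linear_combination h1
  exact (mul_eq_zero.mp h3).resolve_left (sub_ne_zero.mpr h2)

theorem w_rel : hζ.toInteger ^ 2 + hζ.toInteger + 1 = 0 := by
  apply RingOfIntegers.ext
  push_cast
  exact w_rel' hζ

theorem exists_rep (x : 𝓞 K) : ∃ a b : ℤ, x = a + b * hζ.toInteger := by
  have h : Algebra.adjoin ℤ {hζ.toInteger} = (⊤ : Subalgebra ℤ (𝓞 K)) := by
    have := hζ.integralPowerBasis.adjoin_gen_eq_top
    rwa [hζ.integralPowerBasis_gen] at this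
  have hx : x ∈ Algebra.adjoin ℤ {hζ.toInteger} := by rw [h]; trivial
  have hw := w_rel hζ
  induction hx using Algebra.adjoin_induction with
  | mem x hx =>
    rw [Set.mem_singleton_iff] at hx
    exact ⟨0, 1, by rw [hx]; simp⟩
  | algebraMap r => exact ⟨r, 0, by simp⟩
  | add x y _ _ hx hy =>
    obtain ⟨a, b, rfl⟩ := hx
    obtain ⟨c, d, rfl⟩ := hy
    exact ⟨a + c, b + d, by push_cast; ring⟩
  | mul x y _ _ hx hy =>
    obtain ⟨a, b, rfl⟩ := hx
    obtain ⟨c, d, rfl⟩ := hy
    refine ⟨a * c - b * d, a * d + b * c - b * d, ?_⟩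
    push_cast
    linear_combination (b : 𝓞 K) * d * hw

end basic

section cplx

variable (i : K →+* ℂ)

/-- the embedding of the ring of integers -/
noncomputable def io (x : 𝓞 K) : ℂ := i (x : K)

theorem io_add (x y : 𝓞 K) : io i (x + y) = io i x + io i y := by simp [io]
theorem io_mul (x y : 𝓞 K) : io i (x * y) = io i x * io i y := by simp [io]
theorem io_pow (x : 𝓞 K) (n : ℕ) : io i (x ^ n) = io i x ^ n := by simp [io]
theorem io_one : io i (1 : 𝓞 K) = 1 := by simp [io]
theorem io_intCast (n : ℤ) : io i (n : 𝓞 K) = n := by simp [io]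
theorem io_natCast (n : ℕ) : io i (n : 𝓞 K) = n := by simp [io]

omit [NumberField K] [IsCyclotomicExtension {3} ℚ K] in
theorem io_inj {x y : 𝓞 K} (h : io i x = io i y) : x = y :=
  RingOfIntegers.ext (i.injective h)

variable {ζ : K} (hζ : IsPrimitiveRoot ζ 3)

omit [NumberField K] [IsCyclotomicExtension {3} ℚ K] in
include hζ in
theorem iw_re_im : (i ζ).re = -1 / 2 ∧ (i ζ).im ^ 2 = 3 / 4 := by
  have h1 : ζ ^ 3 = 1 := hζ.pow_eq_one
  have h2 : ζ ≠ 1 := hζ.ne_one (by norm_num)
  have h3 : (ζ - 1) * (ζ ^ 2 + ζ + 1) = 0 := by linear_combination h1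
  have h4 := (mul_eq_zero.mp h3).resolve_left (sub_ne_zero.mpr h2)
  have h := congrArg i h4
  simp only [map_add, map_pow, map_one, map_zero] at h
  set z := i ζ
  have hre := congrArg Complex.re h
  have him := congrArg Complex.im h
  simp only [pow_two, Complex.add_re, Complex.mul_re, Complex.one_re, Complex.zero_re,
    Complex.add_im, Complex.mul_im, Complex.one_im, Complex.zero_im] at hre him
  have h5 : z.im * (2 * z.re + 1) = 0 := by linear_combination him
  rcases mul_eq_zero.mp h5 with h6 | h6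
  · exfalso
    rw [h6] at hre
    nlinarith [sq_nonneg (2 * z.re + 1)]
  · have h7 : z.re = -1 / 2 := by linarith
    refine ⟨h7, ?_⟩
    rw [h7] at hre
    linarith

omit [NumberField K] [IsCyclotomicExtension {3} ℚ K] in
include hζ in
theorem normsq_rep (a b : ℝ) : ‖(a : ℂ) + b * i ζ‖ ^ 2 = a ^ 2 - a * b + b ^ 2 := by
  obtain ⟨h1, h2⟩ := iw_re_im i hζ
  rw [Complex.sq_norm, Complex.normSq_apply]
  simp only [Complex.add_re, Complex.mul_re, Complex.ofReal_re, Complex.ofReal_im, Complex.add_im,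
    Complex.mul_im, zero_mul, sub_zero, add_zero, zero_add, h1]
  linear_combination (b : ℝ) ^ 2 * h2

include hζ in
theorem exists_conj (x : 𝓞 K) : ∃ x' : 𝓞 K, io i x' = (starRingEnd ℂ) (io i x) := by
  obtain ⟨a, b, rfl⟩ := exists_rep hζ x
  obtain ⟨h1, h2⟩ := iw_re_im i hζ
  refine ⟨(a - b : ℤ) + (-b : ℤ) * hζ.toInteger, ?_⟩
  have hw : io i hζ.toInteger = i ζ := rfl
  simp only [io_add, io_mul, io_intCast, hw]
  apply Complex.ext
  · simp [h1]; ring
  · simp

/-- the norm -/
noncomputable def nm (x : 𝓞 K) : ℕ := ⌊‖io i x‖ ^ 2⌋₊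

include hζ in
theorem nm_eq (x : 𝓞 K) : (nm i x : ℝ) = ‖io i x‖ ^ 2 := by
  obtain ⟨a, b, rfl⟩ := exists_rep hζ x
  have hw : io i hζ.toInteger = i ζ := rfl
  have h := normsq_rep i hζ (a : ℝ) (b : ℝ)
  have h2 : ‖io i ((a : 𝓞 K) + b * hζ.toInteger)‖ ^ 2 = (a ^ 2 - a * b + b ^ 2 : ℤ) := by
    rw [io_add, io_mul, io_intCast, io_intCast, hw]
    push_cast
    exact_mod_cast h
  rw [nm, h2]
  have h3 : (0 : ℤ) ≤ a ^ 2 - a * b + b ^ 2 := by
    have : (0 : ℝ) ≤ (a ^ 2 - a * b + b ^ 2 : ℤ) := by rw [← h2]; positivity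
    exact_mod_cast this
  obtain ⟨n, hn⟩ := Int.eq_ofNat_of_zero_le h3
  rw [hn]
  simp

include hζ in
theorem nm_mul (x y : 𝓞 K) : nm i (x * y) = nm i x * nm i y := by
  have : (nm i (x * y) : ℝ) = (nm i x * nm i y : ℕ) := by
    push_cast
    rw [nm_eq i hζ, nm_eq i hζ, nm_eq i hζ, io_mul, norm_mul, mul_pow]
  exact_mod_cast this

include hζ in
theorem nm_natCast (n : ℕ) : nm i (n : 𝓞 K) = n ^ 2 := by
  have : (nm i (n : 𝓞 K) : ℝ) = (n ^ 2 : ℕ) := by
    rw [nm_eq i hζ, io_natCast]; simp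
  exact_mod_cast this

include hζ in
theorem nm_eq_zero {x : 𝓞 K} (h : nm i x = 0) : x = 0 := by
  have h1 := nm_eq i hζ x
  rw [h] at h1
  have h2 : io i x = 0 := by
    have : ‖io i x‖ = 0 := by
      have := h1.symm
      simpa using this
    exact norm_eq_zero.mp this
  apply io_inj i
  rw [h2]
  simp [io]

include hζ in
theorem exists_mul_conj (x : 𝓞 K) : ∃ x' : 𝓞 K, io i x' = (starRingEnd ℂ) (io i x) ∧
    x * x' = (nm i x : 𝓞 K) := by
  obtain ⟨x', hx'⟩ := exists_conj i hζ x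
  refine ⟨x', hx', ?_⟩
  apply io_inj i
  rw [io_mul, hx', io_natCast, Complex.mul_conj, Complex.normSq_eq_norm_sq, ← nm_eq i hζ]
  simp

include hζ in
theorem isUnit_of_nm {x : 𝓞 K} (h : nm i x = 1) : IsUnit x := by
  obtain ⟨x', -, hx'⟩ := exists_mul_conj i hζ x
  rw [h, Nat.cast_one] at hx'
  exact IsUnit.of_mul_eq_one x' hx'

include hζ in
theorem nm_of_isUnit {x : 𝓞 K} (h : IsUnit x) : nm i x = 1 := by
  obtain ⟨y, hy⟩ := h.exists_right_inv
  have h1 : nm i x * nm i y = 1 := by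
    rw [← nm_mul i hζ, hy]
    have := nm_natCast i hζ 1
    simpa using this
  exact Nat.eq_one_of_mul_eq_one_right h1

include hζ in
theorem nm_dvd {x y : 𝓞 K} (h : x ∣ y) : nm i x ∣ nm i y := by
  obtain ⟨z, rfl⟩ := h
  rw [nm_mul i hζ]
  exact dvd_mul_right _ _

theorem rep_inj {a b : ℤ} (h : (a : 𝓞 K) + b * hζ.toInteger = 0) : a = 0 ∧ b = 0 := by
  have i : K →+* ℂ := (inferInstance : Nonempty (K →+* ℂ)).some
  have h2 := congrArg (io i) h
  have hw : io i hζ.toInteger = i ζ := rfl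
  rw [io_add, io_mul, io_intCast, io_intCast, hw] at h2
  have h3 := normsq_rep i hζ (a : ℝ) (b : ℝ)
  have h4 : ((a : ℝ) : ℂ) + ((b : ℝ) : ℂ) * i ζ = 0 := by
    push_cast
    rw [h2]
    simp [io]
  rw [h4, norm_zero] at h3
  have h5 : (a : ℤ) ^ 2 - a * b + b ^ 2 = 0 := by
    have : (a : ℝ) ^ 2 - a * b + b ^ 2 = 0 := by rw [← h3]; ring
    exact_mod_cast this
  constructor
  · nlinarith [sq_nonneg (2 * b - a), sq_nonneg a, sq_nonneg (a - b)]
  · nlinarith [sq_nonneg (2 * a - b), sq_nonneg b, sq_nonneg (a - b)]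

end cplx

section primes

variable (i : K →+* ℂ) {ζ : K} (hζ : IsPrimitiveRoot ζ 3)

include hζ in
theorem irreducible_of_nm {x : 𝓞 K} {p : ℕ} (hp : p.Prime) (h : nm i x = p) : Irreducible x := by
  refine ⟨fun hu => ?_, fun a b hab => ?_⟩
  · have := nm_of_isUnit i hζ hu
    rw [h] at this
    exact hp.one_lt.ne' this
  · have h1 : nm i a * nm i b = p := by rw [← nm_mul i hζ, ← hab, h]
    rcases (Nat.dvd_prime hp).mp (Dvd.intro _ h1) with h2 | h2
    · exact Or.inl (isUnit_of_nm i hζ h2)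
    · right
      apply isUnit_of_nm i hζ
      rw [h2] at h1
      have := hp.pos
      exact Nat.eq_of_mul_eq_mul_left this (by rw [h1, mul_one])

/-- inert primes -/
theorem prime_of_mod2 {p : ℕ} (hp : p.Prime) (h3 : p % 3 = 2) : Prime (p : 𝓞 K) := by
  haveI : IsPrincipalIdealRing (𝓞 K) := IsCyclotomicExtension.Rat.three_pid K
  have hζ := IsCyclotomicExtension.zeta_spec 3 ℚ K
  have i : K →+* ℂ := (inferInstance : Nonempty (K →+* ℂ)).some
  rw [← irreducible_iff_prime]
  refine ⟨fun hu => ?_, fun a b hab => ?_⟩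
  · have := nm_of_isUnit i hζ hu
    rw [nm_natCast i hζ] at this
    have := hp.two_le
    nlinarith
  · have h1 : nm i a * nm i b = p ^ 2 := by rw [← nm_mul i hζ, ← hab, nm_natCast i hζ]
    obtain ⟨k, hk, h2⟩ := (Nat.dvd_prime_pow hp).mp (Dvd.intro _ h1)
    interval_cases k
    · exact Or.inl (isUnit_of_nm i hζ (by simpa using h2))
    · -- `nm a = p` impossible
      exfalso
      obtain ⟨u, v, huv⟩ := exists_rep hζ a
      have h4 := nm_eq i hζ a
      rw [huv, io_add, io_mul, io_intCast, io_intCast] at h4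
      have hw : io i hζ.toInteger = i (IsCyclotomicExtension.zeta 3 ℚ K) := rfl
      have h5 := normsq_rep i hζ (u : ℝ) (v : ℝ)
      push_cast at h5
      rw [hw, h5, ← huv, h2, pow_one] at h4
      have h6 : (p : ℤ) = u ^ 2 - u * v + v ^ 2 := by exact_mod_cast h4
      have h7 : ((p : ℤ) : ZMod 3) = 2 := by
        have : (p : ℤ) = 3 * (p / 3 : ℕ) + 2 := by omega
        rw [this]
        push_cast
        have h30 : (3 : ZMod 3) = 0 := by decide
        rw [h30]; ring
      rw [h6] at h7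
      push_cast at h7
      generalize (u : ZMod 3) = u' at h7
      generalize (v : ZMod 3) = v' at h7
      revert h7
      revert u' v'
      decide
    · right
      apply isUnit_of_nm i hζ
      rw [h2] at h1
      have h7 : 0 < p ^ 2 := pow_pos hp.pos 2
      exact Nat.eq_of_mul_eq_mul_left h7 (by rw [h1, mul_one])

/-- split primes -/
theorem split_of_mod1 {p : ℕ} (hp : p.Prime) (h3 : p % 3 = 1) : ∃ x x' : 𝓞 K,
    Prime x ∧ Prime x' ∧ x * x' = p ∧ ¬ Associated x x' ∧ ‖io i x‖ ^ 2 = p ∧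
    ‖io i x'‖ ^ 2 = p := by
  haveI : IsPrincipalIdealRing (𝓞 K) := IsCyclotomicExtension.Rat.three_pid K
  haveI := Fact.mk hp
  have hζ := IsCyclotomicExtension.zeta_spec 3 ℚ K
  have hw := w_rel hζ
  -- a root of `r² + r + 1`
  obtain ⟨r, hr⟩ : ∃ r : ℤ, (p : ℤ) ∣ r ^ 2 + r + 1 := by
    have h4 : 3 ∣ Fintype.card (ZMod p)ˣ := by
      rw [ZMod.card_units]
      omega
    haveI := Fact.mk Nat.prime_three
    obtain ⟨g, hg⟩ := exists_prime_orderOf_dvd_card 3 h4
    have h5 : (g : ZMod p) ^ 3 = 1 := by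
      have := pow_orderOf_eq_one g
      rw [hg] at this
      have h55 := congrArg Units.val this
      rw [Units.val_pow_eq_pow_val, Units.val_one] at h55
      exact h55
    have h6 : (g : ZMod p) ≠ 1 := by
      intro h
      have : g = 1 := Units.ext h
      rw [this, orderOf_one] at hg
      norm_num at hg
    have h7 : ((g : ZMod p) - 1) * ((g : ZMod p) ^ 2 + g + 1) = 0 := by linear_combination h5
    have h8 := (mul_eq_zero.mp h7).resolve_left (sub_ne_zero.mpr h6)
    refine ⟨((g : ZMod p).val : ℤ), ?_⟩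
    rw [← ZMod.intCast_zmod_eq_zero_iff_dvd]
    push_cast
    rw [ZMod.natCast_zmod_val]
    exact h8
  have hdvd : (p : 𝓞 K) ∣ (r - hζ.toInteger) * (r + 1 + hζ.toInteger) := by
    have h9 : ((r : 𝓞 K) - hζ.toInteger) * (r + 1 + hζ.toInteger) = ((r ^ 2 + r + 1 : ℤ) : 𝓞 K) := by
      push_cast
      linear_combination -hw
    rw [h9]
    obtain ⟨t, ht⟩ := hr
    exact ⟨(t : 𝓞 K), by rw [ht]; push_cast; ring⟩
  -- `p` is not prime
  have hnp : ¬ Prime (p : 𝓞 K) := by
    intro hpp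
    rcases hpp.dvd_or_dvd hdvd with h | h
    · obtain ⟨y, hy⟩ := h
      obtain ⟨a, b, rfl⟩ := exists_rep hζ y
      have h10 : ((r - p * a : ℤ) : 𝓞 K) + ((-1 - p * b : ℤ) : 𝓞 K) * hζ.toInteger = 0 := by
        push_cast
        linear_combination hy
      have h11 := (rep_inj hζ h10).2
      have h12 : (p : ℤ) ∣ 1 := ⟨-b, by linarith⟩
      have := Int.natCast_dvd_natCast.mp (by exact_mod_cast h12 : (p : ℤ) ∣ (1 : ℕ))
      exact hp.one_lt.ne' (Nat.dvd_one.mp this)
    · obtain ⟨y, hy⟩ := h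
      obtain ⟨a, b, rfl⟩ := exists_rep hζ y
      have h10 : ((r + 1 - p * a : ℤ) : 𝓞 K) + ((1 - p * b : ℤ) : 𝓞 K) * hζ.toInteger = 0 := by
        push_cast
        linear_combination hy
      have h11 := (rep_inj hζ h10).2
      have h12 : (p : ℤ) ∣ 1 := ⟨b, by linarith⟩
      have := Int.natCast_dvd_natCast.mp (by exact_mod_cast h12 : (p : ℤ) ∣ (1 : ℕ))
      exact hp.one_lt.ne' (Nat.dvd_one.mp this)
  have hnu : ¬ IsUnit (p : 𝓞 K) := by
    intro hu
    have := nm_of_isUnit i hζ hu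
    rw [nm_natCast i hζ] at this
    have := hp.two_le
    nlinarith
  rw [← irreducible_iff_prime] at hnp
  obtain ⟨a, b, hab, ha, hb⟩ : ∃ a b : 𝓞 K, (p : 𝓞 K) = a * b ∧ ¬ IsUnit a ∧ ¬ IsUnit b := by
    by_contra hcon
    push Not at hcon
    exact hnp ⟨hnu, fun a b hab => by
      by_cases ha : IsUnit a
      · exact Or.inl ha
      · exact Or.inr (hcon a b hab ha)⟩
  have h1 : nm i a * nm i b = p ^ 2 := by rw [← nm_mul i hζ, ← hab, nm_natCast i hζ]
  have hna : nm i a = p := by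
    obtain ⟨k, hk, h2⟩ := (Nat.dvd_prime_pow hp).mp (Dvd.intro _ h1)
    interval_cases k
    · exact absurd (isUnit_of_nm i hζ (by simpa using h2)) ha
    · simpa using h2
    · exfalso
      apply hb
      apply isUnit_of_nm i hζ
      rw [h2] at h1
      have h7 : 0 < p ^ 2 := pow_pos hp.pos 2
      exact Nat.eq_of_mul_eq_mul_left h7 (by rw [h1, mul_one])
  obtain ⟨a', ha', haa'⟩ := exists_mul_conj i hζ a
  rw [hna] at haa'
  have hna' : nm i a' = p := by
    have h2 : nm i a * nm i a' = p ^ 2 := by rw [← nm_mul i hζ, haa', nm_natCast i hζ]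
    rw [hna, sq] at h2
    exact Nat.eq_of_mul_eq_mul_left hp.pos h2
  have hpa : Prime a := irreducible_iff_prime.mp (irreducible_of_nm i hζ hp hna)
  have hpa' : Prime a' := irreducible_iff_prime.mp (irreducible_of_nm i hζ hp hna')
  refine ⟨a, a', hpa, hpa', haa', ?_, ?_, ?_⟩
  · intro hass
    -- `a ∣ (r - w)(r + 1 + w)`
    have h13 : a ∣ (r - hζ.toInteger) * (r + 1 + hζ.toInteger) := by
      rw [← haa'] at hdvd
      exact (dvd_mul_right a a').trans hdvd
    -- conjugation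
    have hcj : ∀ y y' : 𝓞 K, io i y' = (starRingEnd ℂ) (io i y) → a ∣ y → a' ∣ y' := by
      rintro y y' hy ⟨z, rfl⟩
      obtain ⟨z', hz'⟩ := exists_conj i hζ z
      refine ⟨z', io_inj i ?_⟩
      rw [hy, io_mul, io_mul, map_mul, ha', hz']
    have hrw : io i ((r : 𝓞 K) + 1 + hζ.toInteger) = (starRingEnd ℂ) (io i (r - hζ.toInteger)) := by
      have hw' : io i hζ.toInteger = i (IsCyclotomicExtension.zeta 3 ℚ K) := rfl
      obtain ⟨h14, h15⟩ := iw_re_im i hζ
      have hm : io i ((r : 𝓞 K) - hζ.toInteger) = r - i (IsCyclotomicExtension.zeta 3 ℚ K) := by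
        rw [sub_eq_add_neg, io_add, io_intCast]
        have : io i (-hζ.toInteger) = -(io i hζ.toInteger) := by simp [io]
        rw [this, hw']; ring
      rw [hm, io_add, io_add, io_intCast, io_one, hw']
      apply Complex.ext
      · simp [h14]; ring
      · simp
    have hrw2 : io i ((r : 𝓞 K) - hζ.toInteger) = (starRingEnd ℂ) (io i (r + 1 + hζ.toInteger)) := by
      rw [hrw, Complex.conj_conj]
    have h16 : a ∣ 2 * hζ.toInteger + 1 := by
      rcases hpa.dvd_or_dvd h13 with h | h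
      · have h17 := hass.dvd.trans (hcj _ _ hrw h)
        have : 2 * hζ.toInteger + 1 = (r + 1 + hζ.toInteger) - (r - hζ.toInteger) := by ring
        rw [this]
        exact dvd_sub h17 h
      · have h17 := hass.dvd.trans (hcj _ _ hrw2 h)
        have : 2 * hζ.toInteger + 1 = (r + 1 + hζ.toInteger) - (r - hζ.toInteger) := by ring
        rw [this]
        exact dvd_sub h h17
    have h18 := nm_dvd i hζ h16
    have h19 : nm i (2 * hζ.toInteger + 1) = 3 := by
      have h20 := normsq_rep i hζ 1 2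
      have h21 := nm_eq i hζ (2 * hζ.toInteger + 1)
      have hw' : io i hζ.toInteger = i (IsCyclotomicExtension.zeta 3 ℚ K) := rfl
      have h22 : io i (2 * hζ.toInteger + 1) = ((1 : ℝ) : ℂ) + ((2 : ℝ) : ℂ) *
          i (IsCyclotomicExtension.zeta 3 ℚ K) := by
        rw [io_add, io_mul, io_one, hw']
        have : io i (2 : 𝓞 K) = 2 := by
          have h24 := io_natCast (K := K) i 2
          simpa using h24
        rw [this]; push_cast; ring
      rw [h22, h20] at h21
      norm_num at h21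
      exact_mod_cast h21
    rw [h19, hna] at h18
    have h23 := (Nat.prime_dvd_prime_iff_eq hp Nat.prime_three).mp h18
    omega
  · rw [← nm_eq i hζ, hna]
  · rw [← nm_eq i hζ, hna']

end primes

end Fermat.Agent.LT.RS
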