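import Mathlib
import Fermat.Agent.LT.Asai.Euler

/-!
# Local factors: Rankin–Selberg and Asai
-/

set_option autoImplicit false

open Finset Nat Filter Topology

namespace Fermat.Agent.LT.RS

open Fermat.Agent.LT.Asai

/-- invariant of the recursion -/
theorem Uc_inv (l : ℝ) (n : ℕ) : Uc l (n + 1) ^ 2 - l * Uc l (n + 1) * Uc l n + Uc l n ^ 2 = 1 := by
  induction n with
  | zero => rw [Uc_zero, Uc_one]; ring
  | succ n ih => rw [Uc_succ]; linear_combination ih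

theorem sq_rec (l : ℝ) (n : ℕ) : Uc l (n + 3) ^ 2 =
    (l ^ 2 - 1) * Uc l (n + 2) ^ 2 - (l ^ 2 - 1) * Uc l (n + 1) ^ 2 + Uc l n ^ 2 := by
  rw [show n + 3 = (n + 1) + 2 by ring, Uc_succ, Uc_succ]
  ring

theorem mul_rec (l m : ℝ) (n : ℕ) : Uc l (n + 4) * Uc m (n + 4) =
    l * m * (Uc l (n + 3) * Uc m (n + 3)) - (l ^ 2 + m ^ 2 - 2) * (Uc l (n + 2) * Uc m (n + 2)) +
      l * m * (Uc l (n + 1) * Uc m (n + 1)) - Uc l n * Uc m n := by
  rw [show n + 4 = (n + 2) + 2 by ring, show n + 3 = (n + 1) + 2 by ring,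
    Uc_succ l (n + 2), Uc_succ m (n + 2), show n + 2 + 1 = (n + 1) + 2 by ring,
    Uc_succ l (n + 1), Uc_succ m (n + 1), show n + 1 + 1 = n + 2 by ring, Uc_succ l n, Uc_succ m n]
  ring

/-- splitting off the first terms -/
theorem tsum_shift {f : ℕ → ℝ} (hf : Summable f) (k : ℕ) :
    ∑' n, f n = ∑ i ∈ Finset.range k, f i + ∑' n, f (n + k) := (hf.sum_add_tsum_nat_add k).symm

section

variable {l m x : ℝ}

theorem rs_identity (_hx0 : 0 < x) (hs : Summable fun e : ℕ => Uc l e ^ 2 * x ^ e) :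
    (∑' e : ℕ, Uc l e ^ 2 * x ^ e) * ((1 - x) * ((1 + x) ^ 2 - l ^ 2 * x)) = 1 + x := by
  set S := ∑' e : ℕ, Uc l e ^ 2 * x ^ e with hS
  have h1 := tsum_shift hs 1
  have h2 := tsum_shift hs 2
  have h3 := tsum_shift hs 3
  have s1 := (summable_nat_add_iff 1).mpr hs
  have s2 := (summable_nat_add_iff 2).mpr hs
  have s3 := (summable_nat_add_iff 3).mpr hs
  have u2 : Uc l 2 = l ^ 2 - 1 := by rw [show 2 = 0 + 2 by rfl, Uc_succ, zero_add, Uc_one, Uc_zero]; ring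
  simp only [Finset.sum_range_succ, Finset.sum_range_zero, Uc_zero, Uc_one, u2, pow_zero, pow_one]
    at h1 h2 h3
  have key : ∑' n : ℕ, Uc l (n + 3) ^ 2 * x ^ (n + 3) =
      (l ^ 2 - 1) * x * ∑' n : ℕ, Uc l (n + 2) ^ 2 * x ^ (n + 2) -
      (l ^ 2 - 1) * x ^ 2 * ∑' n : ℕ, Uc l (n + 1) ^ 2 * x ^ (n + 1) + x ^ 3 * S := by
    rw [hS, ← tsum_mul_left, ← tsum_mul_left, ← tsum_mul_left,
      ← (s2.mul_left _).tsum_sub (s1.mul_left _),
      ← ((s2.mul_left _).sub (s1.mul_left _)).tsum_add (hs.mul_left _)]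
    refine tsum_congr fun n => ?_
    rw [sq_rec]
    ring
  rw [← hS] at h1 h2 h3
  set A1 := ∑' n : ℕ, Uc l (n + 1) ^ 2 * x ^ (n + 1)
  set A2 := ∑' n : ℕ, Uc l (n + 2) ^ 2 * x ^ (n + 2)
  set A3 := ∑' n : ℕ, Uc l (n + 3) ^ 2 * x ^ (n + 3)
  have e1 : A1 = S - 1 := by linarith
  have e2 : A2 = S - 1 - l ^ 2 * x := by linarith
  have e3 : A3 = S - 1 - l ^ 2 * x - (l ^ 2 - 1) ^ 2 * x ^ 2 := by linarith
  rw [e1, e2, e3] at key
  linear_combination key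

theorem one_le_rs (hx0 : 0 < x) (hs : Summable fun e : ℕ => Uc l e ^ 2 * x ^ e) :
    1 ≤ ∑' e : ℕ, Uc l e ^ 2 * x ^ e := by
  have := hs.le_tsum 0 (fun e _ => by positivity)
  simpa [Uc_zero] using this

theorem rs_lt (hx0 : 0 < x) (hx1 : x < 1) (hs : Summable fun e : ℕ => Uc l e ^ 2 * x ^ e) :
    l ^ 2 * x < (1 + x) ^ 2 := by
  have h1 := rs_identity hx0 hs
  have h2 := one_le_rs hx0 hs
  by_contra hcon
  push Not at hcon
  have h3 : (∑' e : ℕ, Uc l e ^ 2 * x ^ e) * ((1 - x) * ((1 + x) ^ 2 - l ^ 2 * x)) ≤ 0 := by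
    apply mul_nonpos_of_nonneg_of_nonpos (by linarith)
    apply mul_nonpos_of_nonneg_of_nonpos (by linarith) (by linarith)
  linarith

/-- **lower bound for the Rankin–Selberg factor** -/
theorem exp_le_rs (hx0 : 0 < x) (hx1 : x < 1) (hs : Summable fun e : ℕ => Uc l e ^ 2 * x ^ e) :
    Real.exp (l ^ 2 * x / (1 + x) ^ 2) ≤ ∑' e : ℕ, Uc l e ^ 2 * x ^ e := by
  have h1 := rs_identity hx0 hs
  have h2 := one_le_rs hx0 hs
  have h3 := rs_lt hx0 hx1 hs
  set S := ∑' e : ℕ, Uc l e ^ 2 * x ^ e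
  have hx2 : 0 < (1 + x) ^ 2 := by positivity
  set t := l ^ 2 * x / (1 + x) ^ 2 with ht
  have ht1 : t < 1 := by rw [ht, div_lt_one hx2]; exact h3
  have ht2 : (1 + x) ^ 2 - l ^ 2 * x = (1 + x) ^ 2 * (1 - t) := by
    rw [ht]; field_simp
  rw [ht2] at h1
  have h4 : S * ((1 - x ^ 2) * (1 - t)) = 1 := by
    have h5 : (1 + x) * (S * ((1 - x ^ 2) * (1 - t))) = (1 + x) * 1 := by
      linear_combination h1
    exact mul_left_cancel₀ (by linarith) h5
  have h6 : 1 - t ≤ Real.exp (-t) := by have := Real.add_one_le_exp (-t); linarith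
  have h7 : 1 ≤ S * (1 - t) := by
    have : S * ((1 - x ^ 2) * (1 - t)) ≤ S * (1 - t) := by
      have h8 : 0 ≤ S * (1 - t) := mul_nonneg (by linarith) (by linarith)
      nlinarith [mul_nonneg h8 (sq_nonneg x)]
    linarith
  have h9 : 1 ≤ S * Real.exp (-t) := h7.trans (mul_le_mul_of_nonneg_left h6 (by linarith))
  rw [Real.exp_neg, ← div_eq_mul_inv, le_div_iff₀ (Real.exp_pos t), one_mul] at h9
  exact h9

/-- the Asai denominator -/
noncomputable def PA (l m x : ℝ) : ℝ :=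
  (1 - x ^ 2) ^ 2 - l * m * x * (1 + x ^ 2) + (l ^ 2 + m ^ 2) * x ^ 2

theorem summable_mul (hx0 : 0 < x) (hl : Summable fun e : ℕ => Uc l e ^ 2 * x ^ e)
    (hm : Summable fun e : ℕ => Uc m e ^ 2 * x ^ e) :
    Summable fun e : ℕ => |Uc l e * Uc m e| * x ^ e := by
  refine Summable.of_nonneg_of_le (fun e => by positivity) (fun e => ?_) (hl.add hm)
  rw [← add_mul]
  apply mul_le_mul_of_nonneg_right _ (by positivity)
  rw [abs_mul]
  nlinarith [sq_nonneg (|Uc l e| - |Uc m e|), sq_abs (Uc l e), sq_abs (Uc m e),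
    sq_nonneg (Uc l e), sq_nonneg (Uc m e)]

theorem asai_identity (_hx0 : 0 < x) (hs : Summable fun e : ℕ => Uc l e * Uc m e * x ^ e) :
    (∑' e : ℕ, Uc l e * Uc m e * x ^ e) * PA l m x = 1 - x ^ 2 := by
  set S := ∑' e : ℕ, Uc l e * Uc m e * x ^ e with hS
  have h1 := tsum_shift hs 1
  have h2 := tsum_shift hs 2
  have h3 := tsum_shift hs 3
  have h4 := tsum_shift hs 4
  have s1 := (summable_nat_add_iff 1).mpr hs
  have s2 := (summable_nat_add_iff 2).mpr hs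
  have s3 := (summable_nat_add_iff 3).mpr hs
  have s4 := (summable_nat_add_iff 4).mpr hs
  have u2 : ∀ l : ℝ, Uc l 2 = l ^ 2 - 1 := fun l => by
    rw [show 2 = 0 + 2 by rfl, Uc_succ, zero_add, Uc_one, Uc_zero]; ring
  have u3 : ∀ l : ℝ, Uc l 3 = l ^ 3 - 2 * l := fun l => by
    rw [show 3 = 1 + 2 by rfl, Uc_succ, show 1 + 1 = 2 by rfl, u2, Uc_one]; ring
  simp only [Finset.sum_range_succ, Finset.sum_range_zero, Uc_zero, Uc_one, u2, u3, pow_zero,
    pow_one] at h1 h2 h3 h4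
  have key : ∑' n : ℕ, Uc l (n + 4) * Uc m (n + 4) * x ^ (n + 4) =
      l * m * x * ∑' n : ℕ, Uc l (n + 3) * Uc m (n + 3) * x ^ (n + 3) -
      (l ^ 2 + m ^ 2 - 2) * x ^ 2 * ∑' n : ℕ, Uc l (n + 2) * Uc m (n + 2) * x ^ (n + 2) +
      l * m * x ^ 3 * ∑' n : ℕ, Uc l (n + 1) * Uc m (n + 1) * x ^ (n + 1) - x ^ 4 * S := by
    rw [hS, ← tsum_mul_left, ← tsum_mul_left, ← tsum_mul_left, ← tsum_mul_left,
      ← (s3.mul_left _).tsum_sub (s2.mul_left _),
      ← ((s3.mul_left _).sub (s2.mul_left _)).tsum_add (s1.mul_left _),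
      ← (((s3.mul_left _).sub (s2.mul_left _)).add (s1.mul_left _)).tsum_sub (hs.mul_left _)]
    refine tsum_congr fun n => ?_
    rw [mul_rec]
    ring
  rw [← hS] at h1 h2 h3 h4
  set A1 := ∑' n : ℕ, Uc l (n + 1) * Uc m (n + 1) * x ^ (n + 1)
  set A2 := ∑' n : ℕ, Uc l (n + 2) * Uc m (n + 2) * x ^ (n + 2)
  set A3 := ∑' n : ℕ, Uc l (n + 3) * Uc m (n + 3) * x ^ (n + 3)
  set A4 := ∑' n : ℕ, Uc l (n + 4) * Uc m (n + 4) * x ^ (n + 4)
  have e1 : A1 = S - 1 := by linarith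
  have e2 : A2 = S - 1 - l * m * x := by linarith
  have e3 : A3 = S - 1 - l * m * x - (l ^ 2 - 1) * (m ^ 2 - 1) * x ^ 2 := by linarith
  have e4 : A4 = S - 1 - l * m * x - (l ^ 2 - 1) * (m ^ 2 - 1) * x ^ 2 -
      (l ^ 3 - 2 * l) * (m ^ 3 - 2 * m) * x ^ 3 := by linarith
  rw [e1, e2, e3, e4] at key
  rw [PA]
  linear_combination key

theorem PA_pos (hx0 : 0 < x) (hx1 : x < 1) (hl : l ^ 2 * x < (1 + x) ^ 2)
    (hm : m ^ 2 * x < (1 + x) ^ 2) : 0 < PA l m x := by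
  have h1 : l * m ≤ (l ^ 2 + m ^ 2) / 2 := by nlinarith [sq_nonneg (l - m)]
  have h2 : (1 - x) ^ 2 * ((1 + x) ^ 2 - (l ^ 2 + m ^ 2) / 2 * x) ≤ PA l m x := by
    rw [PA]
    have h3 := mul_le_mul_of_nonneg_right h1 (show (0 : ℝ) ≤ x * (1 + x ^ 2) by positivity)
    nlinarith
  have h4 : 0 < (1 - x) ^ 2 * ((1 + x) ^ 2 - (l ^ 2 + m ^ 2) / 2 * x) := by
    have : 0 < 1 - x := by linarith
    apply mul_pos (by positivity)
    linarith
  linarith

/-- **lower bound for the Asai factor** at a split prime -/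
theorem exp_le_asai (hx0 : 0 < x) (hx1 : x ≤ 1 / 2)
    (hl : Summable fun e : ℕ => Uc l e ^ 2 * x ^ e)
    (hm : Summable fun e : ℕ => Uc m e ^ 2 * x ^ e) :
    Real.exp (l * m * x - 3 / 2 * (l ^ 2 + m ^ 2) * x ^ 2 - 2 * x ^ 2) ≤
      ∑' e : ℕ, Uc l e * Uc m e * x ^ e := by
  have hs : Summable fun e : ℕ => Uc l e * Uc m e * x ^ e := by
    refine Summable.of_norm ?_
    refine (summable_mul hx0 hl hm).congr fun e => ?_
    rw [norm_mul, Real.norm_eq_abs, norm_pow, Real.norm_eq_abs, abs_of_pos hx0]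
  have h1 := asai_identity hx0 hs
  have hP := PA_pos hx0 (by linarith) (rs_lt hx0 (by linarith) hl) (rs_lt hx0 (by linarith) hm)
  set S := ∑' e : ℕ, Uc l e * Uc m e * x ^ e
  have hS : S = (1 - x ^ 2) / PA l m x := by rw [eq_div_iff hP.ne', h1]
  -- `PA ≤ exp (PA - 1)`
  have h2 : PA l m x ≤ Real.exp (PA l m x - 1) := by
    have := Real.add_one_le_exp (PA l m x - 1); linarith
  have h3 : Real.exp (1 - PA l m x) ≤ 1 / PA l m x := by
    rw [le_div_iff₀ hP]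
    calc Real.exp (1 - PA l m x) * PA l m x ≤ Real.exp (1 - PA l m x) *
          Real.exp (PA l m x - 1) := mul_le_mul_of_nonneg_left h2 (Real.exp_pos _).le
      _ = 1 := by rw [← Real.exp_add]; simp
  have h4 : Real.exp (-(2 * x ^ 2)) ≤ 1 - x ^ 2 := by
    have hx2 : x ^ 2 ≤ 1 / 4 := by nlinarith
    -- `exp (-2 t) ≤ 1/(1+2t) ≤ 1 - t` for `t ≤ 1/2`
    have h5 : Real.exp (-(2 * x ^ 2)) ≤ 1 / (1 + 2 * x ^ 2) := by
      rw [Real.exp_neg, ← one_div]
      apply one_div_le_one_div_of_le (by positivity)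
      have := Real.add_one_le_exp (2 * x ^ 2)
      linarith
    refine h5.trans ?_
    rw [div_le_iff₀ (by positivity)]
    nlinarith [sq_nonneg x]
  have h6 : l * m * x - 3 / 2 * (l ^ 2 + m ^ 2) * x ^ 2 ≤ 1 - PA l m x := by
    rw [PA]
    have h7 : -(l * m * x ^ 3) ≤ (l ^ 2 + m ^ 2) / 2 * x ^ 2 := by
      have h8 : -(l * m) ≤ (l ^ 2 + m ^ 2) / 2 := by nlinarith [sq_nonneg (l + m)]
      have h9 : x ^ 3 ≤ x ^ 2 := by nlinarith [sq_nonneg x]
      calc -(l * m * x ^ 3) = -(l * m) * x ^ 3 := by ring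
        _ ≤ (l ^ 2 + m ^ 2) / 2 * x ^ 3 := mul_le_mul_of_nonneg_right h8 (by positivity)
        _ ≤ _ := mul_le_mul_of_nonneg_left h9 (by positivity)
    have h10 : 0 ≤ 2 * x ^ 2 - x ^ 4 := by
      have hx2 : x ^ 2 ≤ 1 / 4 := by nlinarith
      have : x ^ 4 = x ^ 2 * x ^ 2 := by ring
      nlinarith [sq_nonneg x, mul_nonneg (sq_nonneg x) (sub_nonneg.mpr hx2)]
    linear_combination h7 + h10
  calc Real.exp (l * m * x - 3 / 2 * (l ^ 2 + m ^ 2) * x ^ 2 - 2 * x ^ 2)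
      = Real.exp (-(2 * x ^ 2)) * Real.exp (l * m * x - 3 / 2 * (l ^ 2 + m ^ 2) * x ^ 2) := by
        rw [← Real.exp_add]; congr 1; ring
    _ ≤ (1 - x ^ 2) * Real.exp (1 - PA l m x) :=
        mul_le_mul h4 (Real.exp_le_exp.mpr h6) (Real.exp_pos _).le (by nlinarith)
    _ ≤ (1 - x ^ 2) * (1 / PA l m x) := mul_le_mul_of_nonneg_left h3 (by nlinarith)
    _ = S := by rw [hS]; ring

theorem lin_identity (_hx0 : 0 < x) (hs : Summable fun e : ℕ => Uc l e * x ^ e) :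
    (∑' e : ℕ, Uc l e * x ^ e) * (1 - l * x + x ^ 2) = 1 := by
  set S := ∑' e : ℕ, Uc l e * x ^ e with hS
  have h1 := tsum_shift hs 1
  have h2 := tsum_shift hs 2
  have s1 := (summable_nat_add_iff 1).mpr hs
  simp only [Finset.sum_range_succ, Finset.sum_range_zero, Uc_zero, Uc_one, pow_zero, pow_one]
    at h1 h2
  have key : ∑' n : ℕ, Uc l (n + 2) * x ^ (n + 2) =
      l * x * ∑' n : ℕ, Uc l (n + 1) * x ^ (n + 1) - x ^ 2 * S := by
    rw [hS, ← tsum_mul_left, ← tsum_mul_left, ← (s1.mul_left _).tsum_sub (hs.mul_left _)]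
    refine tsum_congr fun n => ?_
    rw [Uc_succ]
    ring
  rw [← hS] at h1 h2
  set A1 := ∑' n : ℕ, Uc l (n + 1) * x ^ (n + 1)
  set A2 := ∑' n : ℕ, Uc l (n + 2) * x ^ (n + 2)
  have e1 : A1 = S - 1 := by linarith
  have e2 : A2 = S - 1 - l * x := by linarith
  rw [e1, e2] at key
  linear_combination key

theorem summable_lin (hx0 : 0 < x) (hx1 : x ≤ 1 / 4) (hl : |l| ≤ 2) :
    Summable fun e : ℕ => |Uc l e| * x ^ e := by
  have h1 : Summable fun e : ℕ => (2 * x) ^ e :=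
    summable_geometric_of_lt_one (by linarith) (by linarith)
  refine Summable.of_nonneg_of_le (fun e => by positivity) (fun e => ?_) h1
  rw [mul_pow]
  apply mul_le_mul_of_nonneg_right _ (by positivity)
  refine (abs_Uc_le hl e).trans ?_
  exact_mod_cast Nat.lt_two_pow_self

/-- **lower bound for the Asai factor** at an inert prime -/
theorem exp_le_lin (hx0 : 0 < x) (hx1 : x ≤ 1 / 4) (hl : |l| ≤ 2) :
    Real.exp (l * x - x ^ 2) ≤ ∑' e : ℕ, Uc l e * x ^ e := by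
  have hs : Summable fun e : ℕ => Uc l e * x ^ e := by
    refine Summable.of_norm ((summable_lin hx0 hx1 hl).congr fun e => ?_)
    rw [norm_mul, Real.norm_eq_abs, norm_pow, Real.norm_eq_abs, abs_of_pos hx0]
  have h1 := lin_identity hx0 hs
  have hl2 := abs_le.mp hl
  have hP : 0 < 1 - l * x + x ^ 2 := by nlinarith
  set S := ∑' e : ℕ, Uc l e * x ^ e
  have hS : S = 1 / (1 - l * x + x ^ 2) := by rw [eq_div_iff hP.ne', h1]
  rw [hS, le_div_iff₀ hP]
  have h2 : 1 - l * x + x ^ 2 ≤ Real.exp (-l * x + x ^ 2) := by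
    have := Real.add_one_le_exp (-l * x + x ^ 2); linarith
  calc Real.exp (l * x - x ^ 2) * (1 - l * x + x ^ 2) ≤ Real.exp (l * x - x ^ 2) *
        Real.exp (-l * x + x ^ 2) := mul_le_mul_of_nonneg_left h2 (Real.exp_pos _).le
    _ = 1 := by rw [← Real.exp_add, ← Real.exp_zero]; congr 1; ring

end

end Fermat.Agent.LT.RS
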