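import Mathlib
import Fermat.Agent.LT.RS.Local
import Fermat.Agent.LT.Asai.Unbdd

/-!
# Euler products without the Ramanujan bound
-/

set_option autoImplicit false

open Finset Nat Filter Topology

namespace Fermat.Agent.LT.RS

open Fermat.Agent.LT.Asai

/-- Rankin–Selberg factor -/
noncomputable def SS (l x : ℝ) : ℝ := ∑' e : ℕ, Uc l e ^ 2 * x ^ e

theorem rpow_facts {p : ℕ} (hp : p.Prime) {s : ℝ} (h1 : 1 < s) :
    0 < (p : ℝ) ^ (-s) ∧ (p : ℝ) ^ (-s) ≤ 1 / 2 := by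
  have hp2 : (2 : ℝ) ≤ p := by exact_mod_cast hp.two_le
  refine ⟨Real.rpow_pos_of_pos (by linarith) _, ?_⟩
  calc (p : ℝ) ^ (-s) ≤ (p : ℝ) ^ (-1 : ℝ) :=
        Real.rpow_le_rpow_of_exponent_le (by linarith) (by linarith)
    _ = (p : ℝ)⁻¹ := Real.rpow_neg_one _
    _ ≤ 1 / 2 := by rw [one_div]; exact inv_anti₀ (by norm_num) hp2

theorem rpow_le_quarter {p : ℕ} (hp : 5 ≤ p) {s : ℝ} (h1 : 1 < s) :
    (p : ℝ) ^ (-s) ≤ 1 / 4 := by
  have hp2 : (5 : ℝ) ≤ p := by exact_mod_cast hp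
  calc (p : ℝ) ^ (-s) ≤ (p : ℝ) ^ (-1 : ℝ) :=
        Real.rpow_le_rpow_of_exponent_le (by linarith) (by linarith)
    _ = (p : ℝ)⁻¹ := Real.rpow_neg_one _
    _ ≤ 1 / 4 := by rw [one_div]; exact inv_anti₀ (by norm_num) (by linarith)

theorem rpow_sq_le {p : ℕ} (hp : p.Prime) {s : ℝ} (h1 : 1 < s) :
    ((p : ℝ) ^ (-s)) ^ 2 ≤ (p : ℝ) ^ (-2 : ℝ) := by
  have hp1 : (1 : ℝ) ≤ p := by exact_mod_cast hp.one_lt.le
  rw [← Real.rpow_natCast, ← Real.rpow_mul (Nat.cast_nonneg _)]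
  apply Real.rpow_le_rpow_of_exponent_le hp1
  push_cast
  linarith

open Classical in
theorem sum_primes_filter (T : Finset Nat.Primes) (P : ℕ → Prop) (f g : ℕ → ℝ) :
    ∑ p ∈ T, (if P p then f p else 0) * g p =
      ∑ p ∈ (T.image (fun p : Nat.Primes => (p : ℕ))).filter P, f p * g p := by
  have h := Finset.sum_image (s := T) (g := fun p : Nat.Primes => (p : ℕ))
    (f := fun p : ℕ => if P p then f p * g p else 0) (fun x _ y _ h => Subtype.ext h)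
  rw [Finset.sum_filter, h]
  refine Finset.sum_congr rfl fun p _ => ?_
  split_ifs <;> simp

section General

/-- absolute convergence from local bounds -/
theorem summable_of_local {f : ℕ → ℝ} (hf0 : f 0 = 0) (hf1 : f 1 = 1)
    (hmul : ∀ {m n : ℕ}, Nat.Coprime m n → f (m * n) = f m * f n)
    (hsum : ∀ {p : ℕ}, p.Prime → Summable fun e : ℕ => ‖f (p ^ e)‖) (b : ℕ → ℝ) (B : ℝ)
    (hb : ∀ N : ℕ, ∑ p ∈ N.primesBelow, b p ≤ B)
    (hle : ∀ {p : ℕ}, p.Prime → ∑' e : ℕ, ‖f (p ^ e)‖ ≤ Real.exp (b p)) :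
    Summable fun n => ‖f n‖ := by
  have hmul' : ∀ {m n : ℕ}, Nat.Coprime m n → ‖f (m * n)‖ = ‖f m‖ * ‖f n‖ := by
    intro m n hmn
    rw [hmul hmn, norm_mul]
  refine summable_of_sum_range_le (c := Real.exp B) (fun n => norm_nonneg _) fun N => ?_
  have h2 := EulerProduct.summable_and_hasSum_smoothNumbers_prod_primesBelow_tsum
    (f := fun n => ‖f n‖) (by rw [hf1, norm_one]) hmul'
    (fun {p} hp => by simp only [norm_norm]; exact hsum hp) N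
  have h3 : ∑ n ∈ Finset.range N, ‖f n‖ ≤ ∑' m : N.smoothNumbers, ‖f m‖ := by
    classical
    rw [tsum_subtype N.smoothNumbers (fun n => ‖f n‖)]
    have hsm : Summable (Set.indicator N.smoothNumbers fun n => ‖f n‖) := by
      rw [← summable_subtype_iff_indicator]
      exact h2.2.summable
    refine le_trans (Finset.sum_le_sum fun n hn => ?_)
      (hsm.sum_le_tsum (Finset.range N) fun n _ => Set.indicator_nonneg (fun _ _ => norm_nonneg _) _)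
    by_cases hn0 : n = 0
    · rw [hn0, hf0, norm_zero]
      exact Set.indicator_nonneg (fun _ _ => norm_nonneg _) _
    · rw [Set.indicator_of_mem]
      exact Nat.mem_smoothNumbers_of_lt (Nat.pos_of_ne_zero hn0) (Finset.mem_range.mp hn)
  refine h3.trans ?_
  rw [h2.2.tsum_eq]
  have h4 : ∏ p ∈ N.primesBelow, ∑' e : ℕ, ‖f (p ^ e)‖ ≤
      ∏ p ∈ N.primesBelow, Real.exp (b p) := by
    refine Finset.prod_le_prod (fun p _ => tsum_nonneg fun e => norm_nonneg _) fun p hp => ?_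
    exact hle (Nat.prime_of_mem_primesBelow hp)
  refine h4.trans ?_
  rw [← Real.exp_sum]
  exact Real.exp_le_exp.mpr (hb N)

/-- lower bound from local lower bounds -/
theorem exp_le_of_local {f : ℕ → ℝ} (hf0 : f 0 = 0) (hf1 : f 1 = 1)
    (hmul : ∀ {m n : ℕ}, Nat.Coprime m n → f (m * n) = f m * f n)
    (hsum : Summable fun n => ‖f n‖) (c : Nat.Primes → ℝ) (hc : Summable c)
    (hle : ∀ p : Nat.Primes, Real.exp (c p) ≤ ∑' e : ℕ, f ((p : ℕ) ^ e)) :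
    Real.exp (∑' p, c p) ≤ ∑' n, f n := by
  have hprod := EulerProduct.eulerProduct_hasProd hf1 hmul hsum hf0
  refine le_of_tendsto_of_tendsto' ((Real.continuous_exp.tendsto _).comp hc.hasSum) hprod
    fun S => ?_
  simp only [Function.comp_apply]
  rw [Real.exp_sum]
  exact Finset.prod_le_prod (fun p _ => (Real.exp_pos _).le) fun p _ => hle p

end General

section

variable {Q : ℕ} {u u' : ℕ → ℝ}

/-- good primes `≡ 1` modulo `3` -/
def Good1 (Q p : ℕ) : Prop := p.Prime ∧ ¬ p ∣ Q ∧ p % 3 = 1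

open Classical in
/-- local factors -/
noncomputable def locA (Q : ℕ) (u u' : ℕ → ℝ) (p e : ℕ) : ℝ :=
  if p ∣ Q then (if e = 0 then 1 else 0) else
    if p % 3 = 1 then Uc (u p) e * Uc (u' p) e else Uc (u p) e

theorem locA_zero (p : ℕ) : locA Q u u' p 0 = 1 := by
  rw [locA]; split_ifs <;> simp_all [Uc_zero]

theorem locA_bad {p e : ℕ} (hp : p ∣ Q) (he : e ≠ 0) : locA Q u u' p e = 0 := by
  rw [locA, if_pos hp, if_neg he]

theorem locA_one {p e : ℕ} (hp : ¬ p ∣ Q) (h : p % 3 = 1) :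
    locA Q u u' p e = Uc (u p) e * Uc (u' p) e := by
  rw [locA, if_neg hp, if_pos h]

theorem locA_two {p e : ℕ} (hp : ¬ p ∣ Q) (h : p % 3 = 2) :
    locA Q u u' p e = Uc (u p) e := by
  rw [locA, if_neg hp, if_neg (by omega)]

/-- The Rankin–Selberg input. -/
structure RSInput (Q : ℕ) (u u' : ℕ → ℝ) : Prop where
  six : 6 ∣ Q
  inert : ∀ p, p.Prime → ¬ p ∣ Q → p % 3 = 2 → 0 ≤ u p ∧ u p ≤ 2
  summ : ∀ s : ℝ, 1 < s → ∀ p, Good1 Q p →
    (Summable fun e : ℕ => Uc (u p) e ^ 2 * ((p : ℝ) ^ (-s)) ^ e) ∧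
    (Summable fun e : ℕ => Uc (u' p) e ^ 2 * ((p : ℝ) ^ (-s)) ^ e)
  bound : ∃ C : ℝ, ∀ s : ℝ, 1 < s → s ≤ 2 → ∀ T : Finset ℕ, (∀ p ∈ T, Good1 Q p) →
    ∏ p ∈ T, (SS (u p) ((p : ℝ) ^ (-s)) * SS (u' p) ((p : ℝ) ^ (-s))) ≤ C / (s - 1)

variable (H : RSInput Q u u')

include H

theorem RSInput.one_le {s : ℝ} (h1 : 1 < s) {p : ℕ} (hp : Good1 Q p) :
    1 ≤ SS (u p) ((p : ℝ) ^ (-s)) ∧ 1 ≤ SS (u' p) ((p : ℝ) ^ (-s)) :=
  ⟨one_le_rs (rpow_facts hp.1 h1).1 (H.summ s h1 p hp).1,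
    one_le_rs (rpow_facts hp.1 h1).1 (H.summ s h1 p hp).2⟩

/-- first consequence -/
theorem RSInput.bound1 : ∃ C : ℝ, 1 ≤ C ∧ ∀ s : ℝ, 1 < s → s ≤ 2 → ∀ T : Finset ℕ,
    (∀ p ∈ T, Good1 Q p) →
    ∑ p ∈ T, (u p ^ 2 + u' p ^ 2) * ((p : ℝ) ^ (-s) / (1 + (p : ℝ) ^ (-s)) ^ 2) ≤
      Real.log (1 / (s - 1)) + Real.log C := by
  obtain ⟨C, hC⟩ := H.bound
  refine ⟨max C 1, le_max_right _ _, fun s h1 h2 T hT => ?_⟩
  have hs : 0 < s - 1 := by linarith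
  have hC1 : 0 < max C 1 := lt_of_lt_of_le one_pos (le_max_right _ _)
  rw [← Real.log_mul (by positivity) hC1.ne', Real.le_log_iff_exp_le (by positivity),
    Real.exp_sum]
  calc ∏ p ∈ T, Real.exp ((u p ^ 2 + u' p ^ 2) * ((p : ℝ) ^ (-s) / (1 + (p : ℝ) ^ (-s)) ^ 2))
      ≤ ∏ p ∈ T, (SS (u p) ((p : ℝ) ^ (-s)) * SS (u' p) ((p : ℝ) ^ (-s))) := by
        refine Finset.prod_le_prod (fun p _ => (Real.exp_pos _).le) fun p hp => ?_
        obtain ⟨hx0, hx1⟩ := rpow_facts (hT p hp).1 h1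
        have e1 := exp_le_rs hx0 (by linarith) (H.summ s h1 p (hT p hp)).1
        have e2 := exp_le_rs hx0 (by linarith) (H.summ s h1 p (hT p hp)).2
        have e3 : (u p ^ 2 + u' p ^ 2) * ((p : ℝ) ^ (-s) / (1 + (p : ℝ) ^ (-s)) ^ 2) =
            u p ^ 2 * (p : ℝ) ^ (-s) / (1 + (p : ℝ) ^ (-s)) ^ 2 +
            u' p ^ 2 * (p : ℝ) ^ (-s) / (1 + (p : ℝ) ^ (-s)) ^ 2 := by ring
        rw [e3, Real.exp_add]
        exact mul_le_mul e1 e2 (Real.exp_pos _).le (by unfold SS; positivity)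
    _ ≤ C / (s - 1) := hC s h1 h2 T hT
    _ ≤ 1 / (s - 1) * max C 1 := by
        rw [div_eq_mul_one_div, mul_comm]
        exact mul_le_mul_of_nonneg_left (le_max_left _ _) (by positivity)

/-- second consequence: uniform bound for the sums at `2` -/
theorem RSInput.bound2 : ∃ B : ℝ, 0 ≤ B ∧ ∀ T : Finset ℕ, (∀ p ∈ T, Good1 Q p) →
    ∑ p ∈ T, (u p ^ 2 + u' p ^ 2) * (p : ℝ) ^ (-2 : ℝ) ≤ B := by
  obtain ⟨C, hC1, hC⟩ := H.bound1
  refine ⟨4 * Real.log C, by have := Real.log_nonneg hC1; positivity, fun T hT => ?_⟩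
  have h := hC 2 (by norm_num) le_rfl T hT
  have h0 : Real.log (1 / ((2 : ℝ) - 1)) = 0 := by norm_num
  rw [h0, zero_add] at h
  have h2 : ∑ p ∈ T, (u p ^ 2 + u' p ^ 2) * (p : ℝ) ^ (-2 : ℝ) ≤
      ∑ p ∈ T, 4 * ((u p ^ 2 + u' p ^ 2) *
        ((p : ℝ) ^ (-2 : ℝ) / (1 + (p : ℝ) ^ (-2 : ℝ)) ^ 2)) := by
    refine Finset.sum_le_sum fun p hp => ?_
    obtain ⟨hx0, hx1⟩ := rpow_facts (hT p hp).1 (s := 2) (by norm_num)
    set x := (p : ℝ) ^ (-2 : ℝ)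
    have h3 : x ≤ 4 * (x / (1 + x) ^ 2) := by
      rw [mul_div_assoc', le_div_iff₀ (by positivity)]
      have h9 : (1 + x) ^ 2 ≤ 4 := by nlinarith
      nlinarith [mul_le_mul_of_nonneg_left h9 hx0.le]
    calc (u p ^ 2 + u' p ^ 2) * x ≤ (u p ^ 2 + u' p ^ 2) * (4 * (x / (1 + x) ^ 2)) :=
          mul_le_mul_of_nonneg_left h3 (by positivity)
      _ = _ := by ring
  rw [← Finset.mul_sum] at h2
  linarith

/-- **Rankin–Selberg bound** -/
theorem RSInput.bound3 : ∃ C : ℝ, ∀ s : ℝ, 1 < s → s ≤ 2 → ∀ T : Finset ℕ,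
    (∀ p ∈ T, Good1 Q p) →
    ∑ p ∈ T, (u p ^ 2 + u' p ^ 2) * (p : ℝ) ^ (-s) ≤ Real.log (1 / (s - 1)) + C := by
  obtain ⟨C, hC1, hC⟩ := H.bound1
  obtain ⟨B, hB0, hB⟩ := H.bound2
  refine ⟨Real.log C + 3 * B, fun s h1 h2 T hT => ?_⟩
  have h3 : ∑ p ∈ T, (u p ^ 2 + u' p ^ 2) * (p : ℝ) ^ (-s) ≤
      ∑ p ∈ T, ((u p ^ 2 + u' p ^ 2) * ((p : ℝ) ^ (-s) / (1 + (p : ℝ) ^ (-s)) ^ 2) +
        3 * ((u p ^ 2 + u' p ^ 2) * (p : ℝ) ^ (-2 : ℝ))) := by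
    refine Finset.sum_le_sum fun p hp => ?_
    obtain ⟨hx0, hx1⟩ := rpow_facts (hT p hp).1 h1
    have hx2 := rpow_sq_le (hT p hp).1 h1
    set x := (p : ℝ) ^ (-s)
    set x2 := (p : ℝ) ^ (-2 : ℝ)
    have h3 : x ≤ x / (1 + x) ^ 2 + 3 * x ^ 2 := by
      rw [← sub_le_iff_le_add, le_div_iff₀ (by positivity)]
      nlinarith [mul_pos hx0 hx0, mul_pos (mul_pos hx0 hx0) hx0,
        mul_pos (mul_pos hx0 hx0) (mul_pos hx0 hx0)]
    have h4 : (0 : ℝ) ≤ u p ^ 2 + u' p ^ 2 := by positivity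
    nlinarith [mul_le_mul_of_nonneg_left h3 h4, mul_le_mul_of_nonneg_left hx2 h4]
  rw [Finset.sum_add_distrib, ← Finset.mul_sum] at h3
  have := hC s h1 h2 T hT
  have := hB T hT
  linarith

open Classical in
/-- Rankin–Selberg weight -/
theorem RSInput.summable_w {s : ℝ} (h1 : 1 < s) (h2 : s ≤ 2) :
    Summable fun p : Nat.Primes =>
      (if Good1 Q p then u p ^ 2 + u' p ^ 2 else 0) * ((p : ℕ) : ℝ) ^ (-s) := by
  obtain ⟨C, hC⟩ := H.bound3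
  refine summable_of_sum_le (c := Real.log (1 / (s - 1)) + C)
    (fun p => mul_nonneg (by split_ifs <;> positivity) (by positivity)) fun T => ?_
  rw [sum_primes_filter T (Good1 Q) (fun p => u p ^ 2 + u' p ^ 2) (fun p => (p : ℝ) ^ (-s))]
  exact hC s h1 h2 _ fun p hp => (Finset.mem_filter.mp hp).2

open Classical in
theorem RSInput.tsum_w : ∃ C : ℝ, ∀ s : ℝ, 1 < s → s ≤ 2 → ∑' p : Nat.Primes,
      (if Good1 Q p then u p ^ 2 + u' p ^ 2 else 0) * ((p : ℕ) : ℝ) ^ (-s) ≤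
      Real.log (1 / (s - 1)) + C := by
  obtain ⟨C, hC⟩ := H.bound3
  refine ⟨C, fun s h1 h2 => ?_⟩
  refine (H.summable_w h1 h2).tsum_le_of_sum_le fun T => ?_
  rw [sum_primes_filter T (Good1 Q) (fun p => u p ^ 2 + u' p ^ 2) (fun p => (p : ℝ) ^ (-s))]
  exact hC s h1 h2 _ fun p hp => (Finset.mem_filter.mp hp).2

end

end Fermat.Agent.LT.RS
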