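import Mathlib
import Fermat.Agent.LT.RS.Prod

/-!
# The Asai Dirichlet series is unbounded near `s = 1` (no Ramanujan bound)
-/

set_option autoImplicit false

open Finset Nat Filter Topology

namespace Fermat.Agent.LT.RS

open Fermat.Agent.LT.Asai

section

variable {Q : ℕ} {u u' : ℕ → ℝ} (H : RSInput Q u u')

/-- the summands of the Asai series -/
noncomputable def fA (Q : ℕ) (u u' : ℕ → ℝ) (s : ℝ) (n : ℕ) : ℝ :=
  Lam (locA Q u u') n * (n : ℝ) ^ (-s)

theorem fA_zero (s : ℝ) : fA Q u u' s 0 = 0 := by simp [fA, Lam_zero]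
theorem fA_one (s : ℝ) : fA Q u u' s 1 = 1 := by simp [fA, Lam_one]

theorem fA_mul (s : ℝ) {m n : ℕ} (h : Nat.Coprime m n) :
    fA Q u u' s (m * n) = fA Q u u' s m * fA Q u u' s n := by
  rw [fA, fA, fA, Lam_mul h, Nat.cast_mul, Real.mul_rpow (Nat.cast_nonneg _) (Nat.cast_nonneg _)]
  ring

theorem fA_pow (s : ℝ) {p : ℕ} (hp : p.Prime) (e : ℕ) :
    fA Q u u' s (p ^ e) = locA Q u u' p e * ((p : ℝ) ^ (-s)) ^ e := by
  rw [fA, Lam_prime_pow locA_zero hp, pow_rpow]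

theorem prime_cases {p : ℕ} (hp : p.Prime) (h6 : 6 ∣ Q) :
    p ∣ Q ∨ (¬ p ∣ Q ∧ p % 3 = 1 ∧ 5 ≤ p) ∨ (¬ p ∣ Q ∧ p % 3 = 2 ∧ 5 ≤ p) := by
  by_cases h : p ∣ Q
  · exact Or.inl h
  have h2 : p ≠ 2 := fun h2 => h (by rw [h2]; exact (by norm_num : 2 ∣ 6).trans h6)
  have h3 : p ≠ 3 := fun h3 => h (by rw [h3]; exact (by norm_num : 3 ∣ 6).trans h6)
  have h5 : 5 ≤ p := by
    have := hp.two_le
    by_contra hlt
    push Not at hlt
    interval_cases p
    · exact h2 rfl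
    · exact h3 rfl
    · norm_num at hp
  have h4 : p % 3 ≠ 0 := fun h4 => by
    have := (Nat.prime_dvd_prime_iff_eq Nat.prime_three hp).mp (Nat.dvd_of_mod_eq_zero h4)
    exact h3 this.symm
  have : p % 3 = 1 ∨ p % 3 = 2 := by omega
  rcases this with h | h
  · exact Or.inr (Or.inl ⟨‹_›, h, h5⟩)
  · exact Or.inr (Or.inr ⟨‹_›, h, h5⟩)

include H

theorem local_summable {s : ℝ} (h1 : 1 < s) {p : ℕ} (hp : p.Prime) :
    Summable fun e : ℕ => ‖fA Q u u' s (p ^ e)‖ := by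
  obtain ⟨hx0, hx1⟩ := rpow_facts hp h1
  rcases prime_cases hp H.six with h | ⟨h, h3, h5⟩ | ⟨h, h3, h5⟩
  · refine summable_of_ne_finset_zero (s := {0}) fun e he => ?_
    rw [fA_pow s hp, locA_bad h (by simpa using he)]
    simp
  · have hg : Good1 Q p := ⟨hp, h, h3⟩
    refine (summable_mul hx0 (H.summ s h1 p hg).1 (H.summ s h1 p hg).2).congr fun e => ?_
    rw [fA_pow s hp, locA_one h h3, norm_mul, Real.norm_eq_abs, norm_pow, Real.norm_eq_abs,
      abs_of_pos hx0]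
  · have hi := H.inert p hp h h3
    refine (summable_lin hx0 (rpow_le_quarter h5 h1)
      (abs_le.mpr ⟨by linarith, hi.2⟩)).congr fun e => ?_
    rw [fA_pow s hp, locA_two h h3, norm_mul, Real.norm_eq_abs, norm_pow, Real.norm_eq_abs,
      abs_of_pos hx0]

omit H in
theorem tsum_add_one_mul_pow {x : ℝ} (hx0 : 0 < x) (hx : x ≤ 1 / 4) :
    HasSum (fun e : ℕ => ((e : ℝ) + 1) * x ^ e) ((1 / (1 - x)) ^ 2) := by
  have h := hasSum_choose_mul_geometric_of_norm_lt_one (𝕜 := ℝ) 1 (r := x)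
    (by rw [Real.norm_eq_abs, abs_of_pos hx0]; linarith)
  have e1 : (fun n : ℕ => ((n + 1).choose 1 : ℝ) * x ^ n) = fun e : ℕ => ((e : ℝ) + 1) * x ^ e := by
    ext n
    rw [Nat.choose_one_right]
    push_cast
    ring
  rw [e1] at h
  have e2 : (1 : ℝ) / (1 - x) ^ (1 + 1) = (1 / (1 - x)) ^ 2 := by
    rw [one_div_pow]
  rw [e2] at h
  exact h

/-- the local exponent -/
noncomputable def bA (Q : ℕ) (u u' : ℕ → ℝ) (s : ℝ) (p : ℕ) : ℝ :=
  4 * (p : ℝ) ^ (-s) + if p % 3 = 1 ∧ ¬ p ∣ Q then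
    (SS (u p) ((p : ℝ) ^ (-s)) - 1) + (SS (u' p) ((p : ℝ) ^ (-s)) - 1) else 0

theorem local_norm_le {s : ℝ} (h1 : 1 < s) {p : ℕ} (hp : p.Prime) :
    ∑' e : ℕ, ‖fA Q u u' s (p ^ e)‖ ≤ Real.exp (bA Q u u' s p) := by
  obtain ⟨hx0, hx1⟩ := rpow_facts hp h1
  rcases prime_cases hp H.six with h | ⟨h, h3, h5⟩ | ⟨h, h3, h5⟩
  · rw [tsum_eq_single 0 (fun e he => by rw [fA_pow s hp, locA_bad h he]; simp), fA_pow s hp,
      locA_zero]
    simp only [pow_zero, mul_one, norm_one]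
    apply Real.one_le_exp
    rw [bA, if_neg (fun h' => h'.2 h)]
    positivity
  · have hg : Good1 Q p := ⟨hp, h, h3⟩
    have hs1 := (H.summ s h1 p hg).1
    have hs2 := (H.summ s h1 p hg).2
    have e0 : ∀ e : ℕ, ‖fA Q u u' s (p ^ e)‖ = |Uc (u p) e * Uc (u' p) e| * ((p : ℝ) ^ (-s)) ^ e := by
      intro e
      rw [fA_pow s hp, locA_one h h3, norm_mul, Real.norm_eq_abs, norm_pow, Real.norm_eq_abs,
        abs_of_pos hx0]
    simp only [e0]
    have hm := summable_mul hx0 hs1 hs2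
    have e1 : ∑' e : ℕ, |Uc (u p) e * Uc (u' p) e| * ((p : ℝ) ^ (-s)) ^ e ≤
        ∑' e : ℕ, ((Uc (u p) e ^ 2 * ((p : ℝ) ^ (-s)) ^ e) / 2 +
          (Uc (u' p) e ^ 2 * ((p : ℝ) ^ (-s)) ^ e) / 2) := by
      refine hm.tsum_le_tsum (fun e => ?_) ((hs1.div_const 2).add (hs2.div_const 2))
      have hpow : (0 : ℝ) ≤ ((p : ℝ) ^ (-s)) ^ e := by positivity
      have e2 : |Uc (u p) e * Uc (u' p) e| ≤ (Uc (u p) e ^ 2 + Uc (u' p) e ^ 2) / 2 := by
        rw [abs_mul]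
        nlinarith [sq_nonneg (|Uc (u p) e| - |Uc (u' p) e|), sq_abs (Uc (u p) e),
          sq_abs (Uc (u' p) e)]
      calc _ ≤ (Uc (u p) e ^ 2 + Uc (u' p) e ^ 2) / 2 * ((p : ℝ) ^ (-s)) ^ e :=
            mul_le_mul_of_nonneg_right e2 hpow
        _ = _ := by ring
    rw [(hs1.div_const 2).tsum_add (hs2.div_const 2), tsum_div_const, tsum_div_const] at e1
    have h11 := H.one_le h1 hg
    rw [bA, if_pos ⟨h3, h⟩]
    have e3 : 1 + ((SS (u p) ((p : ℝ) ^ (-s)) - 1) + (SS (u' p) ((p : ℝ) ^ (-s)) - 1)) ≤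
        Real.exp (4 * (p : ℝ) ^ (-s) +
          ((SS (u p) ((p : ℝ) ^ (-s)) - 1) + (SS (u' p) ((p : ℝ) ^ (-s)) - 1))) := by
      have := Real.add_one_le_exp (4 * (p : ℝ) ^ (-s) +
          ((SS (u p) ((p : ℝ) ^ (-s)) - 1) + (SS (u' p) ((p : ℝ) ^ (-s)) - 1)))
      linarith
    refine (e1.trans ?_).trans e3
    change SS (u p) ((p : ℝ) ^ (-s)) / 2 + SS (u' p) ((p : ℝ) ^ (-s)) / 2 ≤ _
    linarith [h11.1, h11.2]
  · have hi := H.inert p hp h h3
    have hq := rpow_le_quarter h5 h1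
    have hl : |u p| ≤ 2 := abs_le.mpr ⟨by linarith, hi.2⟩
    have e0 : ∀ e : ℕ, ‖fA Q u u' s (p ^ e)‖ = |Uc (u p) e| * ((p : ℝ) ^ (-s)) ^ e := by
      intro e
      rw [fA_pow s hp, locA_two h h3, norm_mul, Real.norm_eq_abs, norm_pow, Real.norm_eq_abs,
        abs_of_pos hx0]
    simp only [e0]
    have hsum := tsum_add_one_mul_pow hx0 hq
    have e1 := (summable_lin hx0 hq hl).tsum_le_tsum (fun e =>
      mul_le_mul_of_nonneg_right (abs_Uc_le hl e) (pow_nonneg hx0.le e)) hsum.summable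
    rw [hsum.tsum_eq] at e1
    refine e1.trans ?_
    rw [bA, if_neg (by omega), add_zero]
    set x := (p : ℝ) ^ (-s)
    have e2 : 1 / (1 - x) ≤ Real.exp (2 * x) := by
      have h4 : 1 / (1 - x) ≤ 1 + 2 * x := by
        rw [div_le_iff₀ (by linarith)]; nlinarith
      have := Real.add_one_le_exp (2 * x)
      linarith
    calc (1 / (1 - x)) ^ 2 ≤ (Real.exp (2 * x)) ^ 2 := by
          apply pow_le_pow_left₀ _ e2
          apply div_nonneg zero_le_one; linarith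
      _ = Real.exp (4 * x) := by rw [← Real.exp_nat_mul]; congr 1; push_cast; ring

omit H in
theorem one_add_sum_le_prod {ι : Type*} (T : Finset ι) (a : ι → ℝ) (ha : ∀ i, 0 ≤ a i) :
    1 + ∑ i ∈ T, a i ≤ ∏ i ∈ T, (1 + a i) := by
  classical
  induction T using Finset.induction_on with
  | empty => simp
  | insert i T hi ih =>
    rw [Finset.sum_insert hi, Finset.prod_insert hi]
    have h1 : 0 ≤ ∑ j ∈ T, a j := Finset.sum_nonneg fun j _ => ha j
    nlinarith [ha i, mul_le_mul_of_nonneg_left ih (ha i)]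

theorem bA_bound {s : ℝ} (h1 : 1 < s) (h2 : s ≤ 2) : ∃ B : ℝ, ∀ N : ℕ,
    ∑ p ∈ N.primesBelow, bA Q u u' s p ≤ B := by
  obtain ⟨C, hC⟩ := H.bound
  have hP : Summable fun p : Nat.Primes => ((p : ℕ) : ℝ) ^ (-s) :=
    Nat.Primes.summable_rpow.mpr (by linarith)
  refine ⟨4 * (∑' p : Nat.Primes, ((p : ℕ) : ℝ) ^ (-s)) + 2 * (C / (s - 1)), fun N => ?_⟩
  simp only [bA]
  rw [Finset.sum_add_distrib, ← Finset.mul_sum]
  have h5 : ∑ p ∈ N.primesBelow, (p : ℝ) ^ (-s) ≤ ∑' p : Nat.Primes, ((p : ℕ) : ℝ) ^ (-s) := by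
    have h5 : ∑ p ∈ N.primesBelow, (p : ℝ) ^ (-s) =
        ∑ p ∈ N.primesBelow.subtype (fun p => p.Prime), ((p : ℕ) : ℝ) ^ (-s) := by
      rw [← Finset.sum_subtype_of_mem (fun p : ℕ => (p : ℝ) ^ (-s))
        (fun p hp => Nat.prime_of_mem_primesBelow hp)]
    rw [h5]
    exact Summable.sum_le_tsum (ι := Nat.Primes) _ (fun p _ => by positivity) hP
  have h6 : ∑ p ∈ N.primesBelow, (if p % 3 = 1 ∧ ¬ p ∣ Q then
      (SS (u p) ((p : ℝ) ^ (-s)) - 1) + (SS (u' p) ((p : ℝ) ^ (-s)) - 1) else 0) ≤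
      2 * (C / (s - 1)) := by
    rw [← Finset.sum_filter]
    set T := N.primesBelow.filter fun p => p % 3 = 1 ∧ ¬ p ∣ Q with hT
    have hTg : ∀ p ∈ T, Good1 Q p := fun p hp => by
      rw [hT, Finset.mem_filter] at hp
      exact ⟨Nat.prime_of_mem_primesBelow hp.1, hp.2.2, hp.2.1⟩
    have h7 := hC s h1 h2 T hTg
    -- use max to have nonnegative functions
    have h8 : ∑ p ∈ T, ((SS (u p) ((p : ℝ) ^ (-s)) - 1) + (SS (u' p) ((p : ℝ) ^ (-s)) - 1)) ≤
        2 * ∑ p ∈ T, max (SS (u p) ((p : ℝ) ^ (-s)) * SS (u' p) ((p : ℝ) ^ (-s)) - 1) 0 := by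
      rw [Finset.mul_sum]
      refine Finset.sum_le_sum fun p hp => ?_
      obtain ⟨h9, h10⟩ := H.one_le h1 (hTg p hp)
      have h11 := le_max_left (SS (u p) ((p : ℝ) ^ (-s)) * SS (u' p) ((p : ℝ) ^ (-s)) - 1) 0
      nlinarith
    have h9 := one_add_sum_le_prod T
      (fun p => max (SS (u p) ((p : ℝ) ^ (-s)) * SS (u' p) ((p : ℝ) ^ (-s)) - 1) 0)
      (fun p => le_max_right _ _)
    have h10 : ∏ p ∈ T, (1 + max (SS (u p) ((p : ℝ) ^ (-s)) * SS (u' p) ((p : ℝ) ^ (-s)) - 1) 0) =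
        ∏ p ∈ T, (SS (u p) ((p : ℝ) ^ (-s)) * SS (u' p) ((p : ℝ) ^ (-s))) := by
      refine Finset.prod_congr rfl fun p hp => ?_
      obtain ⟨h9, h10⟩ := H.one_le h1 (hTg p hp)
      rw [max_eq_left (by nlinarith)]
      ring
    rw [h10] at h9
    linarith
  linarith

theorem summable_fA {s : ℝ} (h1 : 1 < s) (h2 : s ≤ 2) : Summable fun n => ‖fA Q u u' s n‖ := by
  obtain ⟨B, hB⟩ := bA_bound H h1 h2
  exact summable_of_local (fA_zero s) (fA_one s) (fun h => fA_mul s h)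
    (fun hp => local_summable H h1 hp) (bA Q u u' s) B hB (fun hp => local_norm_le H h1 hp)

open Classical in
/-- the lower bound exponent -/
noncomputable def cA (Q : ℕ) (u u' : ℕ → ℝ) (s : ℝ) (p : Nat.Primes) : ℝ :=
  (if Good1 Q p then u p * u' p else 0) * ((p : ℕ) : ℝ) ^ (-s) +
  (if ¬ (p : ℕ) ∣ Q ∧ (p : ℕ) % 3 = 2 then u p else 0) * ((p : ℕ) : ℝ) ^ (-s) -
  3 / 2 * ((if Good1 Q p then u p ^ 2 + u' p ^ 2 else 0) * ((p : ℕ) : ℝ) ^ (-2 : ℝ)) -
  2 * ((p : ℕ) : ℝ) ^ (-2 : ℝ)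

theorem local_ge {s : ℝ} (h1 : 1 < s) (p : Nat.Primes) :
    Real.exp (cA Q u u' s p) ≤ ∑' e : ℕ, fA Q u u' s ((p : ℕ) ^ e) := by
  have hp := p.2
  obtain ⟨hx0, hx1⟩ := rpow_facts hp h1
  have hx2 := rpow_sq_le hp h1
  have hx20 : (0 : ℝ) ≤ ((p : ℕ) : ℝ) ^ (-2 : ℝ) := by positivity
  rcases prime_cases hp H.six with h | ⟨h, h3, h5⟩ | ⟨h, h3, h5⟩
  · rw [tsum_eq_single 0 (fun e he => by rw [fA_pow s hp, locA_bad h he]; simp), fA_pow s hp,
      locA_zero]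
    simp only [pow_zero, mul_one]
    rw [← Real.exp_zero]
    apply Real.exp_le_exp.mpr
    rw [cA, if_neg (fun hg => hg.2.1 h), if_neg (fun hg => hg.1 h), if_neg (fun hg => hg.2.1 h)]
    linarith
  · have hg : Good1 Q p := ⟨hp, h, h3⟩
    have hs1 := (H.summ s h1 p hg).1
    have hs2 := (H.summ s h1 p hg).2
    have e0 : ∀ e : ℕ, fA Q u u' s ((p : ℕ) ^ e) =
        Uc (u p) e * Uc (u' p) e * (((p : ℕ) : ℝ) ^ (-s)) ^ e := by
      intro e
      rw [fA_pow s hp, locA_one h h3]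
    simp only [e0]
    refine le_trans (Real.exp_le_exp.mpr ?_) (exp_le_asai hx0 hx1 hs1 hs2)
    rw [cA, if_pos hg, if_pos hg, if_neg (by omega)]
    have h4 : (0 : ℝ) ≤ u p ^ 2 + u' p ^ 2 := by positivity
    nlinarith [mul_le_mul_of_nonneg_left hx2 h4]
  · have hi := H.inert p hp h h3
    have hq := rpow_le_quarter h5 h1
    have hl : |u p| ≤ 2 := abs_le.mpr ⟨by linarith, hi.2⟩
    have e0 : ∀ e : ℕ, fA Q u u' s ((p : ℕ) ^ e) = Uc (u p) e * (((p : ℕ) : ℝ) ^ (-s)) ^ e := by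
      intro e
      rw [fA_pow s hp, locA_two h h3]
    simp only [e0]
    refine le_trans (Real.exp_le_exp.mpr ?_) (exp_le_lin hx0 hq hl)
    have hng : ¬ Good1 Q p := fun hg => by have := hg.2.2; omega
    have hyes : ¬ (p : ℕ) ∣ Q ∧ (p : ℕ) % 3 = 2 := ⟨h, h3⟩
    rw [cA, if_neg hng, if_neg hng, if_pos hyes]
    linarith

open Classical in
/-- **The Asai series is unbounded near `s = 1`.** -/
theorem unbounded (TA TD : ℕ → Prop)
    (hA : ∀ p, p.Prime → TA p → Good1 Q p ∧ u p = u' p ∧ |u p| = 2)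
    (hD : ∀ p, p.Prime → TD p → ¬ p ∣ Q ∧ p % 3 = 2 ∧ u p = 2)
    (dA : DensGE TA (1 / 24)) (dD : DensGE TD (1 / 4)) :
    ¬ Cheb.BddNear (fun s => ∑' n : ℕ, fA Q u u' s n) := by
  rintro ⟨B, hB⟩
  obtain ⟨CA, hCA⟩ := dA (1 / 200) (by norm_num)
  obtain ⟨CD, hCD⟩ := dD (1 / 200) (by norm_num)
  obtain ⟨C2, hC2⟩ := H.tsum_w
  have hP2 : Summable fun p : Nat.Primes => ((p : ℕ) : ℝ) ^ (-2 : ℝ) :=
    Nat.Primes.summable_rpow.mpr (by norm_num)
  have sw2 := H.summable_w (s := 2) (by norm_num) le_rfl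
  set W2 := ∑' p : Nat.Primes,
      (if Good1 Q p then u p ^ 2 + u' p ^ 2 else 0) * ((p : ℕ) : ℝ) ^ (-2 : ℝ) with hW2
  set P2 := ∑' p : Nat.Primes, ((p : ℕ) : ℝ) ^ (-2 : ℝ) with hP2'
  set K := 8 * CA + 2 * CD + C2 / 2 + 3 / 2 * W2 + 2 * P2 with hK
  -- lower bound for the exponent
  have key : ∀ s : ℝ, 1 < s → s ≤ 2 → Summable (cA Q u u' s) ∧
      1 / 4 * Real.log (1 / (s - 1)) - K ≤ ∑' p, cA Q u u' s p := by
    intro s hs1 hs2
    have hP : Summable fun p : Nat.Primes => ((p : ℕ) : ℝ) ^ (-s) :=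
      Nat.Primes.summable_rpow.mpr (by linarith)
    have hp0 : ∀ p : Nat.Primes, 0 ≤ ((p : ℕ) : ℝ) ^ (-s) := fun p =>
      Real.rpow_nonneg (Nat.cast_nonneg _) _
    have sA : Summable fun p : Nat.Primes => if TA p then ((p : ℕ) : ℝ) ^ (-s) else 0 :=
      ChebFull.summable_ind (fun p : Nat.Primes => TA p) hs1
    have sD : Summable fun p : Nat.Primes => if TD p then ((p : ℕ) : ℝ) ^ (-s) else 0 :=
      ChebFull.summable_ind (fun p : Nat.Primes => TD p) hs1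
    have sw := H.summable_w hs1 hs2
    have s1 : Summable fun p : Nat.Primes =>
        (if Good1 Q p then u p * u' p else 0) * ((p : ℕ) : ℝ) ^ (-s) := by
      refine Summable.of_norm_bounded sw fun p => ?_
      rw [norm_mul, Real.norm_eq_abs, Real.norm_eq_abs, abs_of_nonneg (hp0 p)]
      refine mul_le_mul_of_nonneg_right ?_ (hp0 p)
      split_ifs
      · rw [abs_mul]
        nlinarith [sq_nonneg (|u p| - |u' p|), sq_abs (u p), sq_abs (u' p), sq_nonneg (u p),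
          sq_nonneg (u' p)]
      · simp
    have s2 : Summable fun p : Nat.Primes =>
        (if ¬ (p : ℕ) ∣ Q ∧ (p : ℕ) % 3 = 2 then u p else 0) * ((p : ℕ) : ℝ) ^ (-s) := by
      refine Summable.of_norm_bounded (hP.mul_left 2) fun p => ?_
      rw [norm_mul, Real.norm_eq_abs, Real.norm_eq_abs, abs_of_nonneg (hp0 p)]
      refine mul_le_mul_of_nonneg_right ?_ (hp0 p)
      split_ifs with h
      · have := H.inert p p.2 h.1 h.2
        exact abs_le.mpr ⟨by linarith, this.2⟩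
      · simp
    have sc : Summable (cA Q u u' s) :=
      ((s1.add s2).sub (sw2.mul_left (3 / 2))).sub (hP2.mul_left 2)
    refine ⟨sc, ?_⟩
    have e1 : ∑' p, cA Q u u' s p = ∑' p : Nat.Primes,
        ((if Good1 Q p then u p * u' p else 0) * ((p : ℕ) : ℝ) ^ (-s) +
        (if ¬ (p : ℕ) ∣ Q ∧ (p : ℕ) % 3 = 2 then u p else 0) * ((p : ℕ) : ℝ) ^ (-s)) -
        3 / 2 * W2 - 2 * P2 := by
      rw [hW2, hP2', ← tsum_mul_left, ← tsum_mul_left,
        ← (s1.add s2).tsum_sub (sw2.mul_left (3 / 2)),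
        ← ((s1.add s2).sub (sw2.mul_left (3 / 2))).tsum_sub (hP2.mul_left 2)]
      rfl
    have hle := Summable.tsum_le_tsum (f := fun p : Nat.Primes =>
        8 * (if TA p then ((p : ℕ) : ℝ) ^ (-s) else 0) +
        2 * (if TD p then ((p : ℕ) : ℝ) ^ (-s) else 0) -
        1 / 2 * ((if Good1 Q p then u p ^ 2 + u' p ^ 2 else 0) * ((p : ℕ) : ℝ) ^ (-s)))
      (fun p => ?_) (((sA.mul_left 8).add (sD.mul_left 2)).sub (sw.mul_left (1 / 2))) (s1.add s2)
    · rw [((sA.mul_left 8).add (sD.mul_left 2)).tsum_sub (sw.mul_left (1 / 2)),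
        (sA.mul_left 8).tsum_add (sD.mul_left 2), tsum_mul_left, tsum_mul_left,
        tsum_mul_left] at hle
      have a1 := hCA s hs1 hs2
      have a3 := hCD s hs1 hs2
      have a4 := hC2 s hs1 hs2
      have hlog := log_nonneg' hs1 hs2
      rw [e1, hK]
      linarith
    · -- pointwise
      have hx := hp0 p
      by_cases hg : Good1 Q p
      · have hnD : ¬ TD p := fun h => by
          have e2 := (hD p p.2 h).2.1
          have e3 := hg.2.2
          omega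
        have hn2 : ¬ (¬ (p : ℕ) ∣ Q ∧ (p : ℕ) % 3 = 2) := fun h => by
          have e2 := h.2
          have e3 := hg.2.2
          omega
        rw [if_neg hnD, if_pos hg, if_pos hg, if_neg hn2]
        by_cases hAA : TA p
        · obtain ⟨-, h2, h3⟩ := hA p p.2 hAA
          rw [if_pos hAA, ← h2]
          have h4 : u p ^ 2 = 4 := by rw [← sq_abs, h3]; norm_num
          have h5 : u p * u p = 4 := by rw [← h4]; ring
          rw [h4, h5]
          linarith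
        · rw [if_neg hAA]
          have h5 : -(u p * u' p) ≤ 1 / 2 * (u p ^ 2 + u' p ^ 2) := by
            nlinarith [sq_nonneg (u p + u' p)]
          nlinarith [mul_le_mul_of_nonneg_right h5 hx]
      · have hnA : ¬ TA p := fun h => hg (hA p p.2 h).1
        rw [if_neg hnA, if_neg hg, if_neg hg]
        by_cases hDD : TD p
        · obtain ⟨h1, h2, h3⟩ := hD p p.2 hDD
          have hy : ¬ (p : ℕ) ∣ Q ∧ (p : ℕ) % 3 = 2 := ⟨h1, h2⟩
          rw [if_pos hDD, if_pos hy, h3]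
          linarith
        · rw [if_neg hDD]
          split_ifs with h
          · have := H.inert p p.2 h.1 h.2
            have := mul_nonneg this.1 hx
            linarith
          · linarith
  -- conclusion
  have hfin : ∀ s : ℝ, 1 < s → s ≤ 2 →
      Real.log (1 / (s - 1)) ≤ 4 * (Real.log (|B| + 1) + K) := by
    intro s hs1 hs2
    obtain ⟨sc, hsc⟩ := key s hs1 hs2
    have e1 := exp_le_of_local (f := fA Q u u' s) (fA_zero s) (fA_one s) (fun h => fA_mul s h)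
      (summable_fA H hs1 hs2) (cA Q u u' s) sc (fun p => local_ge H hs1 p)
    have e2 := (le_abs_self _).trans (hB s hs1 hs2)
    have e4 : Real.exp (∑' p, cA Q u u' s p) ≤ |B| + 1 := by
      linarith [le_abs_self B, e1.trans e2]
    have e5 := (Real.le_log_iff_exp_le (by positivity)).mpr e4
    linarith
  apply Cheb.not_bddNear_log
  refine ⟨4 * (Real.log (|B| + 1) + K), fun s hs1 hs2 => ?_⟩
  rw [abs_of_nonneg (log_nonneg' hs1 hs2)]
  exact hfin s hs1 hs2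

end

end Fermat.Agent.LT.RS
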