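import Mathlib
import Fermat.Agent.LT.RS.Unbdd
import Fermat.Agent.LT.RS.Eis

/-!
# Fourier coefficients of a Hecke eigenform on hyperbolic 3-space over `ℚ(√-3)`
-/

set_option autoImplicit false
set_option linter.unusedSectionVars false

open NumberField Finset MeasureTheory Set

namespace Fermat.Agent.LT.RS

open Fermat.Agent.LT.Asai

/-! ### A real-variable lemma -/

theorem rpow_eq_integral {r s : ℝ} (hr : 0 < r) (hs : 1 < s) :
    r ^ (-(2 * s)) = 2 * s * ∫ t in Ioi r, t ^ (-(2 * s) - 1) := by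
  rw [integral_Ioi_rpow_of_lt (by linarith) hr]
  have h : -(2 * s) - 1 + 1 = -(2 * s) := by ring
  rw [h]
  have : 2 * s ≠ 0 := by linarith
  field_simp

theorem dirichlet_of_moment {ι : Type*} {b ρ : ι → ℝ} {C r0 : ℝ} (hr0 : 0 < r0)
    (F : Finset ι) (hb : ∀ j ∈ F, 0 ≤ b j) (hρ : ∀ j ∈ F, r0 ≤ ρ j)
    (hm : ∀ R : ℝ, 0 < R → ∑ j ∈ F.filter (fun j => ρ j ≤ R), b j ≤ C * R ^ 2)
    {s : ℝ} (h1 : 1 < s) :
    ∑ j ∈ F, b j * ρ j ^ (-(2 * s)) ≤ C * s * r0 ^ (2 - 2 * s) / (s - 1) := by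
  classical
  have hint : ∀ r : ℝ, 0 < r → IntegrableOn (fun t : ℝ => t ^ (-(2 * s) - 1)) (Ioi r) := fun r hr =>
    integrableOn_Ioi_rpow_of_lt (by linarith) hr
  have e1 : ∀ j ∈ F, b j * ρ j ^ (-(2 * s)) =
      2 * s * ∫ t in Ioi r0, b j * (Ioi (ρ j)).indicator (fun t : ℝ => t ^ (-(2 * s) - 1)) t := by
    intro j hj
    have hj0 : 0 < ρ j := lt_of_lt_of_le hr0 (hρ j hj)
    rw [rpow_eq_integral hj0 h1, integral_const_mul, setIntegral_indicator measurableSet_Ioi]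
    have : Ioi r0 ∩ Ioi (ρ j) = Ioi (ρ j) := by
      rw [Set.inter_eq_right]
      exact Ioi_subset_Ioi (hρ j hj)
    rw [this]
    ring
  rw [Finset.sum_congr rfl e1, ← Finset.mul_sum, ← integral_finsetSum]
  · have h2 : ∫ t in Ioi r0, ∑ j ∈ F, b j * (Ioi (ρ j)).indicator
        (fun t : ℝ => t ^ (-(2 * s) - 1)) t ≤ ∫ t in Ioi r0, C * t ^ (1 - 2 * s) := by
      refine setIntegral_mono_on ?_ ?_ measurableSet_Ioi fun t ht => ?_
      · refine integrable_finsetSum _ fun j hj => Integrable.const_mul ?_ _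
        exact ((hint r0 hr0).indicator measurableSet_Ioi)
      · exact (integrableOn_Ioi_rpow_of_lt (by linarith) hr0).const_mul C
      · have ht0 : 0 < t := lt_trans hr0 ht
        have h3 : ∑ j ∈ F, b j * (Ioi (ρ j)).indicator (fun t : ℝ => t ^ (-(2 * s) - 1)) t ≤
            (∑ j ∈ F.filter (fun j => ρ j ≤ t), b j) * t ^ (-(2 * s) - 1) := by
          rw [Finset.sum_filter, Finset.sum_mul]
          refine Finset.sum_le_sum fun j hj => ?_
          have hp : (0 : ℝ) ≤ t ^ (-(2 * s) - 1) := Real.rpow_nonneg ht0.le _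
          by_cases h4 : ρ j < t
          · rw [Set.indicator_of_mem (show t ∈ Ioi (ρ j) from h4), if_pos h4.le]
          · rw [Set.indicator_of_notMem (show t ∉ Ioi (ρ j) from h4), mul_zero]
            split_ifs
            · exact mul_nonneg (hb j hj) hp
            · simp
        refine h3.trans ?_
        calc (∑ j ∈ F.filter (fun j => ρ j ≤ t), b j) * t ^ (-(2 * s) - 1)
            ≤ C * t ^ 2 * t ^ (-(2 * s) - 1) :=
              mul_le_mul_of_nonneg_right (hm t ht0) (Real.rpow_nonneg ht0.le _)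
          _ = C * t ^ (1 - 2 * s) := by
              rw [mul_assoc, ← Real.rpow_natCast, ← Real.rpow_add ht0]
              congr 2
              push_cast
              ring
    rw [integral_const_mul, integral_Ioi_rpow_of_lt (by linarith) hr0] at h2
    have h5 : 1 - 2 * s + 1 = 2 - 2 * s := by ring
    rw [h5] at h2
    calc 2 * s * (∫ t in Ioi r0, ∑ j ∈ F, b j * (Ioi (ρ j)).indicator
        (fun t : ℝ => t ^ (-(2 * s) - 1)) t) ≤ 2 * s * (C * (-r0 ^ (2 - 2 * s) / (2 - 2 * s))) :=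
          mul_le_mul_of_nonneg_left h2 (by linarith)
      _ = C * s * r0 ^ (2 - 2 * s) / (s - 1) := by
          have h6 : s - 1 ≠ 0 := by linarith
          have h7 : 2 - 2 * s = -2 * (s - 1) := by ring
          generalize r0 ^ (2 - 2 * s) = X
          rw [h7]
          field_simp
  · intro j hj
    exact ((hint r0 hr0).indicator measurableSet_Ioi).const_mul _

/-! ### Coefficient systems -/

variable {K : Type*} [Field K] [NumberField K] [IsCyclotomicExtension {3} ℚ K]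

/-- the inclusion of the ring of integers -/
local notation "α" => algebraMap (𝓞 K) K

/-- `√-3` -/
noncomputable def del (K : Type*) [Field K] [NumberField K] [IsCyclotomicExtension {3} ℚ K] : 𝓞 K :=
  2 * (IsCyclotomicExtension.zeta_spec 3 ℚ K).toInteger + 1

/-- the dual lattice -/
def InD (N : ℕ) (ξ : K) : Prop := ∃ x : 𝓞 K, ξ * ((N : K) * α (del K)) = α x

theorem del_ne_zero : del K ≠ 0 := by
  intro h
  have h1 : ((1 : ℤ) : 𝓞 K) + (2 : ℤ) * (IsCyclotomicExtension.zeta_spec 3 ℚ K).toInteger = 0 := by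
    rw [← h, del]; push_cast; ring
  have := (rep_inj _ h1).1
  norm_num at this

/-- Hecke eigensystem on the Fourier coefficients. -/
structure CoefSys (i : K →+* ℂ) (N : ℕ) (a : K → ℂ) (κ : 𝓞 K → ℂ) (lam : 𝓞 K → ℝ) : Prop where
  pos : 0 < N
  zero : a 0 = 0
  supp : ∀ ξ, a ξ ≠ 0 → InD N ξ
  moment : ∃ C : ℝ, 0 ≤ C ∧ ∀ R : ℝ, 0 < R → ∀ F : Finset K, (∀ ξ ∈ F, ‖i ξ‖ ≤ R) →
    ∑ ξ ∈ F, ‖a ξ‖ ^ 2 ≤ C * R ^ 2
  kmul : ∀ x y, κ (x * y) = κ x * κ y
  kone : κ 1 = 1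
  kper : ∀ x y, κ (x + N * y) = κ x
  knorm : ∀ ϖ : 𝓞 K, Prime ϖ → ¬ ϖ ∣ (N : 𝓞 K) → ‖κ ϖ‖ = 1
  hecke : ∀ ϖ : 𝓞 K, Prime ϖ → ¬ ϖ ∣ (N : 𝓞 K) → ∀ ξ : K, InD N ξ →
    (κ ϖ)⁻¹ * a (α ϖ * ξ) + κ ϖ * a (ξ / α ϖ) = lam ϖ * a ξ
  neg : ∀ ξ, a (-ξ) = κ (-1) * a ξ

section

variable {i : K →+* ℂ} {N : ℕ} {a : K → ℂ} {κ : 𝓞 K → ℂ} {lam : 𝓞 K → ℝ}
  (H : CoefSys i N a κ lam)

/-- `ξ ∈ D` with numerator `x` -/
def IsNum (N : ℕ) (ξ : K) (x : 𝓞 K) : Prop := ξ * ((N : K) * α (del K)) = α x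

omit [IsCyclotomicExtension {3} ℚ K] in
theorem al_ne {x : 𝓞 K} (h : x ≠ 0) : α x ≠ 0 := by
  intro h2
  exact h (IsFractionRing.injective (𝓞 K) K (by rw [h2, map_zero]))

include H

theorem CoefSys.nd_ne : ((N : K) * α (del K)) ≠ 0 := by
  have h1 : (N : K) ≠ 0 := by exact_mod_cast H.pos.ne'
  exact mul_ne_zero h1 (al_ne del_ne_zero)

omit H in
theorem IsNum.mul {ξ : K} {x : 𝓞 K} (h : IsNum N ξ x) (y : 𝓞 K) :
    IsNum N (α y * ξ) (x * y) := by
  unfold IsNum at *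
  rw [map_mul, ← h]; ring

theorem CoefSys.div_not {ξ : K} {x ϖ : 𝓞 K} (h : IsNum N ξ x) (hϖ : ϖ ≠ 0) (hx : ¬ ϖ ∣ x) :
    a (ξ / α ϖ) = 0 := by
  by_contra hne
  obtain ⟨y, hy⟩ := H.supp _ hne
  apply hx
  refine ⟨y, IsFractionRing.injective (𝓞 K) K ?_⟩
  have h2 : α ϖ ≠ 0 := al_ne hϖ
  unfold IsNum at h
  rw [map_mul, ← hy, ← h]
  field_simp

theorem CoefSys.k_ne {ϖ : 𝓞 K} (hϖ : Prime ϖ) (hN : ¬ ϖ ∣ (N : 𝓞 K)) : κ ϖ ≠ 0 := by
  intro h
  have := H.knorm ϖ hϖ hN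
  rw [h, norm_zero] at this
  norm_num at this

/-- **powers** -/
theorem CoefSys.pow {ξ : K} {x ϖ : 𝓞 K} (h : IsNum N ξ x) (hϖ : Prime ϖ)
    (hN : ¬ ϖ ∣ (N : 𝓞 K)) (hx : ¬ ϖ ∣ x) (e : ℕ) :
    a (α ϖ ^ e * ξ) = κ ϖ ^ e * (Uc (lam ϖ) e : ℝ) * a ξ := by
  have hk := H.k_ne hϖ hN
  have hϖ0 : α ϖ ≠ 0 := al_ne hϖ.ne_zero
  have hD : ∀ e : ℕ, InD N (α ϖ ^ e * ξ) := by
    intro e
    have := h.mul (ϖ ^ e)
    rw [map_pow] at this
    exact ⟨_, this⟩
  have hrec : ∀ η : K, InD N η → a (α ϖ * η) =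
      κ ϖ * (lam ϖ * a η) - κ ϖ ^ 2 * a (η / α ϖ) := by
    intro η hη
    have := H.hecke ϖ hϖ hN η hη
    rw [← this]
    field_simp
    ring
  induction e using Nat.strong_induction_on with
  | _ e ih =>
    rcases e with _ | _ | e
    · simp [Uc_zero]
    · rw [zero_add, pow_one, hrec ξ ⟨x, h⟩, H.div_not h hϖ.ne_zero hx, Uc_one]
      ring
    · have h1 := ih (e + 1) (by omega)
      have h2 := ih e (by omega)
      have h3 : α ϖ ^ (e + 1 + 1) * ξ = α ϖ * (α ϖ ^ (e + 1) * ξ) := by ring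
      have h4 : α ϖ ^ (e + 1) * ξ / α ϖ = α ϖ ^ e * ξ := by
        rw [div_eq_iff hϖ0]; ring
      rw [h3, hrec _ (hD (e + 1)), h4, h1, h2, Uc_succ]
      push_cast
      ring

/-- **products** -/
theorem CoefSys.prod {ι : Type*} {μ : K} {x : 𝓞 K} (h : IsNum N μ x) (v : ι → 𝓞 K)
    (W : Finset ι) (hW : ∀ j ∈ W, Prime (v j)) (hWN : ∀ j ∈ W, ¬ v j ∣ (N : 𝓞 K))
    (hWx : ∀ j ∈ W, ¬ v j ∣ x)
    (hna : ∀ j ∈ W, ∀ k ∈ W, j ≠ k → ¬ Associated (v j) (v k)) (e : ι → ℕ) :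
    a (α (∏ j ∈ W, v j ^ e j) * μ) =
      (∏ j ∈ W, (κ (v j) ^ e j * (Uc (lam (v j)) (e j) : ℝ))) * a μ ∧
    IsNum N (α (∏ j ∈ W, v j ^ e j) * μ) (x * ∏ j ∈ W, v j ^ e j) := by
  classical
  induction W using Finset.induction_on with
  | empty => simpa using h
  | insert j W hj ih =>
    have ih' := ih (fun k hk => hW k (Finset.mem_insert_of_mem hk))
      (fun k hk => hWN k (Finset.mem_insert_of_mem hk))
      (fun k hk => hWx k (Finset.mem_insert_of_mem hk))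
      (fun k hk l hl => hna k (Finset.mem_insert_of_mem hk) l (Finset.mem_insert_of_mem hl))
    refine ⟨?_, h.mul _⟩
    have hp := hW j (Finset.mem_insert_self j W)
    have hnd : ¬ v j ∣ x * ∏ k ∈ W, v k ^ e k := by
      intro hd
      rcases hp.dvd_or_dvd hd with h1 | h1
      · exact hWx j (Finset.mem_insert_self j W) h1
      · obtain ⟨k, hk, h2⟩ := (Prime.dvd_finsetProd_iff hp _).mp h1
        have h3 := hp.dvd_of_dvd_pow h2
        refine hna j (Finset.mem_insert_self j W) k (Finset.mem_insert_of_mem hk) ?_ ?_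
        · rintro rfl; exact hj hk
        · exact hp.associated_of_dvd (hW k (Finset.mem_insert_of_mem hk)) h3
    have h5 := H.pow ih'.2 hp (hWN j (Finset.mem_insert_self j W)) hnd (e j)
    rw [Finset.prod_insert hj, Finset.prod_insert hj]
    have h6 : α (v j ^ e j * ∏ k ∈ W, v k ^ e k) * μ =
        α (v j) ^ e j * (α (∏ k ∈ W, v k ^ e k) * μ) := by
      rw [map_mul, map_pow, mul_assoc]
    rw [h6, h5, ih'.1]
    ring

omit H in
/-- unique factorisation -/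
theorem prod_inj {ι : Type*} (v : ι → 𝓞 K) (W : Finset ι) (hW : ∀ j ∈ W, Prime (v j))
    (hna : ∀ j ∈ W, ∀ k ∈ W, j ≠ k → ¬ Associated (v j) (v k)) (e f : ι → ℕ)
    (hef : ∏ j ∈ W, v j ^ e j = ∏ j ∈ W, v j ^ f j) : ∀ j ∈ W, e j ≤ f j := by
  classical
  intro j hj
  have hp := hW j hj
  have h1 : v j ^ e j ∣ (∏ k ∈ W.erase j, v k ^ f k) * v j ^ f j := by
    rw [Finset.prod_erase_mul W _ hj, ← hef]
    exact Finset.dvd_prod_of_mem _ hj
  have h2 : ¬ v j ∣ ∏ k ∈ W.erase j, v k ^ f k := by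
    intro hd
    obtain ⟨k, hk, h2⟩ := (Prime.dvd_finsetProd_iff hp _).mp hd
    have h3 := hp.dvd_of_dvd_pow h2
    rw [Finset.mem_erase] at hk
    exact hna j hj k hk.2 (Ne.symm hk.1) (hp.associated_of_dvd (hW k hk.2) h3)
  have h3 := hp.pow_dvd_of_dvd_mul_left _ h2 h1
  exact (pow_dvd_pow_iff hp.ne_zero hp.not_isUnit).mp h3

end

end Fermat.Agent.LT.RS
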