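import Mathlib
import Fermat.Agent.LT.RS.Coef

/-!
# Rankin–Selberg bound and Asai coefficients
-/

set_option autoImplicit false
set_option linter.unusedSectionVars false

open NumberField Finset MeasureTheory Filter Topology

namespace Fermat.Agent.LT.RS

open Fermat.Agent.LT.Asai

variable {K : Type*} [Field K] [NumberField K] [IsCyclotomicExtension {3} ℚ K]

local notation "α" => algebraMap (𝓞 K) K

section

variable {i : K →+* ℂ} {N : ℕ} {a : K → ℂ} {κ : 𝓞 K → ℂ} {lam : 𝓞 K → ℝ}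
  (H : CoefSys i N a κ lam)

include H

/-- finite Euler products are bounded by `C/(s-1)` -/
theorem CoefSys.rs_bound {μ : K} {x : 𝓞 K} (h : IsNum N μ x) (hμ : a μ ≠ 0) :
    ∃ C : ℝ, ∀ s : ℝ, 1 < s → s ≤ 2 → ∀ (v : ℕ × Bool → 𝓞 K) (W : Finset (ℕ × Bool)),
      (∀ j ∈ W, Prime (v j)) → (∀ j ∈ W, ¬ v j ∣ (N : 𝓞 K)) → (∀ j ∈ W, ¬ v j ∣ x) →
      (∀ j ∈ W, ∀ k ∈ W, j ≠ k → ¬ Associated (v j) (v k)) → ∀ E : ℕ,
      ∏ j ∈ W, ∑ e ∈ Finset.range E, Uc (lam (v j)) e ^ 2 * (‖io i (v j)‖ ^ (-(2 * s))) ^ e ≤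
        C / (s - 1) := by
  classical
  obtain ⟨C, hC0, hC⟩ := H.moment
  have hμ0 : μ ≠ 0 := fun h0 => hμ (by rw [h0, H.zero])
  have hiμ : 0 < ‖i μ‖ := norm_pos_iff.mpr ((map_ne_zero i).mpr hμ0)
  have haμ : 0 < ‖a μ‖ := norm_pos_iff.mpr hμ
  refine ⟨C * 2 * ‖i μ‖ ^ 2 / ‖a μ‖ ^ 2, fun s h1 h2 v W hW hWN hWx hna E => ?_⟩
  -- extension of partial functions by zero
  let ex : (∀ j ∈ W, ℕ) → (ℕ × Bool → ℕ) := fun p j => if hj : j ∈ W then p j hj else 0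
  let F : Finset (∀ j ∈ W, ℕ) := W.pi fun _ => Finset.range E
  let m : (∀ j ∈ W, ℕ) → 𝓞 K := fun p => ∏ j ∈ W, v j ^ ex p j
  let ξ : (∀ j ∈ W, ℕ) → K := fun p => α (m p) * μ
  have hm0 : ∀ p, m p ≠ 0 := fun p => Finset.prod_ne_zero_iff.mpr fun j hj =>
    pow_ne_zero _ (hW j hj).ne_zero
  have hinj : Function.Injective ξ := by
    intro p q hpq
    have h3 : m p = m q := by
      apply IsFractionRing.injective (𝓞 K) K
      exact mul_right_cancel₀ hμ0 hpq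
    funext j hj
    have h4 := prod_inj v W hW hna (ex p) (ex q) h3 j hj
    have h5 := prod_inj v W hW hna (ex q) (ex p) h3.symm j hj
    have h6 := le_antisymm h4 h5
    simpa [ex, hj] using h6
  have hval : ∀ p, ‖a (ξ p)‖ ^ 2 = (∏ j ∈ W, Uc (lam (v j)) (ex p j) ^ 2) * ‖a μ‖ ^ 2 := by
    intro p
    rw [(H.prod h v W hW hWN hWx hna (ex p)).1, norm_mul, mul_pow, norm_prod, ← Finset.prod_pow]
    congr 1
    refine Finset.prod_congr rfl fun j hj => ?_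
    rw [norm_mul, norm_pow, H.knorm _ (hW j hj) (hWN j hj), one_pow, one_mul, Complex.norm_real,
      Real.norm_eq_abs, sq_abs]
  have hnorm : ∀ p, ‖i (ξ p)‖ = (∏ j ∈ W, ‖io i (v j)‖ ^ ex p j) * ‖i μ‖ := by
    intro p
    simp only [ξ, m]
    rw [map_mul, norm_mul, map_prod, map_prod, norm_prod]
    congr 1
    refine Finset.prod_congr rfl fun j _ => ?_
    rw [map_pow, map_pow, norm_pow]
    rfl
  have hv1 : ∀ j ∈ W, 1 ≤ ‖io i (v j)‖ := by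
    intro j hj
    have hζ := IsCyclotomicExtension.zeta_spec 3 ℚ K
    have h3 := nm_eq i hζ (v j)
    have h4 : nm i (v j) ≠ 0 := fun h4 => (hW j hj).ne_zero (nm_eq_zero i hζ h4)
    have h5 : (1 : ℝ) ≤ nm i (v j) := by exact_mod_cast Nat.one_le_iff_ne_zero.mpr h4
    rw [h3] at h5
    by_contra hlt
    push Not at hlt
    nlinarith [norm_nonneg (io i (v j))]
  have hρ : ∀ p ∈ F, ‖i μ‖ ≤ ‖i (ξ p)‖ := by
    intro p _
    rw [hnorm]
    have h3 : (1 : ℝ) ≤ ∏ j ∈ W, ‖io i (v j)‖ ^ ex p j := by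
      calc (1 : ℝ) = ∏ j ∈ W, (1 : ℝ) := by simp
        _ ≤ _ := Finset.prod_le_prod (fun _ _ => zero_le_one) fun j hj => one_le_pow₀ (hv1 j hj)
    nlinarith
  have key := dirichlet_of_moment (b := fun p => ‖a (ξ p)‖ ^ 2) (ρ := fun p => ‖i (ξ p)‖)
    (C := C) hiμ F (fun p _ => by positivity) hρ (fun R hR => by
      have h3 := Finset.sum_image (s := F.filter fun p => ‖i (ξ p)‖ ≤ R)
        (g := ξ) (f := fun η => ‖a η‖ ^ 2) (fun p _ q _ h => hinj h)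
      rw [← h3]
      apply hC R hR
      intro η hη
      obtain ⟨p, hp, rfl⟩ := Finset.mem_image.mp hη
      exact (Finset.mem_filter.mp hp).2) h1
  -- rewrite the sum as a product
  have e1 : ∀ p ∈ F, ‖a (ξ p)‖ ^ 2 * ‖i (ξ p)‖ ^ (-(2 * s)) =
      (‖a μ‖ ^ 2 * ‖i μ‖ ^ (-(2 * s))) *
        ∏ j ∈ W.attach, (Uc (lam (v j)) (p j.1 j.2) ^ 2 * (‖io i (v j)‖ ^ (-(2 * s))) ^ (p j.1 j.2)) := by
    intro p _
    rw [hval, hnorm, Real.mul_rpow (Finset.prod_nonneg fun j _ => by positivity) (norm_nonneg _),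
      ← Real.finsetProd_rpow _ _ (fun j _ => by positivity)]
    have h3 : ∀ j ∈ W, (‖io i (v j)‖ ^ ex p j) ^ (-(2 * s)) =
        (‖io i (v j)‖ ^ (-(2 * s))) ^ ex p j := by
      intro j _
      rw [← Real.rpow_natCast, ← Real.rpow_natCast, ← Real.rpow_mul (norm_nonneg _),
        ← Real.rpow_mul (norm_nonneg _), mul_comm]
    rw [Finset.prod_congr rfl h3]
    have h4 : ∏ j ∈ W.attach, (Uc (lam (v j)) (p j.1 j.2) ^ 2 *
        (‖io i (v j)‖ ^ (-(2 * s))) ^ (p j.1 j.2)) =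
        ∏ j ∈ W, (Uc (lam (v j)) (ex p j) ^ 2 * (‖io i (v j)‖ ^ (-(2 * s))) ^ (ex p j)) := by
      rw [← Finset.prod_attach W (fun j => Uc (lam (v j)) (ex p j) ^ 2 *
        (‖io i (v j)‖ ^ (-(2 * s))) ^ (ex p j))]
      refine Finset.prod_congr rfl fun j _ => ?_
      have h5 : ex p j.1 = p j.1 j.2 := by simp [ex, j.2]
      rw [h5]
    rw [h4, Finset.prod_mul_distrib]
    ring
  have e2 := Finset.prod_sum W (fun _ => Finset.range E)
    (fun j e => Uc (lam (v j)) e ^ 2 * (‖io i (v j)‖ ^ (-(2 * s))) ^ e)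
  rw [Finset.sum_congr rfl e1, ← Finset.mul_sum, ← e2] at key
  have hs : 0 < s - 1 := by linarith
  have h6 : ‖i μ‖ ^ (2 - 2 * s) = ‖i μ‖ ^ (-(2 * s)) * ‖i μ‖ ^ 2 := by
    rw [← Real.rpow_natCast, ← Real.rpow_add hiμ]
    congr 1
    push_cast
    ring
  rw [h6] at key
  have h7 : 0 < ‖i μ‖ ^ (-(2 * s)) := Real.rpow_pos_of_pos hiμ _
  rw [le_div_iff₀ hs] at key ⊢
  set P := ∏ j ∈ W, ∑ e ∈ Finset.range E, Uc (lam (v j)) e ^ 2 * (‖io i (v j)‖ ^ (-(2 * s))) ^ e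
    with hP
  have h8 : P * (s - 1) * ‖a μ‖ ^ 2 ≤ C * s * ‖i μ‖ ^ 2 := by
    have h9 : (P * (s - 1) * ‖a μ‖ ^ 2) * ‖i μ‖ ^ (-(2 * s)) ≤
        (C * s * ‖i μ‖ ^ 2) * ‖i μ‖ ^ (-(2 * s)) := by
      calc _ = ‖a μ‖ ^ 2 * ‖i μ‖ ^ (-(2 * s)) * P * (s - 1) := by ring
        _ ≤ C * s * (‖i μ‖ ^ (-(2 * s)) * ‖i μ‖ ^ 2) := key
        _ = _ := by ring
    exact le_of_mul_le_mul_right h9 h7
  rw [le_div_iff₀ (by positivity)]
  refine h8.trans ?_
  have : C * s ≤ C * 2 := mul_le_mul_of_nonneg_left h2 hC0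
  exact mul_le_mul_of_nonneg_right this (by positivity)

end

/-! ### Choice of prime elements -/

section choice

variable (i : K →+* ℂ)

/-- chosen prime elements above `p ≡ 1` modulo `3` -/
structure Sys (v : ℕ × Bool → 𝓞 K) : Prop where
  prime : ∀ p : ℕ, p.Prime → p % 3 = 1 → ∀ b, Prime (v (p, b))
  mul : ∀ p : ℕ, p.Prime → p % 3 = 1 → v (p, true) * v (p, false) = p
  norm : ∀ p : ℕ, p.Prime → p % 3 = 1 → ∀ b, ‖io i (v (p, b))‖ ^ 2 = p
  na : ∀ p : ℕ, p.Prime → p % 3 = 1 → ¬ Associated (v (p, true)) (v (p, false))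

theorem exists_sys : ∃ v : ℕ × Bool → 𝓞 K, Sys i v := by
  have h : ∀ p : ℕ, ∃ x : 𝓞 K × 𝓞 K, p.Prime → p % 3 = 1 → Prime x.1 ∧ Prime x.2 ∧
      x.1 * x.2 = p ∧ ¬ Associated x.1 x.2 ∧ ‖io i x.1‖ ^ 2 = p ∧ ‖io i x.2‖ ^ 2 = p := by
    intro p
    by_cases hp : p.Prime ∧ p % 3 = 1
    · obtain ⟨x, x', hx⟩ := split_of_mod1 i hp.1 hp.2
      exact ⟨(x, x'), fun _ _ => hx⟩
    · exact ⟨(0, 0), fun h1 h2 => absurd ⟨h1, h2⟩ hp⟩
  choose f hf using h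
  refine ⟨fun j => if j.2 then (f j.1).1 else (f j.1).2, ?_, ?_, ?_, ?_⟩
  · intro p hp h3 b
    cases b
    · exact (hf p hp h3).2.1
    · exact (hf p hp h3).1
  · intro p hp h3
    exact (hf p hp h3).2.2.1
  · intro p hp h3 b
    cases b
    · exact (hf p hp h3).2.2.2.2.2
    · exact (hf p hp h3).2.2.2.2.1
  · intro p hp h3
    exact (hf p hp h3).2.2.2.1

variable {i}

theorem Sys.na' {v : ℕ × Bool → 𝓞 K} (S : Sys i v) {j k : ℕ × Bool} (hj : j.1.Prime)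
    (hj3 : j.1 % 3 = 1) (hk : k.1.Prime) (hk3 : k.1 % 3 = 1) (hjk : j ≠ k) :
    ¬ Associated (v j) (v k) := by
  intro hass
  have hζ := IsCyclotomicExtension.zeta_spec 3 ℚ K
  obtain ⟨p, b⟩ := j
  obtain ⟨q, c⟩ := k
  simp only at hj hj3 hk hk3
  have h1 : nm i (v (p, b)) = p := by
    have := nm_eq i hζ (v (p, b))
    rw [S.norm p hj hj3 b] at this
    exact_mod_cast this
  have h2 : nm i (v (q, c)) = q := by
    have := nm_eq i hζ (v (q, c))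
    rw [S.norm q hk hk3 c] at this
    exact_mod_cast this
  have h3 : p = q := by
    rw [← h1, ← h2]
    exact Nat.dvd_antisymm (nm_dvd i hζ hass.dvd) (nm_dvd i hζ hass.symm.dvd)
  subst h3
  have h4 : b ≠ c := fun h => hjk (by rw [h])
  cases b <;> cases c
  · exact h4 rfl
  · exact S.na p hj hj3 hass.symm
  · exact S.na p hj hj3 hass
  · exact h4 rfl

/-- divisibility by a prime above `p` -/
theorem dvd_nat_of_dvd {x : 𝓞 K} {p : ℕ} {ϖ : 𝓞 K} (hϖ : ‖io i ϖ‖ ^ 2 = p ∨ ϖ = p)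
    (h : ϖ ∣ x) : p ∣ nm i x := by
  have hζ := IsCyclotomicExtension.zeta_spec 3 ℚ K
  have h1 := nm_dvd i hζ h
  rcases hϖ with h2 | h2
  · have h3 : nm i ϖ = p := by
      have := nm_eq i hζ ϖ
      rw [h2] at this
      exact_mod_cast this
    rwa [h3] at h1
  · rw [h2, nm_natCast i hζ] at h1
    exact (dvd_pow_self p two_ne_zero).trans h1

end choice

end Fermat.Agent.LT.RS
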