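import Mathlib
import Fermat.Agent.LT.RS.Coef2

/-!
# Rankin–Selberg input and Asai coefficients
-/

set_option autoImplicit false
set_option linter.unusedSectionVars false

open NumberField Finset MeasureTheory Filter Topology

namespace Fermat.Agent.LT.RS

open Fermat.Agent.LT.Asai

variable {K : Type*} [Field K] [NumberField K] [IsCyclotomicExtension {3} ℚ K]

local notation "α" => algebraMap (𝓞 K) K

section

variable {i : K →+* ℂ} {N : ℕ} {a : K → ℂ} {κ : 𝓞 K → ℂ} {lam : 𝓞 K → ℝ}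

/-- the bad modulus -/
noncomputable def QQ (i : K →+* ℂ) (N : ℕ) (x : 𝓞 K) : ℕ := 6 * N * nm i x

noncomputable def uu (lam : 𝓞 K → ℝ) (v : ℕ × Bool → 𝓞 K) (p : ℕ) : ℝ :=
  if p % 3 = 1 then lam (v (p, true)) else lam (p : 𝓞 K)

noncomputable def uu' (lam : 𝓞 K → ℝ) (v : ℕ × Bool → 𝓞 K) (p : ℕ) : ℝ := lam (v (p, false))

theorem six_dvd_QQ (x : 𝓞 K) : 6 ∣ QQ i N x := ⟨N * nm i x, by rw [QQ]; ring⟩
theorem N_dvd_QQ (x : 𝓞 K) : N ∣ QQ i N x := ⟨6 * nm i x, by rw [QQ]; ring⟩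
theorem nm_dvd_QQ (x : 𝓞 K) : nm i x ∣ QQ i N x := ⟨6 * N, by rw [QQ]; ring⟩

theorem not_dvd_of_norm {p : ℕ} {ϖ : 𝓞 K} (hϖ : ‖io i ϖ‖ ^ 2 = p ∨ ϖ = p) (hp : p.Prime)
    {x : 𝓞 K} (hpQ : ¬ p ∣ QQ i N x) : ¬ ϖ ∣ (N : 𝓞 K) ∧ ¬ ϖ ∣ x := by
  have hζ := IsCyclotomicExtension.zeta_spec 3 ℚ K
  constructor
  · intro h
    have h1 := dvd_nat_of_dvd (i := i) hϖ h
    rw [nm_natCast i hζ] at h1
    exact hpQ ((hp.dvd_of_dvd_pow h1).trans (N_dvd_QQ x))
  · intro h
    exact hpQ ((dvd_nat_of_dvd (i := i) hϖ h).trans (nm_dvd_QQ x))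

variable (H : CoefSys i N a κ lam) {v : ℕ × Bool → 𝓞 K} (S : Sys i v)

theorem rpow_norm {p : ℕ} {z : ℝ} (hz : 0 ≤ z) (h : z ^ 2 = p) (s : ℝ) :
    z ^ (-(2 * s)) = (p : ℝ) ^ (-s) := by
  rw [← h, ← Real.rpow_natCast, ← Real.rpow_mul hz]
  congr 1
  push_cast
  ring

include H S in
theorem CoefSys.summ {μ : K} {x : 𝓞 K} (h : IsNum N μ x) (hμ : a μ ≠ 0) {s : ℝ} (h1 : 1 < s)
    {p : ℕ} (hp : Good1 (QQ i N x) p) (b : Bool) :
    Summable fun e : ℕ => Uc (lam (v (p, b))) e ^ 2 * ((p : ℝ) ^ (-s)) ^ e := by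
  obtain ⟨C, hC⟩ := H.rs_bound h hμ
  set s' := min s 2 with hs'
  have h1' : 1 < s' := lt_min h1 (by norm_num)
  have h2' : s' ≤ 2 := min_le_right _ _
  have hnd := not_dvd_of_norm (N := N) (x := x) (Or.inl (S.norm p hp.1 hp.2.2 b)) hp.1 hp.2.1
  have h3 := hC s' h1' h2' v {(p, b)}
    (by intro j hj; rw [Finset.mem_singleton] at hj; rw [hj]; exact S.prime p hp.1 hp.2.2 b)
    (by intro j hj; rw [Finset.mem_singleton] at hj; rw [hj]; exact hnd.1)
    (by intro j hj; rw [Finset.mem_singleton] at hj; rw [hj]; exact hnd.2)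
    (by
      intro j hj k hk hjk
      rw [Finset.mem_singleton] at hj hk
      exact absurd (hj.trans hk.symm) hjk)
  have hp1 : (1 : ℝ) ≤ p := by exact_mod_cast hp.1.one_lt.le
  refine summable_of_sum_range_le (c := C / (s' - 1)) (fun e => by positivity) fun E => ?_
  refine le_trans (Finset.sum_le_sum fun e _ => ?_) ((Finset.prod_singleton _ _).symm.trans_le (h3 E))
  rw [rpow_norm (norm_nonneg _) (S.norm p hp.1 hp.2.2 b)]
  apply mul_le_mul_of_nonneg_left _ (sq_nonneg _)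
  apply pow_le_pow_left₀ (Real.rpow_nonneg (by linarith) _)
  exact Real.rpow_le_rpow_of_exponent_le hp1 (by rw [hs']; linarith [min_le_left s 2])

include H S in
/-- the Rankin–Selberg input -/
theorem CoefSys.rsInput {μ : K} {x : 𝓞 K} (h : IsNum N μ x) (hμ : a μ ≠ 0)
    (hin : ∀ p : ℕ, p.Prime → p % 3 = 2 → ¬ p ∣ N → 0 ≤ lam (p : 𝓞 K) ∧ lam (p : 𝓞 K) ≤ 2) :
    RSInput (QQ i N x) (uu lam v) (uu' lam v) where
  six := six_dvd_QQ x
  inert := by
    intro p hp hpQ h3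
    rw [uu, if_neg (by omega)]
    exact hin p hp h3 fun hd => hpQ (hd.trans (N_dvd_QQ x))
  summ := by
    intro s h1 p hp
    rw [uu, if_pos hp.2.2, uu']
    exact ⟨H.summ S h hμ h1 hp true, H.summ S h hμ h1 hp false⟩
  bound := by
    obtain ⟨C, hC⟩ := H.rs_bound h hμ
    refine ⟨C, fun s h1 h2 T hT => ?_⟩
    have h3 := hC s h1 h2 v (T ×ˢ Finset.univ)
      (by
        rintro ⟨p, b⟩ hj
        have hp := hT p (Finset.mem_product.mp hj).1
        exact S.prime p hp.1 hp.2.2 b)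
      (by
        rintro ⟨p, b⟩ hj
        have hp := hT p (Finset.mem_product.mp hj).1
        exact (not_dvd_of_norm (N := N) (x := x) (Or.inl (S.norm p hp.1 hp.2.2 b)) hp.1 hp.2.1).1)
      (by
        rintro ⟨p, b⟩ hj
        have hp := hT p (Finset.mem_product.mp hj).1
        exact (not_dvd_of_norm (N := N) (x := x) (Or.inl (S.norm p hp.1 hp.2.2 b)) hp.1 hp.2.1).2)
      (by
        rintro j hj k hk hjk
        have hp := hT j.1 (Finset.mem_product.mp hj).1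
        have hq := hT k.1 (Finset.mem_product.mp hk).1
        exact S.na' hp.1 hp.2.2 hq.1 hq.2.2 hjk)
    have h4 : ∀ E : ℕ, ∏ p ∈ T, ((∑ e ∈ Finset.range E,
        Uc (uu lam v p) e ^ 2 * ((p : ℝ) ^ (-s)) ^ e) *
        (∑ e ∈ Finset.range E, Uc (uu' lam v p) e ^ 2 * ((p : ℝ) ^ (-s)) ^ e)) ≤ C / (s - 1) := by
      intro E
      refine le_trans (le_of_eq ?_) (h3 E)
      rw [Finset.prod_product]
      refine Finset.prod_congr rfl fun p hp => ?_
      have hg := hT p hp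
      rw [Fintype.prod_bool, rpow_norm (norm_nonneg _) (S.norm p hg.1 hg.2.2 true),
        rpow_norm (norm_nonneg _) (S.norm p hg.1 hg.2.2 false), uu, if_pos hg.2.2, uu']
    refine le_of_tendsto' (f := fun E : ℕ => ∏ p ∈ T, ((∑ e ∈ Finset.range E,
        Uc (uu lam v p) e ^ 2 * ((p : ℝ) ^ (-s)) ^ e) *
        (∑ e ∈ Finset.range E, Uc (uu' lam v p) e ^ 2 * ((p : ℝ) ^ (-s)) ^ e))) (x := atTop)
      ?_ h4
    refine tendsto_finsetProd _ fun p hp => ?_
    have hg := hT p hp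
    have s1 := H.summ S h hμ h1 hg true
    have s2 := H.summ S h hμ h1 hg false
    have e1 : uu lam v p = lam (v (p, true)) := by rw [uu, if_pos hg.2.2]
    rw [e1, uu']
    exact s1.hasSum.tendsto_sum_nat.mul s2.hasSum.tendsto_sum_nat

include H in
theorem CoefSys.kpow (x : 𝓞 K) (n : ℕ) : κ (x ^ n) = κ x ^ n := by
  induction n with
  | zero => simp [H.kone]
  | succ n ih => rw [pow_succ, H.kmul, ih, pow_succ]

include H S in
theorem CoefSys.asai_aux {x : 𝓞 K} (hx : x ≠ 0) (m : ℕ) : ∀ (ξ : K) (y : 𝓞 K), IsNum N ξ y →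
    (∀ ϖ : 𝓞 K, Prime ϖ → ϖ ∣ (m : 𝓞 K) → ¬ ϖ ∣ y) → m.Coprime (QQ i N x) →
    a ((m : K) * ξ) = κ (m : 𝓞 K) *
      (Lam (locA (QQ i N x) (uu lam v) (uu' lam v)) m : ℝ) * a ξ := by
  have hζ := IsCyclotomicExtension.zeta_spec 3 ℚ K
  set Q := QQ i N x with hQ
  have hQ1 : Q ≠ 1 := by
    intro h1
    have := six_dvd_QQ (i := i) (N := N) x
    rw [← hQ, h1] at this
    omega
  have hnm : nm i x ≠ 0 := fun h => hx (nm_eq_zero i hζ h)
  induction m using Nat.recOnPosPrimePosCoprime with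
  | zero =>
    intro ξ y _ _ hc
    exact absurd ((Nat.coprime_zero_left _).mp hc) hQ1
  | one =>
    intro ξ y _ _ _
    rw [Nat.cast_one, Nat.cast_one, one_mul, H.kone, Lam_one]
    simp
  | prime_pow p k hp hk =>
    intro ξ y hy hd hc
    have hpQ : ¬ p ∣ Q := by
      intro h
      have h1 : p ∣ p ^ k := dvd_pow_self p hk.ne'
      have := Nat.eq_one_of_dvd_coprimes hc h1 h
      exact hp.one_lt.ne' this
    have hdp : ∀ ϖ : 𝓞 K, Prime ϖ → ϖ ∣ (p : 𝓞 K) → ¬ ϖ ∣ y := by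
      intro ϖ hϖ h1
      apply hd ϖ hϖ
      push_cast
      exact h1.trans (dvd_pow_self _ hk.ne')
    rw [Lam_prime_pow locA_zero hp]
    rcases prime_cases hp (six_dvd_QQ (i := i) (N := N) x) with h | ⟨h, h3, h5⟩ | ⟨h, h3, h5⟩
    · exact absurd h hpQ
    · -- split
      have hm := S.mul p hp h3
      have n1 := not_dvd_of_norm (N := N) (x := x) (Or.inl (S.norm p hp h3 true)) hp hpQ
      have n2 := not_dvd_of_norm (N := N) (x := x) (Or.inl (S.norm p hp h3 false)) hp hpQ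
      have hp1 := S.prime p hp h3 true
      have hp2 := S.prime p hp h3 false
      have d1 : ¬ v (p, true) ∣ y := hdp _ hp1 ⟨_, hm.symm⟩
      have d2 : ¬ v (p, false) ∣ y := hdp _ hp2 ⟨v (p, true), by rw [← hm]; ring⟩
      have hy2 := hy.mul (v (p, true) ^ k)
      have d3 : ¬ v (p, false) ∣ y * v (p, true) ^ k := by
        intro hd3
        rcases hp2.dvd_or_dvd hd3 with h6 | h6
        · exact d2 h6
        · have h7 := hp2.dvd_of_dvd_pow h6
          exact S.na p hp h3 (hp2.associated_of_dvd hp1 h7).symm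
      have e1 := H.pow hy hp1 n1.1 d1 k
      rw [map_pow] at hy2
      have e2 := H.pow hy2 hp2 n2.1 d3 k
      have e3 : (((p ^ k : ℕ)) : K) * ξ = α (v (p, false)) ^ k * (α (v (p, true)) ^ k * ξ) := by
        have h8 : ((p : ℕ) : K) = α (v (p, true)) * α (v (p, false)) := by
          rw [← map_mul, hm]; simp
        push_cast
        rw [h8]
        ring
      rw [e3, e2, e1, locA_one h h3, uu, if_pos h3, uu']
      have h9 : κ (((p ^ k : ℕ)) : 𝓞 K) = κ (v (p, true)) ^ k * κ (v (p, false)) ^ k := by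
        push_cast
        rw [H.kpow, ← hm, H.kmul, mul_pow]
      rw [h9]
      push_cast
      ring
    · -- inert
      have hpp := prime_of_mod2 (K := K) hp h3
      have n1 := not_dvd_of_norm (i := i) (N := N) (x := x) (ϖ := (p : 𝓞 K)) (Or.inr rfl) hp hpQ
      have e1 := H.pow hy hpp n1.1 (hdp _ hpp dvd_rfl) k
      have e3 : (((p ^ k : ℕ)) : K) * ξ = α (p : 𝓞 K) ^ k * ξ := by
        push_cast
        simp
      rw [e3, e1, locA_two h h3, uu, if_neg (by omega)]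
      have h9 : κ (((p ^ k : ℕ)) : 𝓞 K) = κ (p : 𝓞 K) ^ k := by
        push_cast
        rw [H.kpow]
      rw [h9]
  | coprime m n hm hn hmn ihm ihn =>
    intro ξ y hy hd hc
    rw [Nat.coprime_mul_iff_left] at hc
    have hy2 := hy.mul (n : 𝓞 K)
    have e1 := ihn ξ y hy (fun ϖ hϖ h1 => hd ϖ hϖ (by push_cast; exact Dvd.dvd.mul_left h1 _)) hc.2
    have e2 := ihm (α (n : 𝓞 K) * ξ) (y * n) hy2 (fun ϖ hϖ h1 h2 => by
      rcases hϖ.dvd_or_dvd h2 with h3 | h3
      · exact hd ϖ hϖ (by push_cast; exact Dvd.dvd.mul_right h1 _) h3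
      · -- `ϖ` divides both `m` and `n`
        have h4 := nm_dvd i hζ h1
        have h5 := nm_dvd i hζ h3
        rw [nm_natCast i hζ] at h4 h5
        have h6 : nm i ϖ ∣ 1 := by
          have h7 : Nat.Coprime (m ^ 2) (n ^ 2) := Nat.Coprime.pow 2 2 hmn
          exact (Nat.eq_one_of_dvd_coprimes h7 h4 h5).dvd
        exact hϖ.not_isUnit (isUnit_of_nm i hζ (Nat.dvd_one.mp h6))) hc.1
    have e3 : ((m * n : ℕ) : K) * ξ = (m : K) * (α (n : 𝓞 K) * ξ) := by
      rw [map_natCast]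
      push_cast
      ring
    rw [e3, e2, Lam_mul hmn]
    have e4 : α (n : 𝓞 K) * ξ = (n : K) * ξ := by simp
    have e5 : κ ((m * n : ℕ) : 𝓞 K) = κ (m : 𝓞 K) * κ (n : 𝓞 K) := by
      push_cast; rw [H.kmul]
    rw [e4, e1, e5]
    push_cast
    ring

include H S in
/-- **Asai coefficients** -/
theorem CoefSys.asai {μ : K} {x : 𝓞 K} (h : IsNum N μ x) (hμ : a μ ≠ 0) {m : ℕ}
    (hm : m.Coprime (QQ i N x)) :
    a ((m : K) * μ) = κ (m : 𝓞 K) *
      (Lam (locA (QQ i N x) (uu lam v) (uu' lam v)) m : ℝ) * a μ := by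
  have hζ := IsCyclotomicExtension.zeta_spec 3 ℚ K
  have hx : x ≠ 0 := by
    rintro rfl
    have h1 : μ * ((N : K) * α (del K)) = 0 := by
      have := h
      unfold IsNum at this
      rw [this, map_zero]
    rcases mul_eq_zero.mp h1 with h2 | h2
    · exact hμ (by rw [h2, H.zero])
    · exact H.nd_ne h2
  refine H.asai_aux S hx m μ x h (fun ϖ hϖ h1 h2 => ?_) hm
  have h4 := nm_dvd i hζ h1
  have h5 := nm_dvd i hζ h2
  rw [nm_natCast i hζ] at h4
  have h7 : Nat.Coprime (m ^ 2) (nm i x) :=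
    Nat.Coprime.pow_left 2 (Nat.Coprime.coprime_dvd_right (nm_dvd_QQ x) hm)
  exact hϖ.not_isUnit (isUnit_of_nm i hζ (Nat.eq_one_of_dvd_coprimes h7 h4 h5))

end

end Fermat.Agent.LT.RS
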