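import Mathlib
import Fermat.Agent.LT.Poisson

/-!
# Fourier series of periodic functions on `ℝ^d`
-/

set_option autoImplicit false

open MeasureTheory Filter Topology Complex Real

namespace Fermat.Agent.LT.RS

attribute [local instance 2000] instMeasureSpaceUnitAddCircle

local instance haarInst1 : Measure.IsAddHaarMeasure (volume : Measure UnitAddCircle) :=
  inferInstanceAs (Measure.IsAddHaarMeasure AddCircle.haarAddCircle)

local instance haarInst2 : IsProbabilityMeasure (volume : Measure UnitAddCircle) :=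
  inferInstanceAs (IsProbabilityMeasure AddCircle.haarAddCircle)

variable {d : Type*} [Fintype d]

/-- Fourier coefficient of a periodic function -/
noncomputable def PC (g : (d → ℝ) → ℂ) (m : d → ℤ) : ℂ := ∫ x in box 0, ee (-m) x * g x

/-- the function on the torus -/
noncomputable def tor (g : (d → ℝ) → ℂ) (t : UnitAddTorus d) : ℂ :=
  g (fun i => (AddCircle.equivIoc 1 0 (t i)).1)

section

variable {g : (d → ℝ) → ℂ} (hg : Continuous g) (hp : ∀ (x : d → ℝ) (k : d → ℤ), g (x + zc k) = g x)

include hp in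
theorem tor_coe (x : d → ℝ) : tor g (fun i => (x i : UnitAddCircle)) = g x := by
  unfold tor
  obtain ⟨k0, hk0⟩ := torus_eq_iff x
    (fun i => (AddCircle.equivIoc 1 0 ((x i : ℝ) : AddCircle (1 : ℝ))).1) (by
      funext i
      exact (AddCircle.coe_equivIoc (p := 1) (a := 0)).symm)
  rw [hk0, hp]

include hg hp in
theorem continuous_tor : Continuous (tor g) := by
  rw [isOpenQuotientMap_torus.isQuotientMap.continuous_iff]
  have : (tor g ∘ fun (x : d → ℝ) => (fun i => (x i : UnitAddCircle) : UnitAddTorus d)) = g := by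
    funext x
    exact tor_coe hp x
  rw [this]
  exact hg

include hp in
theorem mFourierCoeff_tor (m : d → ℤ) : UnitAddTorus.mFourierCoeff (tor g) m = PC g m := by
  rw [UnitAddTorus.mFourierCoeff_eq_integral (tor g) m (fun _ => 0)]
  have hbox : {x : d → ℝ | ∀ i, x i ∈ Set.Ioc ((fun _ => 0 : d → ℝ) i) ((fun _ => 0 : d → ℝ) i + 1)} =
      box 0 := by
    ext x; simp [box]
  rw [hbox]
  have h1 : ∀ x : d → ℝ, UnitAddTorus.mFourier (-m) (fun i => (x i : UnitAddCircle)) •
      tor g (fun i => (x i : UnitAddCircle)) = ee (-m) x * g x := by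
    intro x
    rw [mFourier_coe, tor_coe hp, smul_eq_mul]
  simp_rw [h1]
  rfl

include hg hp in
/-- **Fourier inversion** -/
theorem hasSum_PC (hs : Summable (PC g)) (x : d → ℝ) :
    HasSum (fun m => PC g m * ee m x) (g x) := by
  have hc := continuous_tor hg hp
  have hs' : Summable (UnitAddTorus.mFourierCoeff (⟨tor g, hc⟩ : C(UnitAddTorus d, ℂ))) := by
    convert hs using 1
    funext m
    exact mFourierCoeff_tor hp m
  have h := UnitAddTorus.hasSum_mFourier_series_apply_of_summable hs' (fun i => (x i : UnitAddCircle))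
  simp only [ContinuousMap.coe_mk, mFourierCoeff_tor hp, mFourier_coe, tor_coe hp, smul_eq_mul] at h
  exact h

include hg hp in
/-- **Bessel's inequality** -/
theorem bessel {C : ℝ} (hC : ∀ x, ‖g x‖ ≤ C) (F : Finset (d → ℤ)) :
    ∑ m ∈ F, ‖PC g m‖ ^ 2 ≤ C ^ 2 := by
  have hc := continuous_tor hg hp
  set f : C(UnitAddTorus d, ℂ) := ⟨tor g, hc⟩ with hf
  have hC0 : 0 ≤ C := (norm_nonneg _).trans (hC 0)
  have h := UnitAddTorus.hasSum_sq_mFourierCoeff (ContinuousMap.toLp 2 volume ℂ f)
  have h1 : ∀ m, UnitAddTorus.mFourierCoeff (ContinuousMap.toLp 2 volume ℂ f :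
      Lp ℂ 2 (volume : Measure (UnitAddTorus d))) m = PC g m := by
    intro m
    rw [UnitAddTorus.mFourierCoeff_toLp]
    exact mFourierCoeff_tor hp m
  simp only [h1] at h
  have h2 := sum_le_hasSum F (fun m _ => sq_nonneg ‖PC g m‖) h
  refine h2.trans ?_
  have h3 : ∀ᵐ t ∂(volume : Measure (UnitAddTorus d)),
      ‖(ContinuousMap.toLp 2 volume ℂ f : Lp ℂ 2 (volume : Measure (UnitAddTorus d))) t‖ ^ 2 ≤
      C ^ 2 := by
    filter_upwards [ContinuousMap.coeFn_toLp (p := 2) (𝕜 := ℂ)
      (volume : Measure (UnitAddTorus d)) f] with t ht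
    rw [ht]
    apply pow_le_pow_left₀ (norm_nonneg _)
    exact hC _
  calc ∫ t, ‖(ContinuousMap.toLp 2 volume ℂ f :
        Lp ℂ 2 (volume : Measure (UnitAddTorus d))) t‖ ^ 2 ≤ ∫ _t : UnitAddTorus d, C ^ 2 := by
        refine integral_mono_ae ?_ (integrable_const _) h3
        have := (Lp.memLp (ContinuousMap.toLp 2 volume ℂ f :
          Lp ℂ 2 (volume : Measure (UnitAddTorus d))))
        exact this.integrable_norm_pow (by norm_num)
    _ = C ^ 2 := by simp

end

end Fermat.Agent.LT.RS
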