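import Mathlib
import Fermat.Agent.LT.Red.Siegel
import Fermat.Agent.LT.RS.Coef3
import Fermat.Agent.LT.RS.Torus
import Fermat.Agent.LT.Asai.Unfold

/-!
# T5: input and output

`KForm` = a cuspidal Hecke eigenform on hyperbolic 3-space over `K = ℚ(√-3)` (classical language).
-/

set_option autoImplicit false
set_option linter.unusedSectionVars false

open NumberField Finset MeasureTheory Filter Topology UpperHalfPlane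
open scoped MatrixGroups

namespace Fermat.Agent.LT.RS

open Fermat.Agent.LT.Asai

variable {K : Type*} [Field K] [NumberField K] [IsCyclotomicExtension {3} ℚ K]

local notation "α" => algebraMap (𝓞 K) K

/-- `SL₂(𝓞 K) → GL₂(ℂ)` -/
noncomputable def slC (i : K →+* ℂ) (g : SL(2, 𝓞 K)) : GL (Fin 2) ℂ :=
  Matrix.GeneralLinearGroup.map i (slO K g)

/-- primitive cube root of unity in `𝓞 K` -/
noncomputable def wK (K : Type*) [Field K] [NumberField K] [IsCyclotomicExtension {3} ℚ K] : 𝓞 K :=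
  (IsCyclotomicExtension.zeta_spec 3 ℚ K).toInteger

variable (K) in
/-- points of the dual lattice: `Tr (dpt N m * N * (s + t ω)) = m₀ s + m₁ t` -/
noncomputable def dpt (N : ℕ) (m : Fin 2 → ℤ) : K :=
  α (((m 0 + m 1 : ℤ) : 𝓞 K) + (m 0 : 𝓞 K) * wK K) / ((N : K) * α (del K))

/-- properties of the Bessel factor `B(t) = K₀(4πt)` that are used -/
structure Bes (B : ℝ → ℝ) : Prop where
  pos : ∀ t, 0 < t → 0 < B t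
  anti : ∀ s t, 0 < s → s ≤ t → B t ≤ B s
  bd : ∃ C : ℝ, ∀ t, 0 < t → B t * t ^ (1 / 2 : ℝ) ≤ C ∧ B t * t ^ 4 ≤ C

/-- INPUT of T5. -/
structure KForm (i : K →+* ℂ) (N : ℕ) (φ : H3 → ℂ) (a : K → ℂ) (κ : 𝓞 K → ℂ) (lam : 𝓞 K → ℝ)
    (B : ℝ → ℝ) : Prop where
  pos : 0 < N
  /-- continuity of `(z,y) ↦ φ(z,y)` -/
  cont : ∀ (y : ℝ) (hy : 0 < y), Continuous fun z : ℂ => φ ⟨z, y, hy⟩
  meas : Measurable fun q : ℂ × {y : ℝ // 0 < y} => φ ⟨q.1, q.2.1, q.2.2⟩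
  inv : ∀ g : SL(2, 𝓞 K), (∀ r s, (N : 𝓞 K) ∣ g r s - (1 : Matrix (Fin 2) (Fin 2) (𝓞 K)) r s) →
    ∀ p, φ (slC i g • p) = φ p
  /-- rapid decay at all cusps -/
  decay : ∃ C : ℝ, ∀ (p : H3) (c d : 𝓞 K), (c ≠ 0 ∨ d ≠ 0) →
    ‖φ p‖ ≤ C * (p.q (io i c) (io i d)) ^ 2
  bdd : ∃ C : ℝ, ∀ p : H3, ‖φ p‖ ≤ C
  /-- Fourier coefficients over `ℂ/N𝓞` -/
  fourier : ∀ (y : ℝ) (hy : 0 < y) (m : Fin 2 → ℤ),
    PC (fun x : Fin 2 → ℝ => φ ⟨(N : ℂ) * (x 0 + x 1 * io i (wK K)), y, hy⟩) m =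
      a (dpt K N m) * ((y * B (‖i (dpt K N m)‖ * y) : ℝ) : ℂ)
  zero : a 0 = 0
  supp : ∀ ξ, a ξ ≠ 0 → InD N ξ
  kmul : ∀ x y, κ (x * y) = κ x * κ y
  kone : κ 1 = 1
  kper : ∀ x y, κ (x + N * y) = κ x
  knorm : ∀ ϖ : 𝓞 K, Prime ϖ → ¬ ϖ ∣ (N : 𝓞 K) → ‖κ ϖ‖ = 1
  hecke : ∀ ϖ : 𝓞 K, Prime ϖ → ¬ ϖ ∣ (N : 𝓞 K) → ∀ ξ : K, InD N ξ →
    (κ ϖ)⁻¹ * a (α ϖ * ξ) + κ ϖ * a (ξ / α ϖ) = lam ϖ * a ξ
  neg : ∀ ξ, a (-ξ) = κ (-1) * a ξ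

/-- the restriction of `φ` to the plane `z = α x + β` -/
noncomputable def plane (i : K →+* ℂ) (φ : H3 → ℂ) (al be : K) (hal : al ≠ 0) (τ : ℍ) : ℂ :=
  φ ⟨i al * τ.re + i be, ‖i al‖ * τ.im,
    mul_pos (norm_pos_iff.mpr ((map_ne_zero i).mpr hal)) τ.im_pos⟩

/-- OUTPUT of T5: a nonzero period over a plane. -/
def HasPeriod (i : K →+* ℂ) (φ : H3 → ℂ) : Prop :=
  ∃ (al be : K) (hal : al ≠ 0) (M : ℕ), 1 < M ∧ Measurable (plane i φ al be hal) ∧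
    (∀ γ ∈ CongruenceSubgroup.Gamma M, ∀ τ : ℍ, plane i φ al be hal (γ • τ) =
      plane i φ al be hal τ) ∧
    (∃ C : ℝ, ∀ (τ : ℍ) (g : SL(2, ℤ)), ‖plane i φ al be hal τ‖ * (g • τ).im ^ 2 ≤ C) ∧
    ∀ w, IsWtS (CongruenceSubgroup.Gamma M) w →
      ∫ τ : ℍ, ((w τ).toReal : ℂ) * plane i φ al be hal τ ≠ 0

/-- information on the eigenvalues used by T5 (densities are lower densities in the sense of
`Asai.DensGE`). -/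
structure LamInfo (N : ℕ) (lam : 𝓞 K → ℝ) (TA TD : ℕ → Prop) : Prop where
  inert : ∀ p : ℕ, p.Prime → p % 3 = 2 → ¬ p ∣ N → 0 ≤ lam (p : 𝓞 K) ∧ lam (p : 𝓞 K) ≤ 2
  hA : ∀ p : ℕ, p.Prime → TA p → ¬ p ∣ N → p % 3 = 1 ∧ ∃ c : ℝ, |c| = 2 ∧
    ∀ ϖ : 𝓞 K, Prime ϖ → ϖ ∣ (p : 𝓞 K) → lam ϖ = c
  hD : ∀ p : ℕ, p.Prime → TD p → ¬ p ∣ N → p % 3 = 2 ∧ lam (p : 𝓞 K) = 2
  dA : DensGE TA (1 / 24)
  dD : DensGE TD (1 / 4)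

end Fermat.Agent.LT.RS
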