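import Mathlib
import Fermat.Agent.LT.RS.Def

/-!
# From the classical form to its coefficient system
-/

set_option autoImplicit false
set_option linter.unusedSectionVars false

open NumberField Finset MeasureTheory Filter Topology UpperHalfPlane
open scoped MatrixGroups

namespace Fermat.Agent.LT.RS

open Fermat.Agent.LT.Asai

variable {K : Type*} [Field K] [NumberField K] [IsCyclotomicExtension {3} ℚ K]

local notation "α" => algebraMap (𝓞 K) K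

theorem exists_rep' (x : 𝓞 K) : ∃ a b : ℤ, x = a + b * wK K :=
  exists_rep (IsCyclotomicExtension.zeta_spec 3 ℚ K) x

theorem dpt_surj {N : ℕ} (hN : 0 < N) {ξ : K} (h : InD N ξ) : ∃ m, dpt K N m = ξ := by
  obtain ⟨x, hx⟩ := h
  obtain ⟨a, b, hab⟩ := exists_rep' x
  have h1 : (N : K) ≠ 0 := by exact_mod_cast hN.ne'
  have h2 : ((N : K) * α (del K)) ≠ 0 := mul_ne_zero h1 (al_ne del_ne_zero)
  refine ⟨![b, a - b], ?_⟩
  rw [dpt, div_eq_iff h2, hx, hab]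
  congr 1
  simp

theorem dpt_inj {N : ℕ} (hN : 0 < N) {m n : Fin 2 → ℤ} (h : dpt K N m = dpt K N n) : m = n := by
  have h1 : (N : K) ≠ 0 := by exact_mod_cast hN.ne'
  have h2 : ((N : K) * α (del K)) ≠ 0 := mul_ne_zero h1 (al_ne del_ne_zero)
  rw [dpt, dpt, div_left_inj' h2] at h
  have h3 := IsFractionRing.injective (𝓞 K) K h
  have h4 : (((m 0 + m 1) - (n 0 + n 1) : ℤ) : 𝓞 K) + ((m 0 - n 0 : ℤ) : 𝓞 K) *
      (IsCyclotomicExtension.zeta_spec 3 ℚ K).toInteger = 0 := by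
    push_cast
    push_cast at h3
    have h5 : wK K = (IsCyclotomicExtension.zeta_spec 3 ℚ K).toInteger := rfl
    rw [h5] at h3
    linear_combination h3
  obtain ⟨h5, h6⟩ := rep_inj _ h4
  funext j
  fin_cases j
  · simp only [Fin.zero_eta]; linarith
  · simp only [Fin.mk_one]; linarith

section

variable {i : K →+* ℂ} {N : ℕ} {φ : H3 → ℂ} {a : K → ℂ} {κ : 𝓞 K → ℂ} {lam : 𝓞 K → ℝ}
  {B : ℝ → ℝ}

theorem slC_coe (g : SL(2, 𝓞 K)) (r s : Fin 2) :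
    (slC i g : Matrix (Fin 2) (Fin 2) ℂ) r s = io i (g r s) := rfl

/-- upper triangular unipotent matrix -/
def nO (b : 𝓞 K) : SL(2, 𝓞 K) := ⟨!![1, b; 0, 1], by simp⟩

theorem slC_nO_smul (b : 𝓞 K) (z : ℂ) (y : ℝ) (hy : 0 < y) :
    slC i (nO b) • (⟨z, y, hy⟩ : H3) = ⟨z + io i b, y, hy⟩ := by
  have e00 : (slC i (nO b)) 0 0 = 1 := by rw [slC_coe]; simp [nO, io]
  have e01 : (slC i (nO b)) 0 1 = io i b := by rw [slC_coe]; simp [nO]
  have e10 : (slC i (nO b)) 1 0 = 0 := by rw [slC_coe]; simp [nO, io]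
  have e11 : (slC i (nO b)) 1 1 = 1 := by rw [slC_coe]; simp [nO, io]
  apply H3.ext
  · rw [H3.smul_z, e00, e01, e10, e11, H3.num, H3.den]
    simp
  · rw [H3.smul_y, Matrix.det_fin_two, e00, e01, e10, e11, H3.den]
    simp

variable (F : KForm i N φ a κ lam B)

include F

theorem KForm.periodic (z : ℂ) (y : ℝ) (hy : 0 < y) (b : 𝓞 K) :
    φ ⟨z + N * io i b, y, hy⟩ = φ ⟨z, y, hy⟩ := by
  have h := F.inv (nO (N * b)) (by
    intro r s
    fin_cases r <;> fin_cases s <;> simp [nO]) ⟨z, y, hy⟩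
  rw [slC_nO_smul] at h
  rw [← h]
  congr 2
  rw [io_mul, io_natCast]

theorem KForm.per (y : ℝ) (hy : 0 < y) (x : Fin 2 → ℝ) (k : Fin 2 → ℤ) :
    φ ⟨(N : ℂ) * ((x + zc k) 0 + (x + zc k) 1 * io i (wK K)), y, hy⟩ =
      φ ⟨(N : ℂ) * (x 0 + x 1 * io i (wK K)), y, hy⟩ := by
  rw [← F.periodic ((N : ℂ) * (x 0 + x 1 * io i (wK K))) y hy ((k 0 : 𝓞 K) + k 1 * wK K)]
  congr 2
  rw [io_add, io_mul, io_intCast, io_intCast]
  simp only [Pi.add_apply, zc]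
  push_cast
  ring

theorem KForm.cont' (y : ℝ) (hy : 0 < y) :
    Continuous fun x : Fin 2 → ℝ => φ ⟨(N : ℂ) * (x 0 + x 1 * io i (wK K)), y, hy⟩ :=
  (F.cont y hy).comp (by fun_prop)

theorem KForm.moment (hB : Bes B) : ∃ C : ℝ, 0 ≤ C ∧ ∀ R : ℝ, 0 < R → ∀ T : Finset K,
    (∀ ξ ∈ T, ‖i ξ‖ ≤ R) → ∑ ξ ∈ T, ‖a ξ‖ ^ 2 ≤ C * R ^ 2 := by
  classical
  obtain ⟨C, hC⟩ := F.bdd
  have hB1 := hB.pos 1 one_pos
  refine ⟨C ^ 2 / B 1 ^ 2, by positivity, fun R hR T hT => ?_⟩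
  have hy : 0 < 1 / R := by positivity
  -- the preimages
  have hex : ∀ ξ : K, ∃ m : Fin 2 → ℤ, a ξ ≠ 0 → dpt K N m = ξ := by
    intro ξ
    by_cases h : a ξ = 0
    · exact ⟨0, fun h' => absurd h h'⟩
    · obtain ⟨m, hm⟩ := dpt_surj F.pos (F.supp ξ h)
      exact ⟨m, fun _ => hm⟩
  choose m hm using hex
  set T' := T.filter fun ξ => a ξ ≠ 0 with hT'
  have hinj : ∀ ξ ∈ T', ∀ η ∈ T', m ξ = m η → ξ = η := by
    intro ξ hξ η hη h
    rw [← hm ξ (Finset.mem_filter.mp hξ).2, ← hm η (Finset.mem_filter.mp hη).2, h]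
  have h1 := bessel (F.cont' (1 / R) hy) (F.per (1 / R) hy) (fun x => hC _) (T'.image m)
  rw [Finset.sum_image hinj] at h1
  have h2 : ∀ ξ ∈ T', ‖a ξ‖ ^ 2 * (B 1 / R) ^ 2 ≤
      ‖PC (fun x : Fin 2 → ℝ => φ ⟨(N : ℂ) * (x 0 + x 1 * io i (wK K)), 1 / R, hy⟩) (m ξ)‖ ^ 2 := by
    intro ξ hξ
    have ha := (Finset.mem_filter.mp hξ).2
    have hξR := hT ξ (Finset.mem_filter.mp hξ).1
    have hξ0 : ξ ≠ 0 := fun h => ha (by rw [h, F.zero])
    have hn : 0 < ‖i ξ‖ := norm_pos_iff.mpr ((map_ne_zero i).mpr hξ0)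
    rw [F.fourier, hm ξ ha, norm_mul, Complex.norm_real, mul_pow]
    apply mul_le_mul_of_nonneg_left _ (sq_nonneg _)
    have h3 : B 1 ≤ B (‖i ξ‖ * (1 / R)) := hB.anti _ _ (by positivity) (by
      rw [mul_one_div, div_le_one hR]; exact hξR)
    have h4 : B 1 / R ≤ 1 / R * B (‖i ξ‖ * (1 / R)) := by
      rw [div_eq_mul_one_div, mul_comm]
      exact mul_le_mul_of_nonneg_left h3 hy.le
    rw [Real.norm_of_nonneg (le_trans (by positivity) h4)]
    exact pow_le_pow_left₀ (by positivity) h4 2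
  have h5 := (Finset.sum_le_sum h2).trans h1
  rw [← Finset.sum_mul] at h5
  have h6 : ∑ ξ ∈ T, ‖a ξ‖ ^ 2 = ∑ ξ ∈ T', ‖a ξ‖ ^ 2 := by
    rw [hT', Finset.sum_filter]
    refine Finset.sum_congr rfl fun ξ _ => ?_
    split_ifs with h
    · rfl
    · push Not at h
      rw [h]; simp
  rw [h6]
  have h7 : 0 < (B 1 / R) ^ 2 := by positivity
  have h8 : ∑ ξ ∈ T', ‖a ξ‖ ^ 2 ≤ C ^ 2 / (B 1 / R) ^ 2 := by
    rw [le_div_iff₀ h7]; exact h5
  refine h8.trans (le_of_eq ?_)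
  field_simp

theorem KForm.coefSys (hB : Bes B) : CoefSys i N a κ lam where
  pos := F.pos
  zero := F.zero
  supp := F.supp
  moment := F.moment hB
  kmul := F.kmul
  kone := F.kone
  kper := F.kper
  knorm := F.knorm
  hecke := F.hecke
  neg := F.neg

end

end Fermat.Agent.LT.RS
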