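import Mathlib
import Fermat.Agent.LT.RS.FromK

/-!
# Pointwise Fourier expansion and restriction to a plane
-/

set_option autoImplicit false
set_option linter.unusedSectionVars false

open NumberField Finset MeasureTheory Filter Topology UpperHalfPlane
open scoped MatrixGroups

namespace Fermat.Agent.LT.RS

open Fermat.Agent.LT.Asai

variable {K : Type*} [Field K] [NumberField K] [IsCyclotomicExtension {3} ℚ K]

local notation "α" => algebraMap (𝓞 K) K

/-- `e(u) = exp(2πiu)` -/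
noncomputable def eT (u : ℝ) : ℂ := Complex.exp (2 * Real.pi * Complex.I * u)

theorem norm_eT (u : ℝ) : ‖eT u‖ = 1 := by
  rw [eT]
  have : (2 * Real.pi * Complex.I * u : ℂ) = ((2 * Real.pi * u : ℝ) : ℂ) * Complex.I := by
    push_cast; ring
  rw [this, Complex.norm_exp_ofReal_mul_I]

theorem eT_add (u v : ℝ) : eT (u + v) = eT u * eT v := by
  rw [eT, eT, eT, ← Complex.exp_add]
  congr 1
  push_cast
  ring

theorem eT_zero : eT 0 = 1 := by simp [eT]

theorem eT_int (n : ℤ) : eT n = 1 := by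
  rw [eT, Complex.exp_eq_one_iff]
  exact ⟨n, by push_cast; ring⟩

theorem continuous_eT : Continuous eT := by unfold eT; fun_prop

theorem ee_eq_eT (m : Fin 2 → ℤ) (x : Fin 2 → ℝ) : ee m x = eT (m 0 * x 0 + m 1 * x 1) := by
  rw [ee, eT, Fin.sum_univ_two]
  congr 1
  push_cast
  ring

section

variable (i : K →+* ℂ)

theorem wc_facts : (io i (wK K)).re = -1 / 2 ∧ (io i (wK K)).im ^ 2 = 3 / 4 :=
  iw_re_im i (IsCyclotomicExtension.zeta_spec 3 ℚ K)

theorem wc_rel : io i (wK K) ^ 2 + io i (wK K) + 1 = 0 := by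
  have h := congrArg (io i) (w_rel (IsCyclotomicExtension.zeta_spec 3 ℚ K))
  rw [io_add, io_add, io_pow, io_one] at h
  have h0 : io i (0 : 𝓞 K) = 0 := by simp [io]
  rw [h0] at h
  exact h

theorem io_del : io i (del K) = 2 * io i (wK K) + 1 := by
  rw [del, io_add, io_mul, io_one]
  have : io i (2 : 𝓞 K) = 2 := by
    have h24 := io_natCast (K := K) i 2
    simpa using h24
  rw [this]
  rfl

theorem io_del_sq : io i (del K) ^ 2 = -3 := by
  rw [io_del]
  linear_combination 4 * wc_rel i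

theorem io_del_ne : io i (del K) ≠ 0 := by
  intro h
  have := io_del_sq (K := K) i
  rw [h] at this
  norm_num at this

theorem norm_io_del_sq : ‖io i (del K)‖ ^ 2 = 3 := by
  rw [← norm_pow, io_del_sq]
  simp

/-- numerator of `dpt` -/
noncomputable def Xn (K : Type*) [Field K] [NumberField K] [IsCyclotomicExtension {3} ℚ K]
    (m : Fin 2 → ℤ) : 𝓞 K := ((m 0 + m 1 : ℤ) : 𝓞 K) + (m 0 : 𝓞 K) * wK K

theorem i_dpt (N : ℕ) (m : Fin 2 → ℤ) :
    i (dpt K N m) = io i (Xn K m) / (N * io i (del K)) := by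
  rw [dpt, map_div₀, map_mul, map_natCast]
  rfl

theorem io_Xn (m : Fin 2 → ℤ) : io i (Xn K m) = (m 0 + m 1 : ℂ) + m 0 * io i (wK K) := by
  rw [Xn, io_add, io_mul, io_intCast, io_intCast]
  push_cast
  ring

theorem re_div_del (A B : ℝ) : (((A : ℂ) + B * io i (wK K)) / io i (del K)).re = B / 2 := by
  have h1 : ((A : ℂ) + B * io i (wK K)) / io i (del K) =
      ((-(1 / 3) : ℝ) : ℂ) * (((A : ℂ) + B * io i (wK K)) * io i (del K)) := by
    rw [div_eq_iff (io_del_ne i)]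
    have := io_del_sq (K := K) i
    push_cast
    linear_combination (1 / 3 : ℂ) * ((A : ℂ) + B * io i (wK K)) * this
  obtain ⟨h2, h3⟩ := wc_facts (K := K) i
  rw [h1, io_del, Complex.re_ofReal_mul]
  simp only [Complex.mul_re, Complex.add_re, Complex.ofReal_re, Complex.ofReal_im,
    Complex.add_im, Complex.mul_im, Complex.one_re, Complex.one_im, Complex.re_ofNat,
    Complex.im_ofNat, h2]
  linear_combination (2 / 3 : ℝ) * B * h3

theorem re_mul_del (A B : ℝ) : (((A : ℂ) + B * io i (wK K)) * io i (del K)).re = -(3 / 2) * B := by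
  have h := re_div_del (K := K) i A B
  have h1 : ((A : ℂ) + B * io i (wK K)) / io i (del K) =
      ((-(1 / 3) : ℝ) : ℂ) * (((A : ℂ) + B * io i (wK K)) * io i (del K)) := by
    rw [div_eq_iff (io_del_ne i)]
    have := io_del_sq (K := K) i
    push_cast
    linear_combination (1 / 3 : ℂ) * ((A : ℂ) + B * io i (wK K)) * this
  rw [h1, Complex.re_ofReal_mul] at h
  linarith

/-- traces against the lattice basis -/
theorem tr_dpt {N : ℕ} (hN : 0 < N) (m : Fin 2 → ℤ) (x : Fin 2 → ℝ) :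
    2 * (i (dpt K N m) * ((N : ℂ) * (x 0 + x 1 * io i (wK K)))).re = m 0 * x 0 + m 1 * x 1 := by
  have hN0 : (N : ℂ) ≠ 0 := by exact_mod_cast hN.ne'
  have h1 : i (dpt K N m) * ((N : ℂ) * (x 0 + x 1 * io i (wK K))) =
      ((((m 0 + m 1) * x 0 - m 0 * x 1 : ℝ) : ℂ) +
        ((m 0 * x 0 + m 1 * x 1 : ℝ) : ℂ) * io i (wK K)) / io i (del K) := by
    rw [i_dpt, io_Xn, eq_div_iff (io_del_ne i)]
    have hd := io_del_ne (K := K) i
    field_simp
    push_cast
    linear_combination (m 0 * x 1 : ℂ) * wc_rel (K := K) i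
  rw [h1, re_div_del]
  ring

theorem norm_dpt_ge {N : ℕ} (hN : 0 < N) (m : Fin 2 → ℤ) : ‖m‖ / (2 * N) ≤ ‖i (dpt K N m)‖ := by
  have hN0 : (0 : ℝ) < N := by exact_mod_cast hN
  have h1 : ‖io i (Xn K m)‖ ^ 2 = (m 0 : ℝ) ^ 2 + m 0 * m 1 + (m 1 : ℝ) ^ 2 := by
    have := normsq_rep i (IsCyclotomicExtension.zeta_spec 3 ℚ K) ((m 0 : ℝ) + m 1) (m 0)
    have hw : io i (wK K) = i (IsCyclotomicExtension.zeta 3 ℚ K) := rfl
    rw [io_Xn, hw]
    push_cast at this
    rw [this]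
    ring
  have h2 : (3 / 4) * ‖m‖ ^ 2 ≤ ‖io i (Xn K m)‖ ^ 2 := by
    rw [h1]
    have h3 : ‖m‖ ^ 2 ≤ (4 / 3) * ((m 0 : ℝ) ^ 2 + m 0 * m 1 + (m 1 : ℝ) ^ 2) := by
      have h4 : ‖m‖ ≤ Real.sqrt ((4 / 3) * ((m 0 : ℝ) ^ 2 + m 0 * m 1 + (m 1 : ℝ) ^ 2)) := by
        rw [pi_norm_le_iff_of_nonneg (Real.sqrt_nonneg _)]
        intro j
        apply Real.le_sqrt_of_sq_le
        rw [Int.norm_eq_abs, sq_abs]
        fin_cases j
        · simp only [Fin.zero_eta]
          nlinarith [sq_nonneg ((m 0 : ℝ) + 2 * m 1)]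
        · simp only [Fin.mk_one]
          nlinarith [sq_nonneg (2 * (m 0 : ℝ) + m 1)]
      have h5 : (0 : ℝ) ≤ (4 / 3) * ((m 0 : ℝ) ^ 2 + m 0 * m 1 + (m 1 : ℝ) ^ 2) := by
        nlinarith [sq_nonneg ((m 0 : ℝ) + m 1), sq_nonneg (m 0 : ℝ), sq_nonneg (m 1 : ℝ)]
      calc ‖m‖ ^ 2 ≤ (Real.sqrt ((4 / 3) * ((m 0 : ℝ) ^ 2 + m 0 * m 1 + (m 1 : ℝ) ^ 2))) ^ 2 :=
            pow_le_pow_left₀ (norm_nonneg _) h4 2
        _ = _ := Real.sq_sqrt h5
    linarith
  rw [i_dpt, norm_div, norm_mul, Complex.norm_natCast]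
  have h3 := norm_io_del_sq (K := K) i
  set X := ‖io i (Xn K m)‖
  set d := ‖io i (del K)‖
  have hd0 : 0 < d := norm_pos_iff.mpr (io_del_ne i)
  have hX0 : 0 ≤ X := norm_nonneg _
  rw [div_le_div_iff₀ (by positivity) (by positivity)]
  have h4 : (‖m‖ * d) ^ 2 ≤ (2 * X) ^ 2 := by
    rw [mul_pow, h3]; nlinarith
  have h5 : ‖m‖ * d ≤ 2 * X := le_of_sq_le_sq₀ h4 (by positivity)
  calc ‖m‖ * (N * d) = N * (‖m‖ * d) := by ring
    _ ≤ N * (2 * X) := mul_le_mul_of_nonneg_left h5 hN0.le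
    _ = X * (2 * N) := by ring
where
  le_of_sq_le_sq₀ {a b : ℝ} (h : a ^ 2 ≤ b ^ 2) (hb : 0 ≤ b) : a ≤ b := by
    by_contra hlt
    push Not at hlt
    nlinarith

end

section

variable {i : K →+* ℂ} {N : ℕ} {φ : H3 → ℂ} {a : K → ℂ} {κ : 𝓞 K → ℂ} {lam : 𝓞 K → ℝ}
  {B : ℝ → ℝ} (F : KForm i N φ a κ lam B) (hB : Bes B)

/-- term of the expansion -/
noncomputable def ct (i : K →+* ℂ) (N : ℕ) (a : K → ℂ) (B : ℝ → ℝ) (y : ℝ) (m : Fin 2 → ℤ) : ℂ :=
  a (dpt K N m) * ((y * B (‖i (dpt K N m)‖ * y) : ℝ) : ℂ)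

include F hB in
theorem KForm.coef_le : ∃ C : ℝ, 0 ≤ C ∧ ∀ ξ : K, ‖a ξ‖ ≤ C * ‖i ξ‖ := by
  obtain ⟨C, hC0, hC⟩ := F.moment hB
  refine ⟨Real.sqrt C, Real.sqrt_nonneg _, fun ξ => ?_⟩
  by_cases h : ξ = 0
  · rw [h, F.zero]; simp
  have hn : 0 < ‖i ξ‖ := norm_pos_iff.mpr ((map_ne_zero i).mpr h)
  have h1 := hC ‖i ξ‖ hn {ξ} (by intro η hη; rw [Finset.mem_singleton] at hη; rw [hη])
  rw [Finset.sum_singleton] at h1
  calc ‖a ξ‖ = Real.sqrt (‖a ξ‖ ^ 2) := (Real.sqrt_sq (norm_nonneg _)).symm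
    _ ≤ Real.sqrt (C * ‖i ξ‖ ^ 2) := Real.sqrt_le_sqrt h1
    _ = Real.sqrt C * ‖i ξ‖ := by rw [Real.sqrt_mul hC0, Real.sqrt_sq hn.le]

include F hB in
theorem KForm.summable_ct {y : ℝ} (hy : 0 < y) : Summable fun m => ‖ct i N a B y m‖ := by
  obtain ⟨C, hC0, hC⟩ := F.coef_le hB
  obtain ⟨CB, hCB⟩ := hB.bd
  have hCB0 : 0 ≤ CB := by
    have h1 := (hCB 1 one_pos).2
    have h2 := (hB.pos 1 one_pos).le
    exact le_trans (by positivity) h1
  have hN := F.pos
  have hN0 : (0 : ℝ) < N := by exact_mod_cast hN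
  have hs : Summable fun x : Fin 2 → ℤ => ‖x‖ ^ (-(3 : ℝ)) :=
    EisensteinSeries.summable_one_div_norm_rpow (by norm_num)
  refine Summable.of_nonneg_of_le (fun m => norm_nonneg _) (fun m => ?_)
    (hs.mul_left (C * CB * (2 * N) ^ 3 * y ^ (-3 : ℤ)))
  by_cases hm : m = 0
  · have h0 : dpt K N m = 0 := by
      rw [hm, dpt]; simp
    rw [ct, h0, F.zero, zero_mul, norm_zero]
    positivity
  · have hm0 : 0 < ‖m‖ := norm_pos_iff.mpr hm
    have hge := norm_dpt_ge (K := K) i hN m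
    set t := ‖i (dpt K N m)‖ with ht
    have ht0 : 0 < t := lt_of_lt_of_le (by positivity) hge
    have h1 := hC (dpt K N m)
    have h2 := (hCB (t * y) (by positivity)).2
    have h3 : B (t * y) ≤ CB / (t * y) ^ 4 := by rwa [le_div_iff₀ (by positivity)]
    have h4 := (hB.pos (t * y) (by positivity)).le
    rw [ct, norm_mul, Complex.norm_real, Real.norm_of_nonneg (by positivity)]
    calc ‖a (dpt K N m)‖ * (y * B (t * y)) ≤ (C * t) * (y * (CB / (t * y) ^ 4)) := by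
          apply mul_le_mul h1 (mul_le_mul_of_nonneg_left h3 hy.le) (by positivity) (by positivity)
      _ = C * CB * y ^ (-3 : ℤ) * (t ^ 3)⁻¹ := by
          rw [zpow_neg]; field_simp
      _ ≤ C * CB * y ^ (-3 : ℤ) * ((‖m‖ / (2 * N)) ^ 3)⁻¹ := by
          apply mul_le_mul_of_nonneg_left _ (by positivity)
          apply inv_anti₀ (by positivity)
          exact pow_le_pow_left₀ (by positivity) hge 3
      _ = C * CB * (2 * N) ^ 3 * y ^ (-3 : ℤ) * ‖m‖ ^ (-(3 : ℝ)) := by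
          rw [div_pow, inv_div, Real.rpow_neg hm0.le, show (3 : ℝ) = ((3 : ℕ) : ℝ) by norm_num,
            Real.rpow_natCast]
          ring

include F hB in
/-- **pointwise Fourier expansion** -/
theorem KForm.hasSum (z : ℂ) {y : ℝ} (hy : 0 < y) :
    HasSum (fun m => ct i N a B y m * eT (2 * (i (dpt K N m) * z).re)) (φ ⟨z, y, hy⟩) := by
  have hN := F.pos
  have hN0 : (N : ℂ) ≠ 0 := by exact_mod_cast hN.ne'
  have hN0' : (N : ℝ) ≠ 0 := by exact_mod_cast hN.ne'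
  obtain ⟨h2, h3⟩ := wc_facts (K := K) i
  have him : (io i (wK K)).im ≠ 0 := by
    intro h; rw [h] at h3; norm_num at h3
  -- coordinates of `z`
  obtain ⟨x, hx⟩ : ∃ x : Fin 2 → ℝ, (N : ℂ) * (x 0 + x 1 * io i (wK K)) = z := by
    refine ⟨![z.re / N + z.im / (2 * (N * (io i (wK K)).im)), z.im / (N * (io i (wK K)).im)], ?_⟩
    apply Complex.ext
    · simp only [Matrix.cons_val_zero, Matrix.cons_val_one, Complex.mul_re, Complex.natCast_re,
        Complex.natCast_im, Complex.add_re, Complex.ofReal_re, Complex.mul_im, Complex.ofReal_im,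
        Complex.add_im, h2]
      field_simp
      ring
    · simp only [Matrix.cons_val_zero, Matrix.cons_val_one, Complex.mul_re, Complex.natCast_re,
        Complex.natCast_im, Complex.add_re, Complex.ofReal_re, Complex.mul_im, Complex.ofReal_im,
        Complex.add_im, h2]
      field_simp
      ring
  have h4 : ∀ m, PC (fun x : Fin 2 → ℝ => φ ⟨(N : ℂ) * (x 0 + x 1 * io i (wK K)), y, hy⟩) m =
      ct i N a B y m := fun m => F.fourier y hy m
  have hs : Summable (PC (fun x : Fin 2 → ℝ => φ ⟨(N : ℂ) * (x 0 + x 1 * io i (wK K)), y, hy⟩)) := by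
    refine Summable.of_norm ?_
    simp only [h4]
    exact F.summable_ct hB hy
  have h5 := hasSum_PC (F.cont' y hy) (F.per y hy) hs x
  simp only [h4] at h5
  have h6 : ∀ m, ee m x = eT (2 * (i (dpt K N m) * z).re) := by
    intro m
    rw [ee_eq_eT, ← hx, tr_dpt i hN]
  simp only [h6, hx] at h5
  exact h5

end

end Fermat.Agent.LT.RS
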