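import Mathlib
import Fermat.Agent.LT.RS.Expand

/-!
# The constant term along a plane
-/

set_option autoImplicit false
set_option linter.unusedSectionVars false

open NumberField Finset MeasureTheory Filter Topology
open scoped MatrixGroups

namespace Fermat.Agent.LT.RS

open Fermat.Agent.LT.Asai

/-! ### finite Fourier analysis -/

theorem exists_weights {M : ℕ} [NeZero M] (W : ℤ → ℂ) (hW : ∀ A k : ℤ, W (A + M * k) = W A) :
    ∃ w : ZMod M → ℂ, ∀ A : ℤ, ∑ j, w j * eT (((j.val : ℝ) / M) * A) = W A := by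
  let W' : ZMod M → ℂ := fun r => W r.val
  refine ⟨fun j => (M : ℂ)⁻¹ * ZMod.dft W' j, fun A => ?_⟩
  have h1 := ZMod.invDFT_apply (ZMod.dft W') (A : ZMod M)
  rw [show (ZMod.dft (N := M) (E := ℂ)).symm (ZMod.dft W') = W' from
    LinearEquiv.symm_apply_apply _ _] at h1
  have h2 : W' (A : ZMod M) = W A := by
    have h3 : (((A : ZMod M).val : ℤ) : ZMod M) = (A : ZMod M) := by
      rw [Int.cast_natCast, ZMod.natCast_zmod_val]
    rw [ZMod.intCast_eq_intCast_iff_dvd_sub] at h3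
    obtain ⟨k, hk⟩ := h3
    have : A = ((A : ZMod M).val : ℤ) + M * k := by linarith
    rw [this, hW]
    simp only [W']
    congr 2
    rw [← this]
  rw [← h2, h1, smul_eq_mul, Finset.mul_sum]
  refine Finset.sum_congr rfl fun j _ => ?_
  have h4 : (ZMod.stdAddChar (j * (A : ZMod M)) : ℂ) = eT (((j.val : ℝ) / M) * A) := by
    have h5 : j * (A : ZMod M) = (((j.val : ℤ) * A : ℤ) : ZMod M) := by
      push_cast
      rw [ZMod.natCast_zmod_val]
    rw [h5, ZMod.stdAddChar_coe, eT]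
    congr 1
    push_cast
    ring
  rw [smul_eq_mul, h4]
  ring

theorem integral_eT {M' : ℝ} (hM' : 0 < M') {c : ℝ} (d : ℝ) {n : ℤ} (hn : c * M' = n) :
    ∫ x in Set.Ioc 0 M', eT (c * x + d) = if n = 0 then (M' : ℂ) * eT d else 0 := by
  rw [← intervalIntegral.integral_of_le hM'.le]
  split_ifs with h
  · have hc : c = 0 := by
      rw [h, Int.cast_zero] at hn
      exact (mul_eq_zero.mp hn).resolve_right hM'.ne'
    rw [hc]
    simp
  · have hc : c ≠ 0 := by
      rintro rfl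
      rw [zero_mul] at hn
      exact h (by exact_mod_cast hn.symm)
    have h1 : ∀ x : ℝ, eT (c * x + d) = eT d * Complex.exp ((2 * Real.pi * Complex.I * c) * x) := by
      intro x
      rw [eT_add, mul_comm (eT (c * x))]
      congr 1
      rw [eT]
      congr 1
      push_cast
      ring
    simp only [h1]
    have hc2 : (2 * Real.pi * Complex.I * c : ℂ) ≠ 0 := by
      have : (c : ℂ) ≠ 0 := by exact_mod_cast hc
      simp [Complex.I_ne_zero, Real.pi_ne_zero, this]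
    rw [intervalIntegral.integral_const_mul, integral_exp_mul_complex hc2]
    have h2 : Complex.exp (2 * Real.pi * Complex.I * c * M') = 1 := by
      have := eT_int n
      rw [eT] at this
      rw [← this]
      congr 1
      have h3 : ((c * M' : ℝ) : ℂ) = n := by rw [hn]; push_cast; rfl
      push_cast at h3
      push_cast
      rw [← h3]
      ring
    rw [h2]
    simp

theorem lam_bad {Q : ℕ} {u u' : ℕ → ℝ} {m : ℕ} (h : ¬ m.Coprime Q) :
    Lam (locA Q u u') m = 0 := by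
  rw [Lam]
  split_ifs with h0
  · rfl
  · obtain ⟨p, hp, h1, h2⟩ := Nat.Prime.not_coprime_iff_dvd.mp h
    rw [Finsupp.prod]
    refine Finset.prod_eq_zero (i := p) ?_ ?_
    · rw [Nat.support_factorization]
      exact Nat.mem_primeFactors.mpr ⟨hp, h1, h0⟩
    · exact locA_bad h2 (hp.factorization_pos_of_dvd h0 h1).ne'

variable {K : Type*} [Field K] [NumberField K] [IsCyclotomicExtension {3} ℚ K]

local notation "α" => algebraMap (𝓞 K) K

section

variable {i : K →+* ℂ} {N : ℕ} {φ : H3 → ℂ} {a : K → ℂ} {κ : 𝓞 K → ℂ} {lam : 𝓞 K → ℝ}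
  {B : ℝ → ℝ} (F : KForm i N φ a κ lam B) (hB : Bes B)

/-- data attached to a nonvanishing coefficient -/
structure PData (i : K →+* ℂ) (N : ℕ) (a : K → ℂ) (μ : K) (x0 x0' : 𝓞 K) (D : ℕ) : Prop where
  num : IsNum N μ x0
  ne : a μ ≠ 0
  conj : io i x0' = (starRingEnd ℂ) (io i x0)
  mul : x0 * x0' = (D : 𝓞 K)
  D_eq : D = nm i x0
  D_pos : 0 < D

theorem exists_pdata (H : CoefSys i N a κ lam) {μ : K} (hμ : a μ ≠ 0) :
    ∃ x0 x0' D, PData i N a μ x0 x0' D := by
  obtain ⟨x0, hx0⟩ := H.supp μ hμ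
  obtain ⟨x0', h1, h2⟩ := exists_mul_conj i (IsCyclotomicExtension.zeta_spec 3 ℚ K) x0
  refine ⟨x0, x0', nm i x0, hx0, hμ, h1, h2, rfl, Nat.pos_of_ne_zero fun h3 => ?_⟩
  have h4 := nm_eq_zero i (IsCyclotomicExtension.zeta_spec 3 ℚ K) h3
  rw [h4, map_zero] at hx0
  rcases mul_eq_zero.mp hx0 with h5 | h5
  · exact hμ (by rw [h5, H.zero])
  · exact H.nd_ne h5

variable {μ : K} {x0 x0' : 𝓞 K} {D : ℕ} (P : PData i N a μ x0 x0' D)

/-- the direction of the plane -/
noncomputable def alp (N : ℕ) (x0' : 𝓞 K) (D : ℕ) : K := α (-3 * N * x0') / (D : K)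

/-- the translation of the plane -/
noncomputable def bet (N : ℕ) (x0' : 𝓞 K) (t : ℚ) : K := (t : K) * N * α (del K) * α x0' / 2

omit [NumberField K] [IsCyclotomicExtension {3} ℚ K] in
theorem i_natCast (n : ℕ) : i (n : K) = n := map_natCast i n

theorem i_alp : i (alp N x0' D) = -3 * N * io i x0' / D := by
  rw [alp, map_div₀, map_natCast]
  simp only [map_mul, map_neg, map_ofNat, map_natCast]
  rfl

theorem i_bet (t : ℚ) : i (bet N x0' t) = t * N * io i (del K) * io i x0' / 2 := by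
  rw [bet, map_div₀]
  simp only [map_mul, map_ofNat, map_natCast, map_ratCast]
  rfl

/-- `X_m x₀' = A + B ω` -/
theorem exists_AB (x0' : 𝓞 K) (m : Fin 2 → ℤ) : ∃ p : ℤ × ℤ, Xn K m * x0' = p.1 + p.2 * wK K := by
  obtain ⟨A, B, h⟩ := exists_rep' (Xn K m * x0')
  exact ⟨(A, B), h⟩

noncomputable def AB (x0' : 𝓞 K) (m : Fin 2 → ℤ) : ℤ × ℤ := (exists_AB x0' m).choose

theorem AB_spec (x0' : 𝓞 K) (m : Fin 2 → ℤ) :
    Xn K m * x0' = (AB x0' m).1 + (AB x0' m).2 * wK K := (exists_AB x0' m).choose_spec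

theorem io_AB (x0' : 𝓞 K) (m : Fin 2 → ℤ) :
    io i (Xn K m) * io i x0' = (((AB x0' m).1 : ℝ) : ℂ) + (((AB x0' m).2 : ℝ) : ℂ) * io i (wK K) := by
  rw [← io_mul, AB_spec, io_add, io_mul, io_intCast, io_intCast]
  push_cast
  rfl

include P in
theorem tr_plane (hN : 0 < N) (m : Fin 2 → ℤ) (x : ℝ) (t : ℚ) :
    2 * (i (dpt K N m) * (i (alp N x0' D) * x + i (bet N x0' t))).re =
      -3 * (AB x0' m).2 / D * x + t * ((AB x0' m).1 - (AB x0' m).2 / 2) := by
  have hN0 : (N : ℂ) ≠ 0 := by exact_mod_cast hN.ne'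
  have hD0 : (D : ℂ) ≠ 0 := by exact_mod_cast P.D_pos.ne'
  have hd := io_del_ne (K := K) i
  have hAB := io_AB (i := i) x0' m
  have h1 : i (dpt K N m) * (i (alp N x0' D) * x + i (bet N x0' t)) =
      ((-3 * x / D : ℝ) : ℂ) * (((((AB x0' m).1 : ℝ) : ℂ) + (((AB x0' m).2 : ℝ) : ℂ) *
        io i (wK K)) / io i (del K)) +
      ((t / 2 : ℝ) : ℂ) * ((((AB x0' m).1 : ℝ) : ℂ) + (((AB x0' m).2 : ℝ) : ℂ) *
        io i (wK K)) := by
    rw [← hAB, i_dpt, i_alp, i_bet]
    push_cast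
    field_simp
  rw [h1, Complex.add_re, Complex.re_ofReal_mul, Complex.re_ofReal_mul, re_div_del]
  obtain ⟨h2, -⟩ := wc_facts (K := K) i
  simp only [Complex.add_re, Complex.ofReal_re, Complex.mul_re, Complex.ofReal_im, h2, zero_mul,
    sub_zero]
  ring

include P in
/-- norms -/
theorem norm_mu_alp (hN : 0 < N) : ‖i μ‖ * ‖i (alp N x0' D)‖ = Real.sqrt 3 := by
  have hN0 : (0 : ℝ) < N := by exact_mod_cast hN
  have hD0 : (0 : ℝ) < D := by exact_mod_cast P.D_pos
  have hx : ‖io i x0‖ ^ 2 = D := by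
    rw [P.D_eq, nm_eq i (IsCyclotomicExtension.zeta_spec 3 ℚ K)]
  have hx' : ‖io i x0'‖ = ‖io i x0‖ := by rw [P.conj, RCLike.norm_conj]
  have h1 : ‖i μ‖ * (N * ‖io i (del K)‖) = ‖io i x0‖ := by
    have := P.num
    unfold IsNum at this
    have h2 := congrArg (fun z => ‖i z‖) this
    simp only [map_mul, norm_mul] at h2
    rw [map_natCast, Complex.norm_natCast] at h2
    exact h2
  have h3 : ‖io i (del K)‖ = Real.sqrt 3 := by
    rw [← norm_io_del_sq (K := K) i, Real.sqrt_sq (norm_nonneg _)]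
  rw [h3] at h1
  have h4 : ‖i (alp N x0' D)‖ = 3 * N * ‖io i x0‖ / D := by
    rw [i_alp, norm_div, norm_mul, norm_mul, hx', Complex.norm_natCast, Complex.norm_natCast]
    simp
  have hs : Real.sqrt 3 * Real.sqrt 3 = 3 := Real.mul_self_sqrt (by norm_num)
  rw [h4]
  have h5 : ‖i μ‖ * (3 * N * ‖io i x0‖ / D) =
      (‖i μ‖ * (N * Real.sqrt 3)) * ‖io i x0‖ * Real.sqrt 3 / D := by
    have h6 : (3 * N * ‖io i x0‖ / D : ℝ) =
        (Real.sqrt 3 * Real.sqrt 3) * N * ‖io i x0‖ / D := by rw [hs]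
    rw [h6]; ring
  rw [h5, h1, ← sq, hx]
  field_simp

include P in
theorem norm_alp_pos (hN : 0 < N) : 0 < ‖i (alp N x0' D)‖ := by
  have h := norm_mu_alp P hN
  have h3 : 0 < Real.sqrt 3 := Real.sqrt_pos.mpr (by norm_num)
  by_contra hcon
  have h4 : ‖i (alp N x0' D)‖ = 0 := le_antisymm (not_lt.mp hcon) (norm_nonneg _)
  rw [h4, mul_zero] at h
  linarith

include F hB P in
/-- integral over a period -/
theorem plane_integral {k : ℕ} (hk : 0 < k) {Y : ℝ} (hY : 0 < Y) (t : ℚ) :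
    HasSum (fun m => if (AB x0' m).2 = 0 then
      ((D * k : ℕ) : ℂ) * (ct i N a B Y m * eT (t * (AB x0' m).1)) else 0)
      (∫ x in Set.Ioc (0 : ℝ) ((D * k : ℕ) : ℝ),
        φ ⟨i (alp N x0' D) * x + i (bet N x0' t), Y, hY⟩) := by
  have hD0 : (0 : ℝ) < D := by exact_mod_cast P.D_pos
  have hM' : (0 : ℝ) < ((D * k : ℕ) : ℝ) := by
    have := P.D_pos
    positivity
  have hterm : ∀ (m : Fin 2 → ℤ) (x : ℝ),
      ct i N a B Y m * eT (2 * (i (dpt K N m) * (i (alp N x0' D) * x + i (bet N x0' t))).re) =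
      ct i N a B Y m * eT (-3 * (AB x0' m).2 / D * x + t * ((AB x0' m).1 - (AB x0' m).2 / 2)) := by
    intro m x
    rw [tr_plane P F.pos]
  have h1 : ∀ x : ℝ, HasSum (fun m => ct i N a B Y m *
      eT (-3 * (AB x0' m).2 / D * x + t * ((AB x0' m).1 - (AB x0' m).2 / 2)))
      (φ ⟨i (alp N x0' D) * x + i (bet N x0' t), Y, hY⟩) := by
    intro x
    have := F.hasSum hB (i (alp N x0' D) * x + i (bet N x0' t)) hY
    simp only [hterm] at this
    exact this
  have hcont : ∀ m, Continuous fun x : ℝ => ct i N a B Y m *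
      eT (-3 * (AB x0' m).2 / D * x + t * ((AB x0' m).1 - (AB x0' m).2 / 2)) := by
    intro m
    exact continuous_const.mul (continuous_eT.comp (by fun_prop))
  have hnorm : ∀ m (x : ℝ), ‖ct i N a B Y m *
      eT (-3 * (AB x0' m).2 / D * x + t * ((AB x0' m).1 - (AB x0' m).2 / 2))‖ =
      ‖ct i N a B Y m‖ := by
    intro m x
    rw [norm_mul, norm_eT, mul_one]
  have h2 := hasSum_integral_of_summable_integral_norm
    (μ := volume.restrict (Set.Ioc (0 : ℝ) ((D * k : ℕ) : ℝ)))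
    (F := fun m (x : ℝ) => ct i N a B Y m *
      eT (-3 * (AB x0' m).2 / D * x + t * ((AB x0' m).1 - (AB x0' m).2 / 2)))
    (fun m => ((hcont m).integrableOn_Icc (a := 0) (b := ((D * k : ℕ) : ℝ))).mono_set
      Set.Ioc_subset_Icc_self)
    (by
      simp only [hnorm]
      simp only [integral_const, smul_eq_mul]
      exact (F.summable_ct hB hY).mul_left _)
  have h3 : ∀ x : ℝ, ∑' m, ct i N a B Y m *
      eT (-3 * (AB x0' m).2 / D * x + t * ((AB x0' m).1 - (AB x0' m).2 / 2)) =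
      φ ⟨i (alp N x0' D) * x + i (bet N x0' t), Y, hY⟩ := fun x => (h1 x).tsum_eq
  simp only [h3] at h2
  suffices h5 : (fun m => if (AB x0' m).2 = 0 then
      ((D * k : ℕ) : ℂ) * (ct i N a B Y m * eT (t * (AB x0' m).1)) else 0) =
      fun m => ∫ x in Set.Ioc (0 : ℝ) ((D * k : ℕ) : ℝ), ct i N a B Y m *
        eT (-3 * (AB x0' m).2 / D * x + t * ((AB x0' m).1 - (AB x0' m).2 / 2)) by
    rw [h5]; exact h2
  funext m
  symm
  rw [integral_const_mul]
  have h4 : (-3 * ((AB x0' m).2 : ℝ) / D) * ((D * k : ℕ) : ℝ) = ((-3 * (AB x0' m).2 * k : ℤ) : ℝ) := by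
    push_cast
    field_simp
  rw [integral_eT hM' _ h4]
  by_cases hz : (AB x0' m).2 = 0
  · rw [if_pos hz, if_pos (by rw [hz]; ring), hz]
    push_cast
    have : (t : ℝ) * ((AB x0' m).1 - 0 / 2) = t * (AB x0' m).1 := by ring
    rw [this]
    ring
  · rw [if_neg hz, if_neg, mul_zero]
    have hk' : (k : ℤ) ≠ 0 := by exact_mod_cast hk.ne'
    exact mul_ne_zero (mul_ne_zero (by norm_num) hz) hk'

end

end Fermat.Agent.LT.RS
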