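import Mathlib
import Fermat.Agent.LT.RS.Comb

/-!
# A linear combination of constant terms is the Asai series
-/

set_option autoImplicit false
set_option linter.unusedSectionVars false

open NumberField Finset MeasureTheory Filter Topology
open scoped MatrixGroups

namespace Fermat.Agent.LT.RS

open Fermat.Agent.LT.Asai

variable {K : Type*} [Field K] [NumberField K] [IsCyclotomicExtension {3} ℚ K]

local notation "α" => algebraMap (𝓞 K) K

section

variable {i : K →+* ℂ} {N : ℕ} {φ : H3 → ℂ} {a : K → ℂ} {κ : 𝓞 K → ℂ} {lam : 𝓞 K → ℝ}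
  {B : ℝ → ℝ} (H : CoefSys i N a κ lam) {v : ℕ × Bool → 𝓞 K} (S : Sys i v)
  {μ : K} {x0 x0' : 𝓞 K} {D : ℕ} (P : PData i N a μ x0 x0' D)

/-- `λ(|k|)` -/
noncomputable def LamZ (i : K →+* ℂ) (N : ℕ) (lam : 𝓞 K → ℝ) (v : ℕ × Bool → 𝓞 K) (x0 : 𝓞 K)
    (k : ℤ) : ℝ :=
  Lam (locA (QQ i N x0) (uu lam v) (uu' lam v)) k.natAbs

include H in
theorem CoefSys.k_int_ne {Q : ℕ} (hQ : N ∣ Q) {k : ℤ} (hk : Int.gcd k Q = 1) :
    κ (k : 𝓞 K) ≠ 0 := by
  intro h0
  obtain ⟨u, v, huv⟩ := Int.isCoprime_iff_gcd_eq_one.mpr hk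
  obtain ⟨q, rfl⟩ := hQ
  have h1 : κ ((k : 𝓞 K) * (u : 𝓞 K)) = 1 := by
    have h2 : (k : 𝓞 K) * (u : 𝓞 K) = 1 + N * ((-(q * v) : ℤ) : 𝓞 K) := by
      have h3 : ((u * k + v * ((N * q : ℕ) : ℤ) : ℤ) : 𝓞 K) = ((1 : ℤ) : 𝓞 K) := by rw [huv]
      push_cast at h3 ⊢
      linear_combination h3
    rw [h2, H.kper, H.kone]
  rw [H.kmul, h0, zero_mul] at h1
  exact zero_ne_one h1

include H in
theorem CoefSys.k_per_int {Q : ℕ} (hQ : N ∣ Q) (k j : ℤ) :
    κ ((k + Q * j : ℤ) : 𝓞 K) = κ (k : 𝓞 K) := by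
  obtain ⟨q, rfl⟩ := hQ
  have : ((k + ((N * q : ℕ) : ℤ) * j : ℤ) : 𝓞 K) = k + N * ((q * j : ℤ) : 𝓞 K) := by
    push_cast; ring
  rw [this, H.kper]

include H S P in
theorem CoefSys.asai_int {k : ℤ} (hk : Int.gcd k (QQ i N x0) = 1) :
    a ((k : K) * μ) = κ (k : 𝓞 K) * (LamZ i N lam v x0 k : ℝ) * a μ := by
  rcases Int.natAbs_eq k with h | h
  · have hc : (k.natAbs).Coprime (QQ i N x0) := by
      have : Int.gcd k (QQ i N x0) = Nat.gcd k.natAbs (QQ i N x0) := rfl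
      rwa [this] at hk
    have h1 := H.asai S P.num P.ne hc
    have e1 : ((k.natAbs : ℕ) : K) = (k : K) := by
      conv_rhs => rw [h]
      exact (Int.cast_natCast _).symm
    have e2 : ((k.natAbs : ℕ) : 𝓞 K) = (k : 𝓞 K) := by
      conv_rhs => rw [h]
      exact (Int.cast_natCast _).symm
    rw [e1, e2] at h1
    exact h1
  · have hc : (k.natAbs).Coprime (QQ i N x0) := by
      have : Int.gcd k (QQ i N x0) = Nat.gcd k.natAbs (QQ i N x0) := rfl
      rwa [this] at hk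
    have h1 := H.asai S P.num P.ne hc
    have e1 : (k : K) * μ = -(((k.natAbs : ℕ) : K) * μ) := by
      conv_lhs => rw [h]
      rw [Int.cast_neg, Int.cast_natCast]; ring
    have e2 : (k : 𝓞 K) = (-1) * ((k.natAbs : ℕ) : 𝓞 K) := by
      conv_lhs => rw [h]
      rw [Int.cast_neg, Int.cast_natCast]; ring
    rw [e1, H.neg, h1, e2, H.kmul, LamZ]
    ring

/-- the weight on integers -/
noncomputable def Wt (κ : 𝓞 K → ℂ) (D Q : ℕ) (A : ℤ) : ℂ :=
  if (D : ℤ) ∣ A ∧ Int.gcd (A / D) Q = 1 then (κ ((A / D : ℤ) : 𝓞 K))⁻¹ else 0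

include H in
theorem CoefSys.Wt_per {D Q : ℕ} (hD : 0 < D) (hQ : N ∣ Q) (A k : ℤ) :
    Wt κ D Q (A + ((D * Q : ℕ) : ℤ) * k) = Wt κ D Q A := by
  have hD' : (D : ℤ) ≠ 0 := by exact_mod_cast hD.ne'
  rw [Wt, Wt]
  by_cases hA : (D : ℤ) ∣ A
  · obtain ⟨b, rfl⟩ := hA
    have e1 : (D : ℤ) * b + ((D * Q : ℕ) : ℤ) * k = D * (b + Q * k) := by push_cast; ring
    rw [e1, Int.mul_ediv_cancel_left _ hD', Int.mul_ediv_cancel_left _ hD']
    have e2 : Int.gcd (b + Q * k) Q = Int.gcd b Q := by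
      rw [Int.gcd_comm, Int.gcd_comm b]
      have := Int.gcd_add_mul_left_right (Q : ℤ) b k
      exact this
    rw [e2, H.k_per_int hQ]
    simp
  · have h2 : ¬ (D : ℤ) ∣ A + ((D * Q : ℕ) : ℤ) * k := by
      intro h
      apply hA
      have h3 : (D : ℤ) ∣ ((D * Q : ℕ) : ℤ) * k := ⟨Q * k, by push_cast; ring⟩
      exact (dvd_add_left h3).mp h
    rw [if_neg (fun h => h2 h.1), if_neg (fun h => hA h.1)]

theorem Xn_of_dpt (hN : 0 < N) {m : Fin 2 → ℤ} {ξ : K} {y : 𝓞 K} (h : IsNum N ξ y)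
    (hm : dpt K N m = ξ) : Xn K m = y := by
  have h1 : (N : K) ≠ 0 := by exact_mod_cast hN.ne'
  have h2 : ((N : K) * α (del K)) ≠ 0 := mul_ne_zero h1 (al_ne del_ne_zero)
  unfold IsNum at h
  rw [← hm, dpt, div_mul_cancel₀ _ h2] at h
  exact IsFractionRing.injective (𝓞 K) K h

theorem dpt_of_Xn (hN : 0 < N) {m : Fin 2 → ℤ} {ξ : K} {y : 𝓞 K} (h : IsNum N ξ y)
    (hm : Xn K m = y) : dpt K N m = ξ := by
  have h1 : (N : K) ≠ 0 := by exact_mod_cast hN.ne'
  have h2 : ((N : K) * α (del K)) ≠ 0 := mul_ne_zero h1 (al_ne del_ne_zero)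
  unfold IsNum at h
  rw [dpt, div_eq_iff h2, h, ← hm]
  rfl

variable (F : KForm i N φ a κ lam B) (hB : Bes B)

include F hB S P in
/-- **The linear combination of the constant terms.** -/
theorem comb [NeZero (D * QQ i N x0)] : ∃ w : ZMod (D * QQ i N x0) → ℂ, ∀ {k' : ℕ} (_ : 0 < k') {Y : ℝ} (hY : 0 < Y),
    HasSum (fun k : ℤ => ((D * k' : ℕ) : ℂ) * a μ *
      ((LamZ i N lam v x0 k * (Y * B (|(k : ℝ)| * (‖i μ‖ * Y))) : ℝ) : ℂ))
      (∑ j : ZMod (D * QQ i N x0), w j * ∫ x in Set.Ioc (0 : ℝ) ((D * k' : ℕ) : ℝ),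
        φ ⟨i (alp N x0' D) * x + i (bet N x0' ((j.val : ℚ) / (D * QQ i N x0 : ℕ))), Y, hY⟩) := by
  have H := F.coefSys hB
  set Q := QQ i N x0 with hQdef
  have hNpos := F.pos
  have hQ0 : 0 < Q := by
    rw [hQdef, QQ, ← P.D_eq]
    have := P.D_pos
    positivity
  have hNQ : N ∣ Q := N_dvd_QQ x0
  obtain ⟨w, hw⟩ := exists_weights (M := D * Q) (Wt κ D Q)
    (fun A k => H.Wt_per P.D_pos hNQ A k)
  refine ⟨w, fun {k'} hk' {Y} hY => ?_⟩
  -- sum over the lattice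
  have h1 : HasSum (fun m => if (AB x0' m).2 = 0 then
      ((D * k' : ℕ) : ℂ) * (ct i N a B Y m * Wt κ D Q (AB x0' m).1) else 0)
      (∑ j : ZMod (D * Q), w j * ∫ x in Set.Ioc (0 : ℝ) ((D * k' : ℕ) : ℝ),
        φ ⟨i (alp N x0' D) * x + i (bet N x0' ((j.val : ℚ) / (D * Q : ℕ))), Y, hY⟩) := by
    have h2 := fun j : ZMod (D * Q) =>
      (plane_integral F hB P hk' hY ((j.val : ℚ) / (D * Q : ℕ))).mul_left (w j)
    have h3 := hasSum_sum (s := Finset.univ) (fun j _ => h2 j)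
    have e1 : (fun m : Fin 2 → ℤ => ∑ j : ZMod (D * Q), w j * (if (AB x0' m).2 = 0 then
        ((D * k' : ℕ) : ℂ) * (ct i N a B Y m *
          eT ((((j.val : ℚ) / (D * Q : ℕ) : ℚ) : ℝ) * (AB x0' m).1)) else 0)) =
        fun m => if (AB x0' m).2 = 0 then
      ((D * k' : ℕ) : ℂ) * (ct i N a B Y m * Wt κ D Q (AB x0' m).1) else 0 := by
      funext m
      split_ifs with hz
      · rw [← hw (AB x0' m).1, Finset.mul_sum, Finset.mul_sum]
        refine Finset.sum_congr rfl fun j _ => ?_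
        have e2 : ((((j.val : ℚ) / (D * Q : ℕ) : ℚ) : ℝ)) = (j.val : ℝ) / ((D * Q : ℕ) : ℝ) := by
          push_cast; rfl
        rw [e2]
        ring
      · simp
    rw [← e1]
    exact h3
  -- the lattice points on the line
  have hnum : ∀ k : ℤ, IsNum N ((k : K) * μ) (x0 * (k : 𝓞 K)) := by
    intro k
    have := P.num.mul (k : 𝓞 K)
    rwa [map_intCast] at this
  have hex : ∀ k : ℤ, ∃ m : Fin 2 → ℤ, dpt K N m = (k : K) * μ := fun k =>
    dpt_surj hNpos ⟨_, hnum k⟩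
  choose g hg using hex
  have hμ0 : μ ≠ 0 := fun h0 => P.ne (by rw [h0, H.zero])
  have hginj : Function.Injective g := by
    intro k l hkl
    have h2 : (k : K) * μ = (l : K) * μ := by rw [← hg k, ← hg l, hkl]
    exact_mod_cast mul_right_cancel₀ hμ0 h2
  have hAB : ∀ k : ℤ, (AB x0' (g k)).1 = D * k ∧ (AB x0' (g k)).2 = 0 := by
    intro k
    have h2 := AB_spec x0' (g k)
    rw [Xn_of_dpt hNpos (hnum k) (hg k)] at h2
    have h3 : (((AB x0' (g k)).1 - D * k : ℤ) : 𝓞 K) + (((AB x0' (g k)).2 : ℤ) : 𝓞 K) *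
        (IsCyclotomicExtension.zeta_spec 3 ℚ K).toInteger = 0 := by
      have h4 : wK K = (IsCyclotomicExtension.zeta_spec 3 ℚ K).toInteger := rfl
      rw [← h4]
      push_cast
      linear_combination -h2 + (k : 𝓞 K) * P.mul
    obtain ⟨h5, h6⟩ := rep_inj _ h3
    exact ⟨by linarith, h6⟩
  have hx0' : x0' ≠ 0 := by
    rintro rfl
    have := P.mul
    rw [mul_zero] at this
    exact P.D_pos.ne' (by exact_mod_cast this.symm)
  have hsupp : ∀ m ∉ Set.range g, (if (AB x0' m).2 = 0 then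
      ((D * k' : ℕ) : ℂ) * (ct i N a B Y m * Wt κ D Q (AB x0' m).1) else 0) = 0 := by
    intro m hm
    split_ifs with hz
    · have h2 : Wt κ D Q (AB x0' m).1 = 0 := by
        rw [Wt, if_neg]
        rintro ⟨⟨k, hk⟩, -⟩
        apply hm
        refine ⟨k, ?_⟩
        have h3 := AB_spec x0' m
        rw [hz, hk] at h3
        have h4 : Xn K m = x0 * (k : 𝓞 K) := by
          apply mul_right_cancel₀ hx0'
          rw [h3]
          push_cast
          linear_combination -(k : 𝓞 K) * P.mul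
        have h5 := dpt_of_Xn hNpos (hnum k) h4
        exact dpt_inj hNpos (by rw [hg k, h5])
      rw [h2]; simp
    · rfl
  have h6 := (hginj.hasSum_iff hsupp).mpr h1
  have e3 : ((fun m => if (AB x0' m).2 = 0 then
      ((D * k' : ℕ) : ℂ) * (ct i N a B Y m * Wt κ D Q (AB x0' m).1) else 0) ∘ g) =
      fun k : ℤ => ((D * k' : ℕ) : ℂ) * a μ *
      ((LamZ i N lam v x0 k * (Y * B (|(k : ℝ)| * (‖i μ‖ * Y))) : ℝ) : ℂ) := by
    funext k
    simp only [Function.comp_apply]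
    rw [if_pos (hAB k).2, (hAB k).1, ct, hg k]
    have hD' : (D : ℤ) ≠ 0 := by exact_mod_cast P.D_pos.ne'
    have hn : ‖i ((k : K) * μ)‖ = |(k : ℝ)| * ‖i μ‖ := by
      rw [map_mul, norm_mul, map_intCast, Complex.norm_intCast]
    rw [Wt, Int.mul_ediv_cancel_left _ hD', hn, mul_assoc |(k : ℝ)|]
    by_cases hc : Int.gcd k Q = 1
    · rw [if_pos ⟨dvd_mul_right _ _, hc⟩, H.asai_int S P hc]
      have hk0 := H.k_int_ne hNQ hc
      push_cast
      field_simp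
    · rw [if_neg (fun h => hc h.2)]
      have h7 : LamZ i N lam v x0 k = 0 := by
        rw [LamZ]
        apply lam_bad
        intro h8
        apply hc
        exact h8
      rw [h7]
      simp
  rw [e3] at h6
  exact h6

end

end Fermat.Agent.LT.RS
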