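import Mathlib
import Fermat.Agent.LT.Asai.Unfold

/-!
# Unfolding the Eisenstein series
-/

set_option autoImplicit false

open MeasureTheory Filter Topology UpperHalfPlane Matrix.SpecialLinearGroup CongruenceSubgroup
open scoped MatrixGroups ENNReal

namespace Fermat.Agent.LT.RS

open Fermat.Agent.LT.Asai

/-- vertical strip of width `M` -/
def strip (M : ℕ) : Set ℍ := {τ | 0 < τ.re ∧ τ.re ≤ M}

theorem measurableSet_strip (M : ℕ) : MeasurableSet (strip M) := by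
  have h : Measurable fun τ : ℍ => τ.re := UpperHalfPlane.continuous_re.measurable
  exact (measurableSet_lt measurable_const h).inter (measurableSet_le h measurable_const)

theorem T_zpow_re (k : ℤ) (τ : ℍ) : ((ModularGroup.T ^ k : SL(2, ℤ)) • τ).re = τ.re + k := by
  rw [UpperHalfPlane.modular_T_zpow_smul, UpperHalfPlane.vadd_re]
  ring

theorem T_zpow_im (k : ℤ) (τ : ℍ) : ((ModularGroup.T ^ k : SL(2, ℤ)) • τ).im = τ.im := by
  rw [UpperHalfPlane.modular_T_zpow_smul, UpperHalfPlane.vadd_im]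

theorem mem_Gamma_iff {M : ℕ} (g : SL(2, ℤ)) : g ∈ Gamma M ↔ (M : ℤ) ∣ g 0 0 - 1 ∧
    (M : ℤ) ∣ g 0 1 ∧ (M : ℤ) ∣ g 1 0 ∧ (M : ℤ) ∣ g 1 1 - 1 := by
  rw [Gamma_mem]
  simp only [← ZMod.intCast_zmod_eq_zero_iff_dvd, Int.cast_sub, Int.cast_one, sub_eq_zero]

theorem eq_T_zpow {δ : SL(2, ℤ)} (h0 : δ 1 0 = 0) (h1 : δ 1 1 = 1) :
    δ = ModularGroup.T ^ (δ 0 1) := by
  have hdet : δ 0 0 * δ 1 1 - δ 0 1 * δ 1 0 = 1 := by
    have := δ.2; rw [Matrix.det_fin_two] at this; exact this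
  rw [h0, h1] at hdet
  ext r s
  rw [ModularGroup.coe_T_zpow]
  fin_cases r <;> fin_cases s
  · simp; linarith
  · simp
  · simp; exact h0
  · simp; exact h1

theorem row_mul_inv (g h : SL(2, ℤ)) (h0 : h 1 0 = g 1 0) (h1 : h 1 1 = g 1 1) :
    (h * g⁻¹) 1 0 = 0 ∧ (h * g⁻¹) 1 1 = 1 := by
  have hdet : g 0 0 * g 1 1 - g 0 1 * g 1 0 = 1 := by
    have := g.2; rw [Matrix.det_fin_two] at this; exact this
  have e : ((h * g⁻¹ : SL(2, ℤ)) : Matrix (Fin 2) (Fin 2) ℤ) =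
      (h : Matrix (Fin 2) (Fin 2) ℤ) * !![g 1 1, -g 0 1; -g 1 0, g 0 0] := by
    rw [Matrix.SpecialLinearGroup.coe_mul, Matrix.SpecialLinearGroup.SL2_inv_expl]
    rfl
  constructor
  · rw [e]; simp [Matrix.mul_apply, Fin.sum_univ_two, h0, h1]; ring
  · rw [e]; simp [Matrix.mul_apply, Fin.sum_univ_two, h0, h1]; linarith

section

variable {M : ℕ} (hM : 3 ≤ M) (τ : ℍ)

/-- the elements of `Γ(M)` moving `τ` to the strip -/
def Sset (M : ℕ) (τ : ℍ) : Set (Gamma M) := {γ | (γ : SL(2, ℤ)) • τ ∈ strip M}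

theorem row_mem_PR (γ : Gamma M) : (((γ : SL(2, ℤ)) 1 0, (γ : SL(2, ℤ)) 1 1) : ℤ × ℤ) ∈ PR M := by
  obtain ⟨h1, h2, h3, h4⟩ := (mem_Gamma_iff (γ : SL(2, ℤ))).mp γ.2
  refine ⟨?_, h3, h4⟩
  have := (ModularGroup.bottom_row_coprime (γ : SL(2, ℤ)))
  exact Int.isCoprime_iff_gcd_eq_one.mp this

/-- the map to bottom rows -/
def rowMap (M : ℕ) (τ : ℍ) (γ : Sset M τ) : PR M :=
  ⟨(((γ : Gamma M) : SL(2, ℤ)) 1 0, ((γ : Gamma M) : SL(2, ℤ)) 1 1), row_mem_PR _⟩

include hM in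
theorem rowMap_bijective : Function.Bijective (rowMap M τ) := by
  have hM0 : (0 : ℝ) < M := by exact_mod_cast (by omega : 0 < M)
  constructor
  · rintro ⟨γ, hγ⟩ ⟨γ', hγ'⟩ h
    have h2 := congrArg (fun x : PR M => (x : ℤ × ℤ)) h
    simp only [rowMap, Prod.mk.injEq] at h2
    obtain ⟨h3, h4⟩ := row_mul_inv (γ : SL(2, ℤ)) (γ' : SL(2, ℤ)) h2.1.symm h2.2.symm
    set δ := (γ' : SL(2, ℤ)) * (γ : SL(2, ℤ))⁻¹ with hδ
    have h5 := eq_T_zpow h3 h4
    set k := δ 0 1 with hk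
    have hδM : δ ∈ Gamma M := mul_mem γ'.2 (inv_mem γ.2)
    have hkM : (M : ℤ) ∣ k := ((mem_Gamma_iff δ).mp hδM).2.1
    have h6 : (γ' : SL(2, ℤ)) • τ = (ModularGroup.T ^ k : SL(2, ℤ)) • ((γ : SL(2, ℤ)) • τ) := by
      rw [← h5, hδ, ← mul_smul]
      simp
    have h7 : ((γ' : SL(2, ℤ)) • τ).re = ((γ : SL(2, ℤ)) • τ).re + k := by rw [h6, T_zpow_re]
    obtain ⟨ha, hb⟩ := hγ
    obtain ⟨hc, hd⟩ := hγ'
    have h8 : (k : ℝ) < M := by linarith
    have h9 : -(M : ℝ) < k := by linarith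
    have h10 : k = 0 := by
      have h8' : k < M := by exact_mod_cast h8
      have h9' : -(M : ℤ) < k := by exact_mod_cast h9
      obtain ⟨t, ht⟩ := hkM
      rw [ht] at h8' h9' ⊢
      have hMp : (0 : ℤ) < M := by omega
      have : t < 1 := by nlinarith
      have : -1 < t := by nlinarith
      have : t = 0 := by omega
      rw [this, mul_zero]
    rw [h10, zpow_zero] at h5
    have h11 : (γ' : SL(2, ℤ)) = γ := by
      rw [hδ] at h5
      exact mul_inv_eq_one.mp h5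
    apply Subtype.ext
    exact Subtype.ext h11.symm
  · rintro ⟨⟨c, d⟩, hg, hc, hd⟩
    simp only at hg hc hd
    obtain ⟨g0, -, hg0⟩ := ModularGroup.bottom_row_surj (R := ℤ)
      (show (![c, d] : Fin 2 → ℤ) ∈ {cd | IsCoprime (cd 0) (cd 1)} by
        simp only [Set.mem_ofPred_eq, Matrix.cons_val_zero, Matrix.cons_val_one]
        exact Int.isCoprime_iff_gcd_eq_one.mpr hg)
    have e10 : g0 1 0 = c := by have := congrFun hg0 0; simpa using this
    have e11 : g0 1 1 = d := by have := congrFun hg0 1; simpa using this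
    have hdet : g0 0 0 * g0 1 1 - g0 0 1 * g0 1 0 = 1 := by
      have := g0.2; rw [Matrix.det_fin_two] at this; exact this
    -- entries of `T^k g0`
    have hT : ∀ (k : ℤ) (g : SL(2, ℤ)), (ModularGroup.T ^ k * g) 0 0 = g 0 0 + k * g 1 0 ∧
        (ModularGroup.T ^ k * g) 0 1 = g 0 1 + k * g 1 1 ∧
        (ModularGroup.T ^ k * g) 1 0 = g 1 0 ∧ (ModularGroup.T ^ k * g) 1 1 = g 1 1 := by
      intro k g
      have e : ((ModularGroup.T ^ k * g : SL(2, ℤ)) : Matrix (Fin 2) (Fin 2) ℤ) =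
          !![1, k; 0, 1] * (g : Matrix (Fin 2) (Fin 2) ℤ) := by
        rw [Matrix.SpecialLinearGroup.coe_mul, ModularGroup.coe_T_zpow]
      refine ⟨?_, ?_, ?_, ?_⟩ <;> rw [e] <;> simp [Matrix.mul_apply, Fin.sum_univ_two]
    set g1 := ModularGroup.T ^ (-g0 0 1) * g0 with hg1
    obtain ⟨f00, f01, f10, f11⟩ := hT (-g0 0 1) g0
    have hg1M : g1 ∈ Gamma M := by
      rw [mem_Gamma_iff, hg1, f00, f01, f10, f11, e10, e11]
      obtain ⟨u, hu⟩ := hc
      obtain ⟨v, hv⟩ := hd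
      rw [e10, e11] at hdet
      have hd' : d = 1 + M * v := by linarith
      refine ⟨?_, ?_, ⟨u, hu⟩, ⟨v, hv⟩⟩
      · refine ⟨-(g0 0 0) * v, ?_⟩
        rw [hd'] at hdet
        linear_combination hdet
      · exact ⟨-(g0 0 1) * v, by rw [hd']; ring⟩
    obtain ⟨j, hj, -⟩ := existsUnique_add_zsmul_mem_Ioc hM0 (g1 • τ).re 0
    obtain ⟨f00', f01', f10', f11'⟩ := hT (j * M) g1
    have hg2M : ModularGroup.T ^ (j * (M : ℤ)) * g1 ∈ Gamma M := by
      apply mul_mem _ hg1M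
      rw [mem_Gamma_iff, ModularGroup.coe_T_zpow]
      simp
    refine ⟨⟨⟨ModularGroup.T ^ (j * (M : ℤ)) * g1, hg2M⟩, ?_⟩, ?_⟩
    · change (ModularGroup.T ^ (j * (M : ℤ)) * g1) • τ ∈ strip M
      rw [mul_smul]
      have h12 : ((ModularGroup.T ^ (j * (M : ℤ)) : SL(2, ℤ)) • (g1 • τ)).re =
          (g1 • τ).re + j • (M : ℝ) := by
        rw [T_zpow_re]; push_cast; simp
      constructor
      · rw [h12]; exact hj.1
      · rw [h12]; have := hj.2; rwa [zero_add] at this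
    · apply Subtype.ext
      simp only [rowMap]
      rw [f10', f11', hg1, f10, f11, e10, e11]

open Classical in
theorem summable_EE {s : ℝ} (h1 : 1 < s) (h2 : s ≤ 2) {M : ℕ} (τ : ℍ) :
    Summable fun p : ℤ × ℤ => if p ∈ PR M then tt s τ p else 0 := by
  have h := summable_GG (x := τ.re) h1 h2 τ.im_pos (M := 1) one_ne_zero 0 0
  simp only [Nat.cast_one, one_mul, zero_add] at h
  refine Summable.of_nonneg_of_le (fun p => ?_) (fun p => ?_) h
  · split_ifs
    · exact tt_nonneg _ _ _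
    · exact le_rfl
  · split_ifs
    · exact le_rfl
    · exact trm_nonneg τ.im_pos _ _

include hM in
theorem hasSum_strip {s : ℝ} (h1 : 1 < s) (h2 : s ≤ 2) :
    HasSum (fun γ : Gamma M => (strip M).indicator (fun τ' => τ'.im ^ s) ((γ : SL(2, ℤ)) • τ))
      (EE M s τ) := by
  classical
  have h3 : HasSum (fun p : ℤ × ℤ => (PR M).indicator (tt s τ) p) (EE M s τ) := by
    have := (summable_EE h1 h2 (M := M) τ).hasSum
    convert this using 1
    · funext p
      rw [Set.indicator_apply]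
    · rw [EE]
  rw [← hasSum_subtype_iff_indicator] at h3
  let e := Equiv.ofBijective (rowMap M τ) (rowMap_bijective hM τ)
  rw [← e.hasSum_iff] at h3
  have h4 : (fun γ : Gamma M => (strip M).indicator (fun τ' => τ'.im ^ s) ((γ : SL(2, ℤ)) • τ)) =
      (Sset M τ).indicator (fun γ : Gamma M => ((γ : SL(2, ℤ)) • τ).im ^ s) := by
    funext γ
    rw [Set.indicator_apply, Set.indicator_apply]
    rfl
  rw [h4, ← hasSum_subtype_iff_indicator]
  convert h3 using 1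
  funext γ
  simp only [Function.comp_apply]
  exact (tt_row s τ _).symm

end

section bound

variable {M : ℕ} (hM : 3 ≤ M) {F : ℍ → ℂ} (hF : Measurable F)
  (hinv : ∀ γ ∈ Gamma M, ∀ τ : ℍ, F (γ • τ) = F τ) {C1 : ℝ}
  (hdec : ∀ (τ : ℍ) (g : SL(2, ℤ)), ‖F τ‖ * (g • τ).im ^ 2 ≤ C1)
  {w : ℍ → ℝ≥0∞} (hw : IsWtS (Gamma M) w)

/-- the integrand of the Mellin transform -/
noncomputable def hS (M : ℕ) (F : ℍ → ℂ) (s : ℝ) (τ : ℍ) : ℂ :=
  (((strip M).indicator (fun τ' : ℍ => τ'.im ^ s) τ : ℝ) : ℂ) * F τ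

include hF in
theorem measurable_hS (s : ℝ) : Measurable (hS M F s) := by
  have h1 : Measurable fun τ : ℍ => τ.im ^ s :=
    (UpperHalfPlane.continuous_im.measurable).pow_const s
  exact (Complex.measurable_ofReal.comp (h1.indicator (measurableSet_strip M))).mul hF

theorem exists_high (τ : ℍ) : ∃ g : SL(2, ℤ), 1 / 2 ≤ (g • τ).im := by
  obtain ⟨g, hg⟩ := ModularGroup.exists_smul_mem_fd τ
  refine ⟨g, ?_⟩
  have := ModularGroup.three_le_four_mul_im_sq_of_mem_fd hg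
  by_contra hlt
  push Not at hlt
  have := (g • τ).im_pos
  nlinarith

include hdec in
theorem F_le (τ : ℍ) : ‖F τ‖ ≤ 4 * C1 := by
  obtain ⟨g, hg⟩ := exists_high τ
  have h1 := hdec τ g
  have h2 : (1 / 4 : ℝ) ≤ (g • τ).im ^ 2 := by nlinarith
  nlinarith [norm_nonneg (F τ)]

theorem EE_nonneg (s : ℝ) (τ : ℍ) : 0 ≤ EE M s τ := by
  unfold EE
  refine tsum_nonneg fun p => ?_
  split_ifs
  · exact tt_nonneg _ _ _
  · exact le_rfl

include hM hF hinv hdec hw in
/-- **Bound for the Mellin transform of the constant term.** -/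
theorem strip_bound (hzero : ∫ τ : ℍ, ((w τ).toReal : ℂ) * F τ = 0) : ∃ C : ℝ,
    ∀ s : ℝ, 1 < s → s ≤ 2 → (∫⁻ τ, ‖hS M F s τ‖ₑ ≠ ⊤) ∧ ‖∫ τ, hS M F s τ‖ ≤ C := by
  obtain ⟨CE, hCE0, hCE⟩ := EE_asymp (M := M) (by omega)
  have hC10 : 0 ≤ C1 := by
    have h := hdec I 1
    exact (mul_nonneg (norm_nonneg _) (sq_nonneg _)).trans h
  have hdiff : ∀ s : ℝ, 1 < s → s ≤ 2 → ∀ τ, ‖F τ‖ * |EE M s τ - JJ M s * ZP M s| ≤ CE * C1 := by
    intro s h1 h2 τ
    obtain ⟨g, hg⟩ := exists_high τ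
    calc ‖F τ‖ * |EE M s τ - JJ M s * ZP M s| ≤ ‖F τ‖ * (CE * (g • τ).im ^ 2) :=
          mul_le_mul_of_nonneg_left (hCE s τ g h1 h2 hg) (norm_nonneg _)
      _ = CE * (‖F τ‖ * (g • τ).im ^ 2) := by ring
      _ ≤ CE * C1 := mul_le_mul_of_nonneg_left (hdec τ g) hCE0
  have hwint : Integrable fun τ : ℍ => (w τ).toReal :=
    integrable_toReal_of_lintegral_ne_top hw.meas.aemeasurable hw.lint.ne
  have hwF : Integrable fun τ : ℍ => ((w τ).toReal : ℂ) * F τ := by
    refine (hwint.const_mul (4 * C1)).mono' ?_ (Eventually.of_forall fun τ => ?_)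
    · exact ((Complex.measurable_ofReal.comp hw.meas.ennreal_toReal).mul hF).aestronglyMeasurable
    · rw [norm_mul, Complex.norm_real, Real.norm_of_nonneg ENNReal.toReal_nonneg, mul_comm]
      exact mul_le_mul_of_nonneg_right (F_le hdec τ) ENNReal.toReal_nonneg
  refine ⟨CE * C1 * ∫ τ, (w τ).toReal, fun s h1 h2 => ?_⟩
  have hsum := fun τ => hasSum_strip hM τ h1 h2
  -- the sum over the group
  have hS1 : ∀ τ, ∑' γ : Gamma M, hS M F s ((γ : SL(2, ℤ)) • τ) = (EE M s τ : ℂ) * F τ := by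
    intro τ
    have e1 : ∀ γ : Gamma M, hS M F s ((γ : SL(2, ℤ)) • τ) =
        (((strip M).indicator (fun τ' : ℍ => τ'.im ^ s) ((γ : SL(2, ℤ)) • τ) : ℝ) : ℂ) * F τ := by
      intro γ
      rw [hS, hinv γ γ.2]
    simp only [e1]
    rw [tsum_mul_right, ← Complex.ofReal_tsum, (hsum τ).tsum_eq]
  have hS2 : ∀ τ, ∑' γ : Gamma M, ‖hS M F s ((γ : SL(2, ℤ)) • τ)‖ₑ =
      ENNReal.ofReal (EE M s τ) * ‖F τ‖ₑ := by
    intro τ
    have e1 : ∀ γ : Gamma M, ‖hS M F s ((γ : SL(2, ℤ)) • τ)‖ₑ =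
        ENNReal.ofReal ((strip M).indicator (fun τ' : ℍ => τ'.im ^ s) ((γ : SL(2, ℤ)) • τ)) *
          ‖F τ‖ₑ := by
      intro γ
      rw [hS, hinv γ γ.2, enorm_mul]
      congr 1
      rw [← ofReal_norm, Complex.norm_real, Real.norm_of_nonneg]
      exact Set.indicator_nonneg (fun τ' _ => Real.rpow_nonneg τ'.im_pos.le _) _
    simp only [e1]
    rw [ENNReal.tsum_mul_right, ← ENNReal.ofReal_tsum_of_nonneg _ (hsum τ).summable,
      (hsum τ).tsum_eq]
    intro γ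
    exact Set.indicator_nonneg (fun τ' _ => Real.rpow_nonneg τ'.im_pos.le _) _
  have hfin : ∫⁻ τ, ‖hS M F s τ‖ₑ ≠ ⊤ := by
    rw [← lintegral_unfold hw (measurable_hS hF s).enorm]
    simp only [hS2]
    set D := 4 * C1 * |JJ M s * ZP M s| + CE * C1 with hD
    have h3 : ∀ τ, w τ * (ENNReal.ofReal (EE M s τ) * ‖F τ‖ₑ) ≤ ENNReal.ofReal D * w τ := by
      intro τ
      rw [mul_comm (w τ)]
      gcongr
      rw [← ofReal_norm, ← ENNReal.ofReal_mul (EE_nonneg s τ)]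
      apply ENNReal.ofReal_le_ofReal
      have h4 := hdiff s h1 h2 τ
      have h5 := F_le hdec τ
      have h6 : EE M s τ ≤ |EE M s τ - JJ M s * ZP M s| + |JJ M s * ZP M s| := by
        have := le_abs_self (EE M s τ - JJ M s * ZP M s)
        have := le_abs_self (JJ M s * ZP M s)
        linarith
      calc EE M s τ * ‖F τ‖ ≤ (|EE M s τ - JJ M s * ZP M s| + |JJ M s * ZP M s|) * ‖F τ‖ :=
            mul_le_mul_of_nonneg_right h6 (norm_nonneg _)
        _ = ‖F τ‖ * |EE M s τ - JJ M s * ZP M s| + ‖F τ‖ * |JJ M s * ZP M s| := by ring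
        _ ≤ CE * C1 + 4 * C1 * |JJ M s * ZP M s| :=
            add_le_add h4 (mul_le_mul_of_nonneg_right h5 (abs_nonneg _))
        _ = D := by rw [hD]; ring
    refine ne_top_of_le_ne_top ?_ (lintegral_mono h3)
    rw [lintegral_const_mul _ hw.meas]
    exact ENNReal.mul_ne_top ENNReal.ofReal_ne_top hw.lint.ne
  refine ⟨hfin, ?_⟩
  rw [← integral_unfold hw (measurable_hS hF s) hfin]
  simp only [hS1]
  have e2 : ∫ τ, ((w τ).toReal : ℂ) * ((EE M s τ : ℂ) * F τ) =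
      ∫ τ, ((w τ).toReal : ℂ) * (((EE M s τ - JJ M s * ZP M s : ℝ) : ℂ) * F τ) := by
    have e3 : ∀ τ, ((w τ).toReal : ℂ) * (((EE M s τ - JJ M s * ZP M s : ℝ) : ℂ) * F τ) =
        ((w τ).toReal : ℂ) * ((EE M s τ : ℂ) * F τ) -
          ((JJ M s * ZP M s : ℝ) : ℂ) * (((w τ).toReal : ℂ) * F τ) := by
      intro τ; push_cast; ring
    simp only [e3]
    have hint : Integrable fun τ => ((w τ).toReal : ℂ) * ((EE M s τ : ℂ) * F τ) := by
      set D := 4 * C1 * |JJ M s * ZP M s| + CE * C1 with hD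
      have hmE : Measurable fun τ => (EE M s τ : ℂ) * F τ := by
        have : (fun τ => (EE M s τ : ℂ) * F τ) = fun τ => ∑' γ : Gamma M,
            hS M F s ((γ : SL(2, ℤ)) • τ) := by
          funext τ; rw [hS1]
        rw [this]
        exact Measurable.tsum fun γ => (measurable_hS hF s).comp (measurable_SL _)
      refine (hwint.const_mul D).mono' ?_ (Eventually.of_forall fun τ => ?_)
      · exact ((Complex.measurable_ofReal.comp hw.meas.ennreal_toReal).mul hmE).aestronglyMeasurable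
      · rw [norm_mul, Complex.norm_real, Real.norm_of_nonneg ENNReal.toReal_nonneg, mul_comm]
        apply mul_le_mul_of_nonneg_right _ ENNReal.toReal_nonneg
        rw [norm_mul, Complex.norm_real, Real.norm_of_nonneg (EE_nonneg s τ)]
        have h4 := hdiff s h1 h2 τ
        have h5 := F_le hdec τ
        have h6 : EE M s τ ≤ |EE M s τ - JJ M s * ZP M s| + |JJ M s * ZP M s| := by
          have := le_abs_self (EE M s τ - JJ M s * ZP M s)
          have := le_abs_self (JJ M s * ZP M s)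
          linarith
        calc EE M s τ * ‖F τ‖ ≤ (|EE M s τ - JJ M s * ZP M s| + |JJ M s * ZP M s|) * ‖F τ‖ :=
              mul_le_mul_of_nonneg_right h6 (norm_nonneg _)
          _ = ‖F τ‖ * |EE M s τ - JJ M s * ZP M s| + ‖F τ‖ * |JJ M s * ZP M s| := by ring
          _ ≤ CE * C1 + 4 * C1 * |JJ M s * ZP M s| :=
              add_le_add h4 (mul_le_mul_of_nonneg_right h5 (abs_nonneg _))
          _ = D := by rw [hD]; ring
    rw [integral_sub hint (hwF.const_mul _), integral_const_mul, hzero, mul_zero, sub_zero]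
  rw [e2]
  calc ‖∫ τ, ((w τ).toReal : ℂ) * (((EE M s τ - JJ M s * ZP M s : ℝ) : ℂ) * F τ)‖
      ≤ ∫ τ, (w τ).toReal * (CE * C1) := by
        refine norm_integral_le_of_norm_le (hwint.mul_const _) (Eventually.of_forall fun τ => ?_)
        rw [norm_mul, Complex.norm_real, Real.norm_of_nonneg ENNReal.toReal_nonneg, norm_mul,
          Complex.norm_real, Real.norm_eq_abs, mul_comm |_|]
        exact mul_le_mul_of_nonneg_left (hdiff s h1 h2 τ) ENNReal.toReal_nonneg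
    _ = CE * C1 * ∫ τ, (w τ).toReal := by rw [integral_mul_const, mul_comm]

end bound

end Fermat.Agent.LT.RS
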