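import Mathlib
import Fermat.Agent.LT.RS.Comb2
import Fermat.Agent.LT.RS.Strip

/-!
# The restriction of the form to a plane: invariance and decay
-/

set_option autoImplicit false
set_option linter.unusedSectionVars false

open NumberField Finset MeasureTheory Filter Topology UpperHalfPlane
open scoped MatrixGroups

namespace Fermat.Agent.LT.RS

open Fermat.Agent.LT.Asai

variable {K : Type*} [Field K] [NumberField K] [IsCyclotomicExtension {3} ℚ K]

local notation "α" => algebraMap (𝓞 K) K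

/-- the real plane in `ℍ³` -/
noncomputable def pj (τ : ℍ) : H3 := ⟨τ.re, τ.im, τ.im_pos⟩

/-- the point of the plane `z = α x + β` -/
noncomputable def ppt (i : K →+* ℂ) (al be : K) (hal : al ≠ 0) (τ : ℍ) : H3 :=
  ⟨i al * τ.re + i be, ‖i al‖ * τ.im,
    mul_pos (norm_pos_iff.mpr ((map_ne_zero i).mpr hal)) τ.im_pos⟩

theorem plane_eq (i : K →+* ℂ) (φ : H3 → ℂ) (al be : K) (hal : al ≠ 0) (τ : ℍ) :
    plane i φ al be hal τ = φ (ppt i al be hal τ) := rfl

theorem ppt_q (i : K →+* ℂ) (al be : K) (hal : al ≠ 0) (τ : ℍ) (c d : ℂ) :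
    (ppt i al be hal τ).q c d = (pj τ).q (c * i al) (c * i be + d) / ‖i al‖ := by
  have h1 : ‖i al‖ ≠ 0 := norm_ne_zero_iff.mpr ((map_ne_zero i).mpr hal)
  have h2 : τ.im ≠ 0 := τ.im_pos.ne'
  rw [H3.q, H3.q, H3.den, H3.den]
  have e1 : (ppt i al be hal τ).z = i al * τ.re + i be := rfl
  have e2 : (ppt i al be hal τ).y = ‖i al‖ * τ.im := rfl
  have e3 : (pj τ).z = τ.re := rfl
  have e4 : (pj τ).y = τ.im := rfl
  rw [e1, e2, e3, e4]
  have e5 : c * (i al * τ.re + i be) + d = c * i al * τ.re + (c * i be + d) := by ring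
  rw [e5, norm_mul c (i al), div_div]
  have e6 : ‖c‖ ^ 2 * (‖i al‖ * τ.im) ^ 2 = (‖c‖ * ‖i al‖) ^ 2 * τ.im ^ 2 := by ring
  rw [e6, mul_comm ‖i al‖ τ.im]

theorem slz_im (γ : SL(2, ℤ)) (τ : ℍ) :
    (γ • τ).im = τ.im / ‖(γ 1 0 : ℂ) * τ + γ 1 1‖ ^ 2 := by
  rw [ModularGroup.im_smul_eq_div_normSq, Complex.normSq_eq_norm_sq]
  rfl

theorem slz_re (γ : SL(2, ℤ)) (τ : ℍ) :
    ((γ • τ : ℍ) : ℂ) = ((γ 0 0 : ℂ) * τ + γ 0 1) / ((γ 1 0 : ℂ) * τ + γ 1 1) := by
  rw [UpperHalfPlane.specialLinearGroup_apply]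
  simp

/-- equivariance of the real plane -/
theorem pj_q_smul (γ : SL(2, ℤ)) (τ : ℍ) (u v : ℂ) :
    (pj (γ • τ)).q u v =
      (pj τ).q (u * γ 0 0 + v * γ 1 0) (u * γ 0 1 + v * γ 1 1) := by
  set G : GL (Fin 2) ℂ := Matrix.GeneralLinearGroup.map (Int.castRingHom ℂ)
    (Matrix.SpecialLinearGroup.toGL γ) with hG
  have e : ∀ r s, G r s = (γ r s : ℂ) := fun r s => rfl
  have hdet : ((G : GL (Fin 2) ℂ) : Matrix (Fin 2) (Fin 2) ℂ).det = 1 := by
    have h1 : ((γ : Matrix (Fin 2) (Fin 2) ℤ)).det = 1 := γ.2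
    rw [Matrix.det_fin_two, e, e, e, e]
    rw [Matrix.det_fin_two] at h1
    exact_mod_cast h1
  have hmain : pj (γ • τ) = G • pj τ := by
    have hden : (pj τ).den (G 1 0) (G 1 1) = ‖(γ 1 0 : ℂ) * τ + γ 1 1‖ ^ 2 := by
      rw [H3.den, e, e]
      have e3 : (pj τ).z = τ.re := rfl
      have e4 : (pj τ).y = τ.im := rfl
      have e5 : (τ : ℂ) = τ.re + τ.im * Complex.I := (Complex.re_add_im _).symm
      rw [e3, e4, e5]
      simp only [Complex.sq_norm, Complex.normSq_apply, Complex.add_re, Complex.add_im,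
        Complex.mul_re, Complex.mul_im, Complex.intCast_re, Complex.intCast_im,
        Complex.ofReal_re, Complex.ofReal_im, Complex.I_re, Complex.I_im]
      ring
    have hnz : (γ 1 0 : ℂ) * τ + γ 1 1 ≠ 0 := by
      have := UpperHalfPlane.denom_ne_zero γ τ
      simpa [UpperHalfPlane.denom] using this
    apply H3.ext
    · rw [H3.smul_z, hden]
      have e3 : (pj τ).z = τ.re := rfl
      have e4 : (pj τ).y = τ.im := rfl
      have e6 : (pj (γ • τ)).z = (((γ • τ : ℍ) : ℂ).re : ℂ) := rfl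
      have e5 : (τ : ℂ) = τ.re + τ.im * Complex.I := (Complex.re_add_im _).symm
      have hnum : (pj τ).num (G 0 0) (G 0 1) (G 1 0) (G 1 1) =
          (((((γ 0 0 : ℂ) * τ + γ 0 1) * (starRingEnd ℂ) ((γ 1 0 : ℂ) * τ + γ 1 1)).re : ℝ) : ℂ) := by
        rw [H3.num, e, e, e, e, e3, e4, e5]
        apply Complex.ext
        · simp [← Complex.ofReal_pow]
          ring
        · simp [← Complex.ofReal_pow]
      rw [hnum, e6, slz_re]
      rw [← Complex.ofReal_div]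
      congr 1
      rw [Complex.sq_norm, div_eq_mul_inv ((γ 0 0 : ℂ) * τ + γ 0 1), Complex.inv_def, ← mul_assoc,
        Complex.re_mul_ofReal]
      rw [div_eq_mul_inv]
    · rw [H3.smul_y, hdet, norm_one, one_mul, hden]
      exact slz_im γ τ
  rw [hmain, H3.q_smul_eq, hdet, norm_one, div_one, e, e, e, e]

/-- common denominators -/
structure Den (m0 : ℕ) (al be : K) : Prop where
  pos : 0 < m0
  h1 : ∃ y : 𝓞 K, α y = m0 * al
  h2 : ∃ y : 𝓞 K, α y = m0 * al⁻¹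
  h3 : ∃ y : 𝓞 K, α y = m0 * be
  h4 : ∃ y : 𝓞 K, α y = m0 * (be * al⁻¹)
  h5 : ∃ y : 𝓞 K, α y = m0 * (be ^ 2 * al⁻¹)

theorem exists_den {ι : Type*} [Fintype ι] (al : K) (be : ι → K) :
    ∃ m0 : ℕ, ∀ j, Den m0 al (be j) ∨ IsEmpty ι := by
  classical
  set s : Finset K := Finset.univ.biUnion fun j : ι =>
    {al, al⁻¹, be j, be j * al⁻¹, be j ^ 2 * al⁻¹} with hs
  obtain ⟨y, hy, hint⟩ := exists_integral_multiples ℤ ℚ (L := K) s
  have hmem : ∀ j, ∀ x ∈ ({al, al⁻¹, be j, be j * al⁻¹, be j ^ 2 * al⁻¹} : Finset K),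
      ∃ z : 𝓞 K, α z = (y.natAbs : K) * x := by
    intro j x hx
    have h1 := hint x (Finset.mem_biUnion.mpr ⟨j, Finset.mem_univ _, hx⟩)
    rcases Int.natAbs_eq y with h | h
    · refine ⟨⟨y • x, h1⟩, ?_⟩
      show y • x = _
      rw [zsmul_eq_mul]
      congr 1
      conv_lhs => rw [h]
      exact Int.cast_natCast _
    · refine ⟨⟨-(y • x), h1.neg⟩, ?_⟩
      show -(y • x) = _
      rw [zsmul_eq_mul, ← neg_mul]
      congr 1
      conv_lhs => rw [h]
      rw [Int.cast_neg, neg_neg]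
      exact Int.cast_natCast _
  refine ⟨y.natAbs, fun j => Or.inl ⟨Int.natAbs_pos.mpr hy, ?_, ?_, ?_, ?_, ?_⟩⟩ <;>
  · apply hmem j
    simp

section

variable {i : K →+* ℂ} {N : ℕ} {φ : H3 → ℂ} {a : K → ℂ} {κ : 𝓞 K → ℂ} {lam : 𝓞 K → ℝ}
  {B : ℝ → ℝ} (F : KForm i N φ a κ lam B) {m0 : ℕ} {al be : K} (hD : Den m0 al be) (hal : al ≠ 0)

include F in
theorem measurable_plane : Measurable (plane i φ al be hal) := by
  have h1 : Measurable fun τ : ℍ => (((i al * τ.re + i be : ℂ),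
      (⟨‖i al‖ * τ.im, mul_pos (norm_pos_iff.mpr ((map_ne_zero i).mpr hal)) τ.im_pos⟩ :
        {y : ℝ // 0 < y})) : ℂ × {y : ℝ // 0 < y}) := by
    have hre : Measurable fun τ : ℍ => τ.re := UpperHalfPlane.continuous_re.measurable
    have him : Measurable fun τ : ℍ => τ.im := UpperHalfPlane.continuous_im.measurable
    refine Measurable.prodMk ?_ ?_
    · exact ((Complex.measurable_ofReal.comp hre).const_mul _).add_const _
    · exact (him.const_mul _).subtype_mk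
  exact F.meas.comp h1

include F hD in
theorem plane_inv {M : ℕ} (hM : N * m0 ∣ M) : ∀ γ ∈ CongruenceSubgroup.Gamma M, ∀ τ : ℍ,
    plane i φ al be hal (γ • τ) = plane i φ al be hal τ := by
  intro γ hγ τ
  obtain ⟨q, rfl⟩ := hM
  rw [mem_Gamma_iff] at hγ
  obtain ⟨⟨c00, h00⟩, ⟨c01, h01⟩, ⟨c10, h10⟩, ⟨c11, h11⟩⟩ := hγ
  obtain ⟨y1, hy1⟩ := hD.h1
  obtain ⟨y2, hy2⟩ := hD.h2
  obtain ⟨y3, hy3⟩ := hD.h3
  obtain ⟨y4, hy4⟩ := hD.h4
  obtain ⟨y5, hy5⟩ := hD.h5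
  have hm0 : (m0 : K) ≠ 0 := by exact_mod_cast hD.pos.ne'
  -- the matrix
  set A : 𝓞 K := (m0 * q * c00 + q * c10 * y4 : 𝓞 K) with hA
  set B' : 𝓞 K := (q * c01 * y1 + q * (c11 - c00) * y3 - q * c10 * y5 : 𝓞 K) with hB'
  set C : 𝓞 K := (q * c10 * y2 : 𝓞 K) with hC
  set E : 𝓞 K := (m0 * q * c11 - q * c10 * y4 : 𝓞 K) with hE
  have g00 : (γ 0 0 : K) = 1 + N * m0 * q * c00 := by
    have : γ 0 0 = 1 + ((N * m0 * q : ℕ) : ℤ) * c00 := by linarith
    rw [this]; push_cast; ring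
  have g01 : (γ 0 1 : K) = N * m0 * q * c01 := by
    rw [h01]; push_cast; ring
  have g10 : (γ 1 0 : K) = N * m0 * q * c10 := by
    rw [h10]; push_cast; ring
  have g11 : (γ 1 1 : K) = 1 + N * m0 * q * c11 := by
    have : γ 1 1 = 1 + ((N * m0 * q : ℕ) : ℤ) * c11 := by linarith
    rw [this]; push_cast; ring
  have aA : α (1 + N * A) = γ 0 0 + be * al⁻¹ * γ 1 0 := by
    rw [hA, g00, g10]
    simp only [map_add, map_mul, map_one, map_natCast, map_intCast, hy4]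
    ring
  have aB : α (N * B') = al * γ 0 1 + be * (γ 1 1 - γ 0 0) - be ^ 2 * al⁻¹ * γ 1 0 := by
    rw [hB', g00, g10, g11, g01]
    simp only [map_add, map_sub, map_mul, map_one, map_natCast, map_intCast, hy1, hy3, hy5]
    ring
  have aC : α (N * C) = al⁻¹ * γ 1 0 := by
    rw [hC, g10]
    simp only [map_mul, map_natCast, map_intCast, hy2]
    ring
  have aE : α (1 + N * E) = γ 1 1 - be * al⁻¹ * γ 1 0 := by
    rw [hE, g11, g10]
    simp only [map_add, map_sub, map_mul, map_one, map_natCast, map_intCast, hy4]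
    ring
  have hdetγ : (γ 0 0 : K) * γ 1 1 - γ 0 1 * γ 1 0 = 1 := by
    have h1 := γ.2
    rw [Matrix.det_fin_two] at h1
    exact_mod_cast h1
  have hdet : (1 + N * A) * (1 + N * E) - (N * B') * (N * C) = 1 := by
    apply IsFractionRing.injective (𝓞 K) K
    rw [map_sub, map_mul, map_mul (algebraMap (𝓞 K) K) (N * B'), aA, aB, aC, aE, map_one,
      ← hdetγ]
    field_simp
    ring
  set g : SL(2, 𝓞 K) := ⟨!![1 + N * A, N * B'; N * C, 1 + N * E], by
    rw [Matrix.det_fin_two_of]; exact hdet⟩ with hg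
  have hinv := F.inv g (by
    intro r s
    fin_cases r <;> fin_cases s
    · exact ⟨A, by simp [hg]⟩
    · exact ⟨B', by simp [hg]⟩
    · exact ⟨C, by simp [hg]⟩
    · exact ⟨E, by simp [hg]⟩) (ppt i al be hal τ)
  rw [plane_eq, plane_eq, ← hinv]
  congr 1
  apply H3.ext_q
  intro u v
  have e00 : slC i g 0 0 = i (α (1 + N * A)) := rfl
  have e01 : slC i g 0 1 = i (α (N * B')) := rfl
  have e10 : slC i g 1 0 = i (α (N * C)) := rfl
  have e11 : slC i g 1 1 = i (α (1 + N * E)) := rfl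
  have hdetC : ((slC i g : GL (Fin 2) ℂ) : Matrix (Fin 2) (Fin 2) ℂ).det = 1 := by
    rw [Matrix.det_fin_two, e00, e01, e10, e11, ← map_mul, ← map_mul, ← map_mul, ← map_mul,
      ← map_sub, ← map_sub, hdet, map_one, map_one]
  have hial : i al ≠ 0 := (map_ne_zero i).mpr hal
  rw [H3.q_smul_eq, hdetC, norm_one, div_one, ppt_q, ppt_q, pj_q_smul, e00, e01, e10, e11,
    aA, aB, aC, aE]
  simp only [map_add, map_sub, map_mul, map_inv₀, map_intCast, map_pow]
  congr 2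
  · field_simp
    ring
  · field_simp
    ring

include F hD in
theorem plane_decay : ∃ C : ℝ, ∀ (τ : ℍ) (g : SL(2, ℤ)),
    ‖plane i φ al be hal τ‖ * (g • τ).im ^ 2 ≤ C := by
  obtain ⟨C, hC⟩ := F.decay
  obtain ⟨y2, hy2⟩ := hD.h2
  obtain ⟨y4, hy4⟩ := hD.h4
  have hm0 : (m0 : K) ≠ 0 := by exact_mod_cast hD.pos.ne'
  have hial : i al ≠ 0 := (map_ne_zero i).mpr hal
  refine ⟨C * ((m0 : ℝ) ^ 2 / ‖i al‖) ^ 2, fun τ g => ?_⟩
  have hrow : (g 1 0 : ℤ) ≠ 0 ∨ (g 1 1 : ℤ) ≠ 0 := by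
    by_contra hcon
    push Not at hcon
    have h1 := g.2
    rw [Matrix.det_fin_two, hcon.1, hcon.2] at h1
    simp at h1
  set u : 𝓞 K := (g 1 0 : 𝓞 K) * y2 with hu
  set v : 𝓞 K := m0 * (g 1 1 : 𝓞 K) - (g 1 0 : 𝓞 K) * y4 with hv
  have au : io i u = m0 * (g 1 0 : ℂ) * (i al)⁻¹ := by
    have h1 : io i u = i (α u) := rfl
    rw [h1, hu, map_mul, map_intCast, hy2]
    simp only [map_mul, map_inv₀, map_intCast, map_natCast]
    ring
  have av : io i v = m0 * (g 1 1 : ℂ) - m0 * (g 1 0 : ℂ) * (i be * (i al)⁻¹) := by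
    have h1 : io i v = i (α v) := rfl
    rw [h1, hv, map_sub, map_mul, map_mul, map_intCast, map_intCast, map_natCast, hy4]
    simp only [map_sub, map_mul, map_inv₀, map_intCast, map_natCast]
    ring
  have hmC : (m0 : ℂ) ≠ 0 := by exact_mod_cast hD.pos.ne'
  have huv : u ≠ 0 ∨ v ≠ 0 := by
    by_contra hcon
    push Not at hcon
    have h0 : io i (0 : 𝓞 K) = 0 := by simp [io]
    rw [hcon.1, h0] at au
    rw [hcon.2, h0] at av
    have h1 : (g 1 0 : ℂ) = 0 := by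
      rcases mul_eq_zero.mp au.symm with h | h
      · exact (mul_eq_zero.mp h).resolve_left hmC
      · exact absurd (inv_eq_zero.mp h) hial
    rw [h1] at av
    have h2 : (g 1 1 : ℂ) = 0 := by
      simp at av
      rcases av with h | h
      · exact absurd h hD.pos.ne'
      · exact_mod_cast h
    rcases hrow with h | h
    · exact h (by exact_mod_cast h1)
    · exact h (by exact_mod_cast h2)
  have h1 := hC (ppt i al be hal τ) u v huv
  rw [ppt_q, au, av] at h1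
  have e1 : (m0 : ℂ) * (g 1 0 : ℂ) * (i al)⁻¹ * i al = m0 * (g 1 0 : ℂ) := by
    field_simp
  have e2 : (m0 : ℂ) * (g 1 0 : ℂ) * (i al)⁻¹ * i be + (m0 * (g 1 1 : ℂ) -
      m0 * (g 1 0 : ℂ) * (i be * (i al)⁻¹)) = m0 * (g 1 1 : ℂ) := by
    ring
  rw [e1, e2, H3.q_smul] at h1
  have him : (g • τ).im = 1 / (pj τ).q (g 1 0) (g 1 1) := by
    have h3 := pj_q_smul g τ 0 1
    rw [H3.q_zero_one] at h3
    simp only [zero_mul, one_mul, zero_add] at h3
    rw [← h3]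
    simp [pj]
  have hqpos : 0 < (pj τ).q (g 1 0) (g 1 1) := by
    apply H3.q_pos
    rcases hrow with h | h
    · left; exact_mod_cast h
    · right; exact_mod_cast h
  rw [plane_eq, him]
  have hn : ‖(m0 : ℂ)‖ = m0 := Complex.norm_natCast m0
  rw [hn] at h1
  calc ‖φ (ppt i al be hal τ)‖ * (1 / (pj τ).q (g 1 0) (g 1 1)) ^ 2
      ≤ (C * ((m0 : ℝ) ^ 2 * (pj τ).q (g 1 0) (g 1 1) / ‖i al‖) ^ 2) *
        (1 / (pj τ).q (g 1 0) (g 1 1)) ^ 2 := by gcongr
    _ = C * ((m0 : ℝ) ^ 2 / ‖i al‖) ^ 2 := by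
        field_simp

end

end Fermat.Agent.LT.RS
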