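import Mathlib

/-!
# Integrals over the upper half plane in coordinates
-/

set_option autoImplicit false

open MeasureTheory Filter Topology UpperHalfPlane Set
open scoped NNReal ENNReal

namespace Fermat.Agent.LT.RS

/-- `dx dy` on the half plane -/
noncomputable def muH : Measure (ℝ × ℝ) := (volume : Measure ℝ).prod (volume.restrict (Ioi 0))

/-- coordinates -/
noncomputable def crd (τ : ℍ) : ℝ × ℝ := (τ.re, τ.im)

theorem measurableEmbedding_crd : MeasurableEmbedding crd := by
  have : crd = Complex.measurableEquivRealProd ∘ UpperHalfPlane.coe := by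
    funext τ; rfl
  rw [this]
  exact Complex.measurableEquivRealProd.measurableEmbedding.comp measurableEmbedding_coe

theorem measurePreserving_crd :
    MeasurePreserving crd ((volume : Measure ℂ).comap UpperHalfPlane.coe) muH := by
  have h1 : MeasurePreserving UpperHalfPlane.coe ((volume : Measure ℂ).comap UpperHalfPlane.coe)
      (volume.restrict (.range UpperHalfPlane.coe)) :=
    ⟨measurable_coe, by rw [measurableEmbedding_coe.map_comap]⟩
  have h2 := Complex.volume_preserving_equiv_real_prod.restrict_preimage
    (s := (univ : Set ℝ) ×ˢ Ioi (0 : ℝ)) (MeasurableSet.univ.prod measurableSet_Ioi)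
  have h3 : Complex.measurableEquivRealProd ⁻¹' ((univ : Set ℝ) ×ˢ Ioi (0 : ℝ)) =
      Set.range UpperHalfPlane.coe := by
    ext z
    simp only [mem_preimage, mem_prod, mem_univ, true_and, mem_Ioi]
    constructor
    · intro h
      exact ⟨⟨z, h⟩, rfl⟩
    · rintro ⟨τ, rfl⟩
      exact τ.im_pos
  rw [h3] at h2
  have h4 : (volume : Measure (ℝ × ℝ)).restrict ((univ : Set ℝ) ×ˢ Ioi (0 : ℝ)) = muH := by
    rw [Measure.volume_eq_prod, ← Measure.prod_restrict, Measure.restrict_univ]
    rfl
  rw [h4] at h2
  exact h2.comp h1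

theorem measurable_dens : Measurable fun z : ℍ => ((1 / NNReal.mk z.im z.im_pos.le : ℝ≥0) ^ 2) := by
  refine Continuous.measurable ?_
  refine .pow (.div₀ continuous_const ?_ ?_) _
  · exact continuous_im.subtype_mk _
  · exact fun x ↦ NNReal.ne_iff.mp x.im_ne_zero

theorem integrable_crd {h : ℝ × ℝ → ℂ} :
    Integrable (fun τ : ℍ => h (crd τ)) ↔ Integrable (fun p => (p.2 ^ 2)⁻¹ • h p) muH := by
  rw [← measurePreserving_crd.integrable_comp_emb measurableEmbedding_crd, volume_def,
    integrable_withDensity_iff_integrable_smul measurable_dens]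
  refine iff_of_eq (congrArg (fun f => Integrable f (Measure.comap UpperHalfPlane.coe volume)) ?_)
  funext τ
  simp only [Function.comp_apply, crd, NNReal.smul_def]
  congr 1
  simp

theorem integral_crd (h : ℝ × ℝ → ℂ) :
    ∫ τ : ℍ, h (crd τ) = ∫ p, (p.2 ^ 2)⁻¹ • h p ∂muH := by
  rw [← measurePreserving_crd.integral_comp measurableEmbedding_crd, volume_def,
    integral_withDensity_eq_integral_smul measurable_dens]
  refine integral_congr_ae (Eventually.of_forall fun τ => ?_)
  simp only [crd, NNReal.smul_def]
  congr 1
  simp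

end Fermat.Agent.LT.RS
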