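import Mathlib
import Fermat.Agent.LT.RS.Strip
import Fermat.Agent.LT.RS.Coord

/-!
# Fubini for the Mellin transform over the strip
-/

set_option autoImplicit false

open MeasureTheory Filter Topology UpperHalfPlane Set
open scoped MatrixGroups ENNReal

namespace Fermat.Agent.LT.RS

open Fermat.Agent.LT.Asai

theorem integral_hS {M : ℕ} {F : ℍ → ℂ} (hF : Measurable F) {s : ℝ}
    (hfin : ∫⁻ τ, ‖hS M F s τ‖ₑ ≠ ⊤) (G : ℝ → ℝ → ℂ) (hG : ∀ τ : ℍ, F τ = G τ.re τ.im) :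
    IntegrableOn (fun y : ℝ => ((y ^ (s - 2) : ℝ) : ℂ) * ∫ x in Ioc (0 : ℝ) M, G x y) (Ioi 0) ∧
    ∫ τ, hS M F s τ =
      ∫ y in Ioi (0 : ℝ), ((y ^ (s - 2) : ℝ) : ℂ) * ∫ x in Ioc (0 : ℝ) M, G x y := by
  set h : ℝ × ℝ → ℂ := fun p => (Ioc (0 : ℝ) M).indicator (fun x => ((p.2 ^ s : ℝ) : ℂ) * G x p.2) p.1
    with hh
  have e1 : hS M F s = fun τ => h (crd τ) := by
    funext τ
    rw [hS, hh]
    simp only [crd, indicator_apply]
    have hiff : τ ∈ strip M ↔ τ.re ∈ Ioc (0 : ℝ) M := Iff.rfl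
    by_cases hm : τ ∈ strip M
    · rw [indicator_of_mem hm, if_pos (hiff.mp hm), hG τ]
    · rw [indicator_of_notMem hm, if_neg (fun hc => hm (hiff.mpr hc))]
      simp
  have hint : Integrable (fun τ : ℍ => h (crd τ)) := by
    rw [← e1]
    exact ⟨(measurable_hS hF s).aestronglyMeasurable, lt_top_iff_ne_top.mpr hfin⟩
  have h2 := integrable_crd.mp hint
  have h3 : ∀ y ∈ Ioi (0 : ℝ), (∫ x : ℝ, (((x, y) : ℝ × ℝ).2 ^ 2)⁻¹ • h (x, y)) =
      ((y ^ (s - 2) : ℝ) : ℂ) * ∫ x in Ioc (0 : ℝ) M, G x y := by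
    intro y hy
    have hy0 : (0 : ℝ) < y := hy
    have e2 : ∀ x : ℝ, (((x, y) : ℝ × ℝ).2 ^ 2)⁻¹ • h (x, y) =
        (Ioc (0 : ℝ) M).indicator (fun x => ((y ^ (s - 2) : ℝ) : ℂ) * G x y) x := by
      intro x
      simp only [hh, indicator_apply]
      split_ifs
      · have e3 : y ^ (s - 2) = (y ^ 2)⁻¹ * y ^ s := by
          rw [Real.rpow_sub hy0, Real.rpow_two]; field_simp
        rw [e3, Complex.real_smul]
        push_cast
        ring
      · simp
    simp only [e2]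
    rw [integral_indicator measurableSet_Ioc, integral_const_mul]
  constructor
  · have h4 := h2.swap.integral_prod_left
    refine (integrableOn_congr_fun (fun y hy => ?_) measurableSet_Ioi).mp h4
    exact h3 y hy
  · rw [e1, integral_crd, muH, integral_prod_symm _ h2]
    exact setIntegral_congr_fun measurableSet_Ioi h3

end Fermat.Agent.LT.RS
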