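import Mathlib
import Fermat.Agent.LT.RS.Def

/-!
# The Mellin transform of the Bessel factor
-/

set_option autoImplicit false

open MeasureTheory Filter Topology Set

namespace Fermat.Agent.LT.RS

variable {B : ℝ → ℝ} (hB : Bes B)

/-- the Mellin transform -/
noncomputable def GB (B : ℝ → ℝ) (s : ℝ) : ℝ := ∫ t in Ioi (0 : ℝ), t ^ (s - 1) * B t

include hB in
theorem Bes.aem : AEMeasurable B (volume.restrict (Ioi (0 : ℝ))) :=
  aemeasurable_restrict_of_antitoneOn measurableSet_Ioi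
    (fun x hx y _ hxy => hB.anti x y hx hxy)

include hB in
theorem Bes.integrableOn {s : ℝ} (h1 : 1 < s) (h2 : s ≤ 2) :
    IntegrableOn (fun t : ℝ => t ^ (s - 1) * B t) (Ioi 0) := by
  obtain ⟨C, hC⟩ := hB.bd
  have hm : AEStronglyMeasurable (fun t : ℝ => t ^ (s - 1) * B t) (volume.restrict (Ioi 0)) :=
    ((measurable_id.pow_const _).aemeasurable.mul hB.aem).aestronglyMeasurable
  rw [← Ioc_union_Ioi_eq_Ioi (zero_le_one (α := ℝ)), integrableOn_union]
  constructor
  · have hi : IntegrableOn (fun t : ℝ => C * t ^ (s - 3 / 2)) (Ioc 0 1) := by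
      have := (intervalIntegral.intervalIntegrable_rpow' (a := 0) (b := 1)
        (r := s - 3 / 2) (by linarith)).const_mul C
      rwa [intervalIntegrable_iff_integrableOn_Ioc_of_le zero_le_one] at this
    refine Integrable.mono' hi (hm.mono_measure (Measure.restrict_mono Ioc_subset_Ioi_self le_rfl))
      ((ae_restrict_iff' measurableSet_Ioc).mpr (Eventually.of_forall fun t ht => ?_))
    have ht0 : 0 < t := ht.1
    rw [Real.norm_of_nonneg (mul_nonneg (Real.rpow_nonneg ht0.le _) (hB.pos t ht0).le)]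
    have h3 := (hC t ht0).1
    have h4 : t ^ (s - 1) = t ^ (s - 3 / 2) * t ^ (1 / 2 : ℝ) := by
      rw [← Real.rpow_add ht0]; congr 1; ring
    rw [h4]
    calc t ^ (s - 3 / 2) * t ^ (1 / 2 : ℝ) * B t = t ^ (s - 3 / 2) * (B t * t ^ (1 / 2 : ℝ)) := by
          ring
      _ ≤ t ^ (s - 3 / 2) * C := mul_le_mul_of_nonneg_left h3 (Real.rpow_nonneg ht0.le _)
      _ = C * t ^ (s - 3 / 2) := mul_comm _ _
  · have hi : IntegrableOn (fun t : ℝ => C * t ^ (s - 5)) (Ioi 1) :=
      (integrableOn_Ioi_rpow_of_lt (by linarith) zero_lt_one).const_mul C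
    refine Integrable.mono' hi (hm.mono_measure
      (Measure.restrict_mono (Ioi_subset_Ioi zero_le_one) le_rfl))
      ((ae_restrict_iff' measurableSet_Ioi).mpr (Eventually.of_forall fun t ht => ?_))
    have ht0 : 0 < t := lt_trans zero_lt_one ht
    rw [Real.norm_of_nonneg (mul_nonneg (Real.rpow_nonneg ht0.le _) (hB.pos t ht0).le)]
    have h3 := (hC t ht0).2
    have h4 : t ^ (s - 1) = t ^ (s - 5) * t ^ 4 := by
      rw [← Real.rpow_natCast, ← Real.rpow_add ht0]; congr 1; push_cast; ring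
    rw [h4]
    calc t ^ (s - 5) * t ^ 4 * B t = t ^ (s - 5) * (B t * t ^ 4) := by ring
      _ ≤ t ^ (s - 5) * C := mul_le_mul_of_nonneg_left h3 (Real.rpow_nonneg ht0.le _)
      _ = C * t ^ (s - 5) := mul_comm _ _

include hB in
theorem Bes.GB_ge : ∀ s : ℝ, 1 < s → s ≤ 2 → B 2 ≤ GB B s := by
  intro s h1 h2
  have hi := hB.integrableOn h1 h2
  have h0 : ∫ t in Ioc (1 : ℝ) 2, t ^ (s - 1) * B t ≤ GB B s :=
    setIntegral_mono_set hi ((ae_restrict_iff' measurableSet_Ioi).mpr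
      (Eventually.of_forall fun t ht => mul_nonneg (Real.rpow_nonneg (le_of_lt ht) _)
        (hB.pos t ht).le))
      (HasSubset.Subset.eventuallyLE (fun t ht => lt_trans zero_lt_one ht.1))
  refine le_trans ?_ h0
  have h3 : ∫ _ in Ioc (1 : ℝ) 2, B 2 ≤ ∫ t in Ioc (1 : ℝ) 2, t ^ (s - 1) * B t := by
    refine setIntegral_mono_on (integrableOn_const (by simp))
      (hi.mono_set (fun t ht => lt_trans zero_lt_one ht.1)) measurableSet_Ioc fun t ht => ?_
    have ht0 : 0 < t := lt_trans zero_lt_one ht.1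
    have h4 : 1 ≤ t ^ (s - 1) := Real.one_le_rpow ht.1.le (by linarith)
    have h5 := hB.anti t 2 ht0 ht.2
    have h6 := hB.pos 2 (by norm_num)
    nlinarith [hB.pos t ht0]
  refine le_trans (le_of_eq ?_) h3
  simp
  norm_num

include hB in
theorem Bes.scaled {s : ℝ} (h1 : 1 < s) (h2 : s ≤ 2) {c : ℝ} (hc : 0 < c) :
    IntegrableOn (fun y : ℝ => y ^ (s - 1) * B (c * y)) (Ioi 0) ∧
    ∫ y in Ioi (0 : ℝ), y ^ (s - 1) * B (c * y) = c ^ (-s) * GB B s := by
  have e : ∀ y ∈ Ioi (0 : ℝ), y ^ (s - 1) * B (c * y) =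
      c ^ (1 - s) * ((c * y) ^ (s - 1) * B (c * y)) := by
    intro y hy
    have hy0 : (0 : ℝ) < y := hy
    rw [Real.mul_rpow hc.le hy0.le, ← mul_assoc, ← mul_assoc, ← Real.rpow_add hc]
    simp
  have hi : IntegrableOn (fun y : ℝ => (c * y) ^ (s - 1) * B (c * y)) (Ioi 0) := by
    have := (integrableOn_Ioi_comp_mul_left_iff (fun t : ℝ => t ^ (s - 1) * B t) 0 hc).mpr
      (by rw [mul_zero]; exact hB.integrableOn h1 h2)
    exact this
  constructor
  · exact (integrableOn_congr_fun e measurableSet_Ioi).mpr (hi.const_mul _)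
  · rw [setIntegral_congr_fun measurableSet_Ioi e, integral_const_mul,
      integral_comp_mul_left_Ioi (fun t : ℝ => t ^ (s - 1) * B t) 0 hc, mul_zero, smul_eq_mul,
      ← mul_assoc, GB]
    congr 1
    rw [← Real.rpow_neg_one, ← Real.rpow_add hc]
    congr 1
    ring

include hB in
/-- termwise Mellin transform -/
theorem Bes.mellin_sum {s : ℝ} (h1 : 1 < s) (h2 : s ≤ 2) {c : ℝ} (hc : 0 < c) (L : ℤ → ℝ)
    (hL0 : L 0 = 0) (hs : Summable fun k : ℤ => |L k| * |(k : ℝ)| ^ (-s)) :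
    ∫ y in Ioi (0 : ℝ), y ^ (s - 1) * ∑' k : ℤ, L k * B (|(k : ℝ)| * (c * y)) =
      c ^ (-s) * GB B s * ∑' k : ℤ, L k * |(k : ℝ)| ^ (-s) := by
  have key : ∀ k : ℤ, IntegrableOn (fun y : ℝ => L k * (y ^ (s - 1) * B (|(k : ℝ)| * (c * y))))
      (Ioi 0) ∧ ∫ y in Ioi (0 : ℝ), |L k| * (y ^ (s - 1) * B (|(k : ℝ)| * (c * y))) =
        c ^ (-s) * GB B s * (|L k| * |(k : ℝ)| ^ (-s)) ∧
      ∫ y in Ioi (0 : ℝ), L k * (y ^ (s - 1) * B (|(k : ℝ)| * (c * y))) =
        c ^ (-s) * GB B s * (L k * |(k : ℝ)| ^ (-s)) := by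
    intro k
    by_cases hk : k = 0
    · subst hk
      rw [hL0]
      simp
    · have hk0 : (0 : ℝ) < |(k : ℝ)| := abs_pos.mpr (by exact_mod_cast hk)
      obtain ⟨h3, h4⟩ := hB.scaled h1 h2 (mul_pos hk0 hc)
      have e : (fun y : ℝ => y ^ (s - 1) * B (|(k : ℝ)| * c * y)) =
          fun y : ℝ => y ^ (s - 1) * B (|(k : ℝ)| * (c * y)) := by
        funext y; rw [mul_assoc]
      rw [e] at h3 h4
      rw [Real.mul_rpow hk0.le hc.le] at h4
      refine ⟨h3.const_mul _, ?_, ?_⟩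
      · rw [integral_const_mul, h4]; ring
      · rw [integral_const_mul, h4]; ring
  have e1 : ∀ y : ℝ, y ^ (s - 1) * ∑' k : ℤ, L k * B (|(k : ℝ)| * (c * y)) =
      ∑' k : ℤ, L k * (y ^ (s - 1) * B (|(k : ℝ)| * (c * y))) := by
    intro y
    rw [← tsum_mul_left]
    refine tsum_congr fun k => by ring
  simp only [e1]
  have h5 := hasSum_integral_of_summable_integral_norm
    (F := fun (k : ℤ) (y : ℝ) => L k * (y ^ (s - 1) * B (|(k : ℝ)| * (c * y))))
    (μ := volume.restrict (Ioi (0 : ℝ))) (fun k => (key k).1) (by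
      have e2 : (fun k : ℤ => ∫ y in Ioi (0 : ℝ), ‖L k * (y ^ (s - 1) *
          B (|(k : ℝ)| * (c * y)))‖) = fun k : ℤ => c ^ (-s) * GB B s *
            (|L k| * |(k : ℝ)| ^ (-s)) := by
        funext k
        rw [← (key k).2.1]
        refine setIntegral_congr_fun measurableSet_Ioi fun y hy => ?_
        have hy0 : (0 : ℝ) < y := hy
        show ‖_‖ = _
        rw [norm_mul, Real.norm_eq_abs]
        by_cases hk : k = 0
        · subst hk; rw [hL0]; simp
        · have hk0 : (0 : ℝ) < |(k : ℝ)| := abs_pos.mpr (by exact_mod_cast hk)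
          rw [Real.norm_of_nonneg (mul_nonneg (Real.rpow_nonneg hy0.le _)
            (hB.pos _ (by positivity)).le)]
      rw [e2]
      exact hs.mul_left _)
  rw [← h5.tsum_eq, ← tsum_mul_left]
  exact tsum_congr fun k => (key k).2.2

end Fermat.Agent.LT.RS
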