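import Mathlib
import Fermat.Agent.LT.RS.Plane
import Fermat.Agent.LT.RS.Mellin
import Fermat.Agent.LT.RS.Fub

/-!
# T5: nonvanishing of a period over a plane
-/

set_option autoImplicit false
set_option linter.unusedSectionVars false

open NumberField Finset MeasureTheory Filter Topology UpperHalfPlane
open scoped MatrixGroups

namespace Fermat.Agent.LT.RS

open Fermat.Agent.LT.Asai

variable {K : Type*} [Field K] [NumberField K] [IsCyclotomicExtension {3} ℚ K]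

local notation "α" => algebraMap (𝓞 K) K

section dens

open Classical in
/-- partial prime zeta function -/
noncomputable def iP (P : ℕ → Prop) (s : ℝ) (p : Nat.Primes) : ℝ :=
  if P p then ((p : ℕ) : ℝ) ^ (-s) else 0

theorem iP_pos {P : ℕ → Prop} {p : Nat.Primes} (s : ℝ) (h : P p) :
    iP P s p = ((p : ℕ) : ℝ) ^ (-s) := if_pos h

theorem iP_neg {P : ℕ → Prop} {p : Nat.Primes} (s : ℝ) (h : ¬ P p) : iP P s p = 0 := if_neg h

theorem rpow_nn (s : ℝ) (p : Nat.Primes) : 0 ≤ ((p : ℕ) : ℝ) ^ (-s) :=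
  Real.rpow_nonneg (Nat.cast_nonneg _) _

theorem summable_iP {s : ℝ} (h1 : 1 < s) (P : ℕ → Prop) : Summable (iP P s) := by
  refine Summable.of_nonneg_of_le (fun p => ?_) (fun p => ?_)
    (Nat.Primes.summable_rpow.mpr (by linarith : -s < -1))
  · by_cases h : P p
    · rw [iP_pos s h]; exact rpow_nn s p
    · rw [iP_neg s h]
  · by_cases h : P p
    · rw [iP_pos s h]
    · rw [iP_neg s h]; exact rpow_nn s p

theorem DensGE.remove {T : ℕ → Prop} {δ : ℝ} (hT : DensGE T δ) {Q : ℕ} (hQ : Q ≠ 0) :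
    DensGE (fun p => T p ∧ ¬ p ∣ Q) δ := by
  classical
  intro ε hε
  obtain ⟨C, hC⟩ := hT ε hε
  refine ⟨C + Q.divisors.card, fun s h1 h2 => ?_⟩
  have h3 : (δ - ε) * Real.log (1 / (s - 1)) - C ≤ ∑' p, iP T s p := hC s h1 h2
  have sub := summable_iP h1
  have h4 : ∑' p, iP T s p ≤ (∑' p, iP (fun p => T p ∧ ¬ p ∣ Q) s p) +
      ∑' p, iP (fun p => p ∣ Q) s p := by
    rw [← (sub (fun p => T p ∧ ¬ p ∣ Q)).tsum_add (sub (fun p => p ∣ Q))]
    refine (sub T).tsum_le_tsum (fun p => ?_)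
      ((sub (fun p => T p ∧ ¬ p ∣ Q)).add (sub (fun p => p ∣ Q)))
    by_cases ht : T p
    · by_cases hq : (p : ℕ) ∣ Q
      · rw [iP_pos s ht, iP_pos (P := fun p => p ∣ Q) s hq,
          iP_neg (P := fun p => T p ∧ ¬ p ∣ Q) s (fun h => h.2 hq), zero_add]
      · rw [iP_pos s ht, iP_neg (P := fun p => p ∣ Q) s hq,
          iP_pos (P := fun p => T p ∧ ¬ p ∣ Q) s ⟨ht, hq⟩, add_zero]
    · rw [iP_neg s ht, iP_neg (P := fun p => T p ∧ ¬ p ∣ Q) s (fun h => ht h.1), zero_add]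
      by_cases hq : (p : ℕ) ∣ Q
      · rw [iP_pos (P := fun p => p ∣ Q) s hq]; exact rpow_nn s p
      · rw [iP_neg (P := fun p => p ∣ Q) s hq]
  have h5 : ∑' p, iP (fun p => p ∣ Q) s p ≤ Q.divisors.card := by
    refine (sub (fun p => p ∣ Q)).tsum_le_of_sum_le fun T' => ?_
    calc ∑ p ∈ T', iP (fun p => p ∣ Q) s p
        ≤ ∑ p ∈ T', (if (p : ℕ) ∣ Q then (1 : ℝ) else 0) := by
          refine Finset.sum_le_sum fun p _ => ?_
          by_cases hq : (p : ℕ) ∣ Q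
          · rw [iP_pos (P := fun p => p ∣ Q) s hq, if_pos hq]
            apply Real.rpow_le_one_of_one_le_of_nonpos
            · exact_mod_cast p.2.one_lt.le
            · linarith
          · rw [iP_neg (P := fun p => p ∣ Q) s hq, if_neg hq]
      _ = ((T'.filter fun p : Nat.Primes => (p : ℕ) ∣ Q).card : ℝ) := by
          rw [Finset.sum_ite, Finset.sum_const_zero, add_zero, Finset.sum_const, nsmul_eq_mul,
            mul_one]
      _ ≤ Q.divisors.card := by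
          have h6 : ((T'.filter fun p : Nat.Primes => (p : ℕ) ∣ Q).image
              (fun p : Nat.Primes => (p : ℕ))) ⊆ Q.divisors := by
            intro n hn
            rw [Finset.mem_image] at hn
            obtain ⟨p, hp, rfl⟩ := hn
            rw [Finset.mem_filter] at hp
            exact Nat.mem_divisors.mpr ⟨hp.2, hQ⟩
          have h7 := Finset.card_le_card h6
          rw [Finset.card_image_of_injective (f := fun p : Nat.Primes => (p : ℕ)) _
            (fun p q h => Subtype.ext h)] at h7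
          exact_mod_cast h7
  have h8 : ∑' p, iP (fun p => T p ∧ ¬ p ∣ Q) s p = ∑' p : Nat.Primes,
    @ite ℝ (T p ∧ ¬ (p : ℕ) ∣ Q) (Classical.propDecidable _) (((p : ℕ) : ℝ) ^ (-s)) 0 := rfl
  rw [h8] at h4
  have h9 : (δ - ε) * Real.log (1 / (s - 1)) - (C + Q.divisors.card) ≤ ∑' p : Nat.Primes,
    @ite ℝ (T p ∧ ¬ (p : ℕ) ∣ Q) (Classical.propDecidable _) (((p : ℕ) : ℝ) ^ (-s)) 0 := by
    linarith
  exact h9

end dens

section

variable {i : K →+* ℂ} {N : ℕ} {φ : H3 → ℂ} {a : K → ℂ} {κ : 𝓞 K → ℂ} {lam : 𝓞 K → ℝ}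
  {B : ℝ → ℝ} (F : KForm i N φ a κ lam B) (hB : Bes B)

include F hB in
theorem KForm.exists_coef (hφ : φ ≠ 0) : ∃ μ, a μ ≠ 0 := by
  by_contra hcon
  push Not at hcon
  apply hφ
  funext p
  obtain ⟨z, y, hy⟩ := p
  have h1 := F.hasSum hB z hy
  have h2 : (fun m => ct i N a B y m * eT (2 * (i (dpt K N m) * z).re)) = fun _ => (0 : ℂ) := by
    funext m
    rw [ct, hcon]
    simp
  rw [h2] at h1
  exact h1.unique hasSum_zero

theorem lamZ_tsum {Q : ℕ} {u u' : ℕ → ℝ} (H : RSInput Q u u') {s : ℝ} (h1 : 1 < s) (h2 : s ≤ 2) :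
    (Summable fun k : ℤ => |Lam (locA Q u u') k.natAbs| * |(k : ℝ)| ^ (-s)) ∧
    ∑' k : ℤ, Lam (locA Q u u') k.natAbs * |(k : ℝ)| ^ (-s) = 2 * ∑' n : ℕ, fA Q u u' s n := by
  have hs := summable_fA H h1 h2
  have e1 : ∀ n : ℕ, Lam (locA Q u u') (n : ℤ).natAbs * |((n : ℤ) : ℝ)| ^ (-s) =
      fA Q u u' s n := by
    intro n
    rw [fA, Int.natAbs_natCast, Int.cast_natCast, abs_of_nonneg (Nat.cast_nonneg n)]
  have e2 : ∀ n : ℕ, Lam (locA Q u u') (-(n : ℤ)).natAbs * |((-(n : ℤ) : ℤ) : ℝ)| ^ (-s) =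
      fA Q u u' s n := by
    intro n
    rw [fA, Int.natAbs_neg, Int.natAbs_natCast, Int.cast_neg, abs_neg, Int.cast_natCast,
      abs_of_nonneg (Nat.cast_nonneg n)]
  have e3 : ∀ k : ℤ, ‖Lam (locA Q u u') k.natAbs * |(k : ℝ)| ^ (-s)‖ =
      |Lam (locA Q u u') k.natAbs| * |(k : ℝ)| ^ (-s) := by
    intro k
    rw [norm_mul, Real.norm_eq_abs, Real.norm_of_nonneg (Real.rpow_nonneg (abs_nonneg _) _)]
  have hs1 : Summable fun n : ℕ => ‖Lam (locA Q u u') (n : ℤ).natAbs *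
      |((n : ℤ) : ℝ)| ^ (-s)‖ := by
    simpa only [e1] using hs
  have hs2 : Summable fun n : ℕ => ‖Lam (locA Q u u') (-(n : ℤ)).natAbs *
      |((-(n : ℤ) : ℤ) : ℝ)| ^ (-s)‖ := by
    simpa only [e2] using hs
  constructor
  · have := Summable.of_nat_of_neg (f := fun k : ℤ => ‖Lam (locA Q u u') k.natAbs *
      |(k : ℝ)| ^ (-s)‖) hs1 hs2
    simpa only [e3] using this
  · have := Summable.tsum_of_nat_of_neg (f := fun k : ℤ => Lam (locA Q u u') k.natAbs *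
      |(k : ℝ)| ^ (-s)) hs1.of_norm hs2.of_norm
    rw [this]
    simp only [e1, e2]
    simp [Lam_zero]
    ring

include F hB in
/-- **T5: there is a nonzero period over a plane.** -/
theorem hasPeriod (hφ : φ ≠ 0) {TA TD : ℕ → Prop} (L : LamInfo N lam TA TD) :
    HasPeriod i φ := by
  classical
  obtain ⟨μ, hμ⟩ := F.exists_coef hB hφ
  have H := F.coefSys hB
  obtain ⟨v, S⟩ := exists_sys (K := K) i
  obtain ⟨x0, x0', D, P⟩ := exists_pdata H hμ
  have hN := F.pos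
  have R := H.rsInput S P.num hμ L.inert
  have hQ0 : 0 < QQ i N x0 := by
    rw [QQ, ← P.D_eq]
    have := P.D_pos
    positivity
  have : NeZero (D * QQ i N x0) := ⟨(Nat.mul_pos P.D_pos hQ0).ne'⟩
  by_contra hno
  -- unboundedness
  refine unbounded R (fun p => TA p ∧ ¬ p ∣ QQ i N x0) (fun p => TD p ∧ ¬ p ∣ QQ i N x0)
    ?_ ?_ (DensGE.remove L.dA hQ0.ne') (DensGE.remove L.dD hQ0.ne') ?_
  · rintro p hp ⟨hTA, hpQ⟩
    obtain ⟨h3, c, hc, hc'⟩ := L.hA p hp hTA fun h => hpQ (h.trans (N_dvd_QQ x0))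
    refine ⟨⟨hp, hpQ, h3⟩, ?_, ?_⟩
    · rw [uu, if_pos h3, uu', hc' _ (S.prime p hp h3 true) ⟨_, (S.mul p hp h3).symm⟩,
        hc' _ (S.prime p hp h3 false) ⟨_, by rw [mul_comm]; exact (S.mul p hp h3).symm⟩]
    · rw [uu, if_pos h3, hc' _ (S.prime p hp h3 true) ⟨_, (S.mul p hp h3).symm⟩, hc]
  · rintro p hp ⟨hTD, hpQ⟩
    obtain ⟨h3, hc⟩ := L.hD p hp hTD fun h => hpQ (h.trans (N_dvd_QQ x0))
    exact ⟨hpQ, h3, by rw [uu, if_neg (by omega), hc]⟩
  -- boundedness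
  have hal0 : 0 < ‖i (alp N x0' D)‖ := norm_alp_pos P hN
  have hal : alp N x0' D ≠ 0 := by
    intro h
    rw [h] at hal0
    simp at hal0
  set al : K := alp N x0' D with haldef
  set be : ZMod (D * QQ i N x0) → K := fun j =>
    bet N x0' ((j.val : ℚ) / (D * QQ i N x0 : ℕ)) with hbe
  obtain ⟨m0, hm0'⟩ := exists_den al be
  have hm0 : ∀ j, Den m0 al (be j) := fun j => (hm0' j).resolve_right (fun h => h.false j)
  have hm0pos : 0 < m0 := (hm0 0).pos
  set k' : ℕ := 3 * N * m0 with hk'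
  have hk'pos : 0 < k' := by positivity
  set M : ℕ := D * k' with hMdef
  have hDpos := P.D_pos
  have hM3 : 3 ≤ M := by
    have h1 : 1 ≤ D * (N * m0) := Nat.mul_pos hDpos (Nat.mul_pos hN hm0pos)
    calc 3 = 3 * 1 := rfl
      _ ≤ 3 * (D * (N * m0)) := Nat.mul_le_mul_left 3 h1
      _ = M := by rw [hMdef, hk']; ring
  have hMdvd : N * m0 ∣ M := ⟨3 * D, by rw [hMdef, hk']; ring⟩
  -- zero periods
  have hz : ∀ j, ∃ w, IsWtS (CongruenceSubgroup.Gamma M) w ∧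
      ∫ τ : ℍ, ((w τ).toReal : ℂ) * plane i φ al (be j) hal τ = 0 := by
    intro j
    by_contra hcon
    push Not at hcon
    exact hno ⟨al, be j, hal, M, by omega, measurable_plane F hal,
      plane_inv F (hm0 j) hal hMdvd, plane_decay F (hm0 j) hal, hcon⟩
  have hsb : ∀ j, ∃ C : ℝ, ∀ s : ℝ, 1 < s → s ≤ 2 →
      (∫⁻ τ, ‖hS M (plane i φ al (be j) hal) s τ‖ₑ ≠ ⊤) ∧
      ‖∫ τ, hS M (plane i φ al (be j) hal) s τ‖ ≤ C := by
    intro j
    obtain ⟨w, hw, hw0⟩ := hz j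
    obtain ⟨C1, hC1⟩ := plane_decay F (hm0 j) hal
    exact strip_bound hM3 (measurable_plane F hal) (plane_inv F (hm0 j) hal hMdvd) hC1 hw hw0
  choose C hC using hsb
  obtain ⟨w, hw⟩ := comb S P F hB
  set G : ZMod (D * QQ i N x0) → ℝ → ℝ → ℂ := fun j x y =>
    if hy : 0 < y then φ ⟨i al * x + i (be j), ‖i al‖ * y, mul_pos hal0 hy⟩ else 0 with hG
  have hGp : ∀ j, ∀ τ : ℍ, plane i φ al (be j) hal τ = G j τ.re τ.im := by
    intro j τ
    rw [hG]
    simp only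
    rw [dif_pos τ.im_pos]
    rfl
  set c0 : ℂ := ((D * k' : ℕ) : ℂ) * a μ with hc0
  have hc0ne : c0 ≠ 0 := by
    rw [hc0]
    refine mul_ne_zero ?_ hμ
    exact_mod_cast (Nat.mul_pos hDpos hk'pos).ne'
  have h3pos : 0 < Real.sqrt 3 := Real.sqrt_pos.mpr (by norm_num)
  -- the main identity
  have key : ∀ s : ℝ, 1 < s → s ≤ 2 →
      ∑ j, w j * ∫ τ, hS M (plane i φ al (be j) hal) s τ =
        c0 * ((‖i al‖ * (Real.sqrt 3 ^ (-s) * GB B s *
          (2 * ∑' n : ℕ, fA (QQ i N x0) (uu lam v) (uu' lam v) s n)) : ℝ) : ℂ) := by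
    intro s h1 h2
    have hfub := fun j => integral_hS (measurable_plane F hal) (hC j s h1 h2).1 (G j) (hGp j)
    obtain ⟨hsumm, htsum⟩ := lamZ_tsum R h1 h2
    have hms := hB.mellin_sum h1 h2 h3pos
      (fun k : ℤ => LamZ i N lam v x0 k) (by simp [LamZ, Lam_zero]) hsumm
    have e1 : ∑ j, w j * ∫ τ, hS M (plane i φ al (be j) hal) s τ =
        ∫ y in Set.Ioi (0 : ℝ), ∑ j, w j * (((y ^ (s - 2) : ℝ) : ℂ) *
          ∫ x in Set.Ioc (0 : ℝ) M, G j x y) := by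
      rw [integral_finsetSum _ (fun j _ => ((hfub j).1.const_mul (w j)))]
      refine Finset.sum_congr rfl fun j _ => ?_
      rw [integral_const_mul, (hfub j).2]
    have e2 : ∀ y ∈ Set.Ioi (0 : ℝ), ∑ j, w j * (((y ^ (s - 2) : ℝ) : ℂ) *
          ∫ x in Set.Ioc (0 : ℝ) M, G j x y) =
        (c0 * (‖i al‖ : ℂ)) * (((y ^ (s - 1) * ∑' k : ℤ, LamZ i N lam v x0 k *
          B (|(k : ℝ)| * (Real.sqrt 3 * y))) : ℝ) : ℂ) := by
      intro y hy
      have hy0 : (0 : ℝ) < y := hy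
      have h3 := (hw hk'pos (mul_pos hal0 hy0)).tsum_eq
      have e3 : ∀ j : ZMod (D * QQ i N x0), ∫ x in Set.Ioc (0 : ℝ) M, G j x y =
          ∫ x in Set.Ioc (0 : ℝ) ((D * k' : ℕ) : ℝ), φ ⟨i (alp N x0' D) * x +
            i (bet N x0' ((j.val : ℚ) / (D * QQ i N x0 : ℕ))), ‖i al‖ * y, mul_pos hal0 hy0⟩ := by
        intro j
        refine setIntegral_congr_fun measurableSet_Ioc fun x _ => ?_
        show G j x y = _
        rw [hG]
        simp only
        rw [dif_pos hy0]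
      have e4 : ∑ j, w j * (((y ^ (s - 2) : ℝ) : ℂ) * ∫ x in Set.Ioc (0 : ℝ) M, G j x y) =
          ((y ^ (s - 2) : ℝ) : ℂ) * ∑ j : ZMod (D * QQ i N x0), w j *
            ∫ x in Set.Ioc (0 : ℝ) ((D * k' : ℕ) : ℝ), φ ⟨i (alp N x0' D) * x +
            i (bet N x0' ((j.val : ℚ) / (D * QQ i N x0 : ℕ))), ‖i al‖ * y,
              mul_pos hal0 hy0⟩ := by
        rw [Finset.mul_sum]
        refine Finset.sum_congr rfl fun j _ => ?_
        rw [e3 j]
        ring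
      rw [e4, ← h3, tsum_mul_left, ← Complex.ofReal_tsum]
      have e5 : ∑' k : ℤ, LamZ i N lam v x0 k * (‖i al‖ * y *
          B (|(k : ℝ)| * (‖i μ‖ * (‖i al‖ * y)))) =
          ‖i al‖ * y * ∑' k : ℤ, LamZ i N lam v x0 k * B (|(k : ℝ)| * (Real.sqrt 3 * y)) := by
        rw [← tsum_mul_left]
        refine tsum_congr fun k => ?_
        rw [← mul_assoc ‖i μ‖, norm_mu_alp P hN]
        ring
      rw [e5]
      have e6 : y ^ (s - 1) = y ^ (s - 2) * y := by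
        rw [← Real.rpow_add_one hy0.ne']
        congr 1
        ring
      rw [e6]
      generalize (∑' k : ℤ, LamZ i N lam v x0 k * B (|(k : ℝ)| * (Real.sqrt 3 * y))) = TT
      rw [hc0]
      push_cast
      ring
    rw [e1, setIntegral_congr_fun measurableSet_Ioi e2, integral_const_mul,
      integral_complex_ofReal, hms]
    have e7 : ∑' k : ℤ, LamZ i N lam v x0 k * |(k : ℝ)| ^ (-s) =
        2 * ∑' n : ℕ, fA (QQ i N x0) (uu lam v) (uu' lam v) s n := htsum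
    rw [e7]
    generalize (∑' n : ℕ, fA (QQ i N x0) (uu lam v) (uu' lam v) s n) = TT
    push_cast
    ring
  -- conclusion
  have hB2 := hB.pos 2 (by norm_num)
  have hc0n : 0 < ‖c0‖ := norm_pos_iff.mpr hc0ne
  refine ⟨(∑ j, ‖w j‖ * C j) / (‖c0‖ * ‖i al‖ * (1 / 3) * B 2 * 2), fun s h1 h2 => ?_⟩
  have h3 := key s h1 h2
  have h4 : ‖∑ j, w j * ∫ τ, hS M (plane i φ al (be j) hal) s τ‖ ≤ ∑ j, ‖w j‖ * C j := by
    refine (norm_sum_le _ _).trans (Finset.sum_le_sum fun j _ => ?_)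
    rw [norm_mul]
    exact mul_le_mul_of_nonneg_left (hC j s h1 h2).2 (norm_nonneg _)
  rw [h3, norm_mul, Complex.norm_real, Real.norm_eq_abs, abs_mul, abs_mul, abs_mul, abs_mul] at h4
  have hG2 := hB.GB_ge s h1 h2
  have hr3 : (1 / 3 : ℝ) ≤ Real.sqrt 3 ^ (-s) := by
    have h5 : Real.sqrt 3 ^ (-(2 : ℝ)) ≤ Real.sqrt 3 ^ (-s) := by
      apply Real.rpow_le_rpow_of_exponent_le
      · rw [Real.one_le_sqrt]; norm_num
      · linarith
    have h6 : Real.sqrt 3 ^ (-(2 : ℝ)) = 1 / 3 := by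
      rw [Real.rpow_neg h3pos.le, Real.rpow_two, Real.sq_sqrt (by norm_num)]
      norm_num
    linarith
  rw [le_div_iff₀ (by positivity)]
  rw [abs_of_pos hal0, abs_of_pos (lt_of_lt_of_le (by norm_num) hr3),
    abs_of_pos (lt_of_lt_of_le hB2 hG2), abs_of_pos (by norm_num : (0 : ℝ) < 2)] at h4
  set T := |∑' n : ℕ, fA (QQ i N x0) (uu lam v) (uu' lam v) s n| with hT
  have hT0 : 0 ≤ T := abs_nonneg _
  calc T * (‖c0‖ * ‖i al‖ * (1 / 3) * B 2 * 2)
      = ‖c0‖ * (‖i al‖ * ((1 / 3) * B 2 * (2 * T))) := by ring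
    _ ≤ ‖c0‖ * (‖i al‖ * (Real.sqrt 3 ^ (-s) * GB B s * (2 * T))) := by gcongr
    _ ≤ _ := h4

end

end Fermat.Agent.LT.RS
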